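import Mathlib
import Fermat.Agent.MU.R38.Ret.Defs
import Fermat.Agent.Lib.GaussInt.Basic
import Fermat.Agent.Lib.Kronecker.Formal
import Fermat.Agent.F3.Galois.NormDesc
import Fermat.Agent.MU.Lib.BadRed.ALFun

section MergeWrap_R38_Ret_BridgeDefs -- from R38/Ret/BridgeDefs.lean

/-!
# Row 38 (target S44), block R, seat R-6 (BRIDGE): interface propositions  (helper76)

`D : ALData`, `p = D.Q` prime, `M = D.R` prime to `p`, `N = p M`, `A` a place of `ℚ̄` over `p`,
`k` its residue field, `Fk = modularFunctionFieldFullC k M` (the function field of `X₀(M)` mod `p`,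
which is ALSO the residue field of the Gauss valuation `v_∞` of `F_N`: `BadRed.IsGaussSetup`).

* `IsFormalNorm ℓ w W` : `W(q^ℓ) = w(q^{ℓ²}) ∏_{b<ℓ} w(ζ^b q)` in `k((q))` (`W = T̄_ℓ w`);
* `NpfRed p` (**KEY**, seat R-6k): the reduction of `T_ℓ f = Norm (f(q^ℓ))` is the formal norm of the
  reduction of `f`, at EVERY level `N` and for every Gauss unit `f` (`ℓ ≠ p`, `ℓ ∤ N`).
  From `Kronecker.normProductFormula` (on main, unconditional) and presentations `f = Y₁ / Y₂`;
* `BridgeInput D S A a` (delivered by the level-`N` side, seat R-6a): a Gauss unit `g` of `F_N`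
  whose reduction `h ∈ Fk` has a divisor divisible by `p` (`mu(y) = 0`), is not a `p`-th power
  (`Ψ(y) ≠ 0`), and `T_ℓ g = c g^{a ℓ} φ^p` (`T_ℓ y = a ℓ • y`, `y = [(1/p) div g]`);
* `BridgeStatement D S` : `BridgeInput → RetInput` (seat R-6b, the level-`M` side).
-/

set_option autoImplicit false
set_option synthInstance.maxHeartbeats 400000

noncomputable section

namespace Fermat.Agent.R38Ret

open ModularCurve AlgebraicCurve HahnSeries Fermat.Agent.GaussInt Fermat.Agent.Kronecker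
  Fermat.Agent.F3G Fermat.Agent.AtkinLehner

local notation "Qb" => AlgebraicClosure ℚ

/-- `W` is the formal Hecke norm of `w`: `W(q^ℓ) = w(q^{ℓ²}) ∏_{b<ℓ} w(ζ^b q)`. -/
def IsFormalNorm {k : Type*} [Field k] (ℓ : ℕ) [NeZero ℓ] (w W : LaurentSeries k) : Prop :=
  ∃ ζ : kˣ, IsPrimitiveRoot ζ ℓ ∧
    qExpand k ℓ W = qExpand k (ℓ * ℓ) w * ∏ b ∈ Finset.range ℓ, scaleL (ζ ^ b) w

/-- **KEY (NPF-red)**: reduction commutes with the Hecke norm on functions, at every level. -/
def NpfRed (p : ℕ) : Prop :=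
  ∀ (N ℓ : ℕ) [NeZero N] [NeZero ℓ], ℓ.Prime → ¬ ℓ ∣ N → ℓ ≠ p →
    ∀ A : ValuationSubring Qb, A.LiesOverPrime p →
      ∀ f : ↥(modularFunctionFieldBar N),
        (f : LaurentSeries Qb) ∈ gaussSub A (modularFunctionFieldBar N) →
        gaussResFun A (modularFunctionFieldBar N) (f : LaurentSeries Qb) ≠ 0 →
        ((heckeFun Qb N ℓ f : ↥(modularFunctionFieldBar N)) : LaurentSeries Qb) ∈
            gaussSub A (modularFunctionFieldBar N) ∧
          IsFormalNorm ℓ (gaussResFun A (modularFunctionFieldBar N) (f : LaurentSeries Qb))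
            (gaussResFun A (modularFunctionFieldBar N)
              ((heckeFun Qb N ℓ f : ↥(modularFunctionFieldBar N)) : LaurentSeries Qb))

/-- **INPUT of the bridge** (function form, level `N = D.Q * D.R`, Gauss valuation `v_∞`). -/
def BridgeInput (D : ALData) [NeZero (D.Q * D.R)] (S : Finset ℕ) (A : ValuationSubring Qb)
    (a : ℕ → ℤ) : Prop :=
  ∃ (g : ↥(modularFunctionFieldBar (D.Q * D.R)))
    (h : ↥(modularFunctionFieldFullC (IsLocalRing.ResidueField A) D.R)),
    (g : LaurentSeries Qb) ∈ gaussSub A (modularFunctionFieldBar (D.Q * D.R)) ∧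
    (h : LaurentSeries (IsLocalRing.ResidueField A)) =
      gaussResFun A (modularFunctionFieldBar (D.Q * D.R)) (g : LaurentSeries Qb) ∧
    h ≠ 0 ∧
    (∀ Q : Place (IsLocalRing.ResidueField A)
        ↥(modularFunctionFieldFullC (IsLocalRing.ResidueField A) D.R), (D.Q : ℤ) ∣ Q.ord h) ∧
    (¬ ∃ s : ↥(modularFunctionFieldFullC (IsLocalRing.ResidueField A) D.R), s ^ D.Q = h) ∧
    ∀ ℓ : Nat.Primes, (ℓ : ℕ) ∉ S →
      haveI : NeZero (ℓ : ℕ) := ⟨ℓ.2.ne_zero⟩
      ∃ (c : Qb) (φ : ↥(modularFunctionFieldBar (D.Q * D.R))), c ≠ 0 ∧ φ ≠ 0 ∧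
        heckeFun Qb (D.Q * D.R) (ℓ : ℕ) g =
          algebraMap Qb ↥(modularFunctionFieldBar (D.Q * D.R)) c * g ^ (a ℓ) * φ ^ D.Q

/-- **(BRIDGE)**, the deliverable of seat R-6b. -/
def BridgeStatement (D : ALData) [NeZero (D.Q * D.R)] [NeZero D.R] (S : Finset ℕ) : Prop :=
  ∀ A : ValuationSubring Qb, A.LiesOverPrime D.Q → ∀ a : ℕ → ℤ,
    BridgeInput D S A a → RetInput D.Q D.R S A a

end Fermat.Agent.R38Ret
end
end MergeWrap_R38_Ret_BridgeDefs
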