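import Mathlib
import Fermat.Prelude.Def_ModularCurve_ArithmeticGalois
import Fermat.Agent.MU.E.S15.HeckeRedCore
import Fermat.Agent.MU.S37.Maps
import Fermat.Agent.MU.E.S15.HeckeRedMod
import Fermat.Agent.Lib.GaussInt.Galois
import Fermat.Agent.Lib.BadRed.Mod.FrobAut
import Fermat.Agent.MU.Lib.Div.Inst

section MergeWrap_R38_Ret_GalRedCore -- from R38/Ret/GalRedCore.lean

set_option autoImplicit false
set_option linter.style.haveILetI false
set_option linter.unusedSectionVars false

noncomputable section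

open AlgebraicCurve Fermat.Agent.RR Fermat.Agent.Deuring Fermat.Agent.FF Fermat.Agent.RedTr

namespace Fermat.Agent.R38Ret

variable {K E k Ek : Type*} [Field K] [Field E] [Algebra K E]
  [Field k] [Field Ek] [Algebra k Ek]

/-- the push-forward along `P ↦ gk⁻¹ • r (g • P)`. -/
theorem galRed_mapDomain (g : SemilinearAut K E) (gk : SemilinearAut k Ek)
    (r : Place K E → Place k Ek) (D : Divisor K E) :
    Finsupp.mapDomain (fun P => gk⁻¹ • r (g • P)) D =
      gk⁻¹ • Finsupp.mapDomain r (g • D) := by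
  rw [SemilinearAut.divisor_smul_def, SemilinearAut.divisor_smul_def,
    ← Finsupp.mapDomain_comp, ← Finsupp.mapDomain_comp]
  rfl

/-- `P ↦ gk⁻¹ • r (g • P)` has the push property. -/
theorem galRed_isPush (S : ValSetup K E k Ek) (g : SemilinearAut K E)
    (gk : SemilinearAut k Ek)
    (hmem : ∀ f : E, f ∈ S.Ov → g • f ∈ S.Ov)
    (hred : ∀ f : E, f ∈ S.Ov → S.red (g • f) = gk • S.red f)
    {r : Place K E → Place k Ek} (hr : IsPush S r) :
    IsPush S (fun P => gk⁻¹ • r (g • P)) := by
  intro f hf hf' hf0 Q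
  have hgf : g • f ∈ S.Ov := hmem f hf
  have hgf' : (g • f)⁻¹ ∈ S.Ov := by
    have h := hmem _ hf'
    rwa [smul_inv''] at h
  have hgf0 : g • f ≠ 0 := by
    rwa [Ne, smul_eq_zero_iff_eq]
  rw [galRed_mapDomain, ← Fermat.Agent.S37.divOf_smul_aut S.hF g f, ← redDiv_apply,
    Fermat.Agent.ES15.heckeRed_redDiv_divOf hr hgf hgf' hgf0, hred f hf,
    Fermat.Agent.S37.divOf_smul_aut S.hFk gk, inv_smul_smul, divOf_apply]

/-- **the reduction of divisors of degree `0` commutes with semilinear automorphisms.** -/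
theorem galRed_redDiv (S : ValSetup K E k Ek) (g : SemilinearAut K E)
    (gk : SemilinearAut k Ek)
    (hmem : ∀ f : E, f ∈ S.Ov → g • f ∈ S.Ov)
    (hred : ∀ f : E, f ∈ S.Ov → S.red (g • f) = gk • S.red f)
    {r : Place K E → Place k Ek} (hr : IsPush S r)
    (hdiv : ∀ n : ℕ, n ≠ 0 → ∀ x : Pic0 K E, ∃ y : Pic0 K E, n • y = x)
    {D : Divisor K E} (hD : D ∈ Divisor.degZero (K := K) (F := E)) :
    redDiv r (g • D) = gk • redDiv r D := by
  have h := Fermat.Agent.ES15.heckeRed_redDiv_eq S (galRed_isPush S g gk hmem hred hr) hr hdiv hD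
  rw [redDiv_apply, galRed_mapDomain, ← redDiv_apply] at h
  rw [← h, smul_inv_smul]

end Fermat.Agent.R38Ret
end
end MergeWrap_R38_Ret_GalRedCore

section MergeWrap_R38_Ret_GalRed -- from R38/Ret/GalRed.lean

set_option autoImplicit false
set_option linter.style.haveILetI false
set_option linter.unusedSectionVars false
set_option synthInstance.maxHeartbeats 400000

noncomputable section

open AlgebraicCurve ModularCurve HahnSeries Fermat.Agent.RR Fermat.Agent.Deuring Fermat.Agent.FF
  Fermat.Agent.RedTr Fermat.Agent.GaussInt Fermat.Agent.GaussIntFP Fermat.Agent.BadRed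

namespace Fermat.Agent.R38Ret

local notation "Qb" => AlgebraicClosure ℚ
local notation "GQ" => (AlgebraicClosure ℚ ≃ₐ[ℚ] AlgebraicClosure ℚ)

section Modular

variable (A : ValuationSubring Qb) (ℓ M : ℕ) [NeZero M]
  (hℓ : ℓ.Prime) (hA : A.LiesOverPrime ℓ) (hℓM : ¬ ℓ ∣ M)

/-- the automorphism of the residue field induced by an element of the decomposition group. -/
def galRedBar (σ : GQ) (hσ : σ ∈ A.decompositionSubgroup ℚ) :
    IsLocalRing.ResidueField A ≃+* IsLocalRing.ResidueField A :=
  MulSemiringAction.toRingAut (A.decompositionSubgroup ℚ) (IsLocalRing.ResidueField A) ⟨σ, hσ⟩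

theorem galRedBar_apply (σ : GQ) (hσ : σ ∈ A.decompositionSubgroup ℚ)
    (x : IsLocalRing.ResidueField A) :
    galRedBar A σ hσ x = (⟨σ, hσ⟩ : A.decompositionSubgroup ℚ) • x := rfl

/-- the function field of level `M` is stable under the coefficientwise Galois action. -/
theorem galRed_coeffMap_mem (σ : GQ) :
    ∀ y ∈ modularFunctionFieldBar M, coeffMap (σ : Qb →+* Qb) y ∈ modularFunctionFieldBar M :=
  fun _ hy => coeffMap_mem_laurentBaseChange σ hy

/-- the Gauss ring of level `M` is stable under the decomposition group. -/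
theorem galRed_mem (σ : GQ) (hσ : σ ∈ A.decompositionSubgroup ℚ)
    (f : modularFunctionFieldBar M) (hf : f ∈ (modularValSetup A ℓ M hℓ hA hℓM).Ov) :
    arithmeticGalois (modularFunctionFieldFull M) σ • f ∈
      (modularValSetup A ℓ M hℓ hA hℓM).Ov := by
  rw [mem_modularValSetup_Ov_iff, coe_arithmeticGalois_smul]
  exact (gaussResFun_decomposition σ hσ (galRed_coeffMap_mem M σ)
    ((mem_modularValSetup_Ov_iff A ℓ M hℓ hA hℓM f).mp hf)).1

set_option maxHeartbeats 1600000 in
/-- the residue map of level `M` is equivariant for the decomposition group. -/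
theorem galRed_red (σ : GQ) (hσ : σ ∈ A.decompositionSubgroup ℚ)
    (f : modularFunctionFieldBar M) (hf : f ∈ (modularValSetup A ℓ M hℓ hA hℓM).Ov) :
    (modularValSetup A ℓ M hℓ hA hℓM).red (arithmeticGalois (modularFunctionFieldFull M) σ • f) =
      coeffAut (IsLocalRing.ResidueField A) M (galRedBar A σ hσ) •
        (modularValSetup A ℓ M hℓ hA hℓM).red f := by
  have hf' := (mem_modularValSetup_Ov_iff A ℓ M hℓ hA hℓM f).mp hf
  have hgf := galRed_mem A ℓ M hℓ hA hℓM σ hσ f hf
  have hgf' := (mem_modularValSetup_Ov_iff A ℓ M hℓ hA hℓM _).mp hgf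
  apply Subtype.ext
  have h2 := (gaussResFun_decomposition σ hσ (galRed_coeffMap_mem M σ) hf').2
  rw [coe_modularValSetup_red A ℓ M hℓ hA hℓM hgf', coe_coeffAut_smul,
    coe_modularValSetup_red A ℓ M hℓ hA hℓM hf', coe_arithmeticGalois_smul, h2]
  exact coeffMap_congr (RingHom.ext fun _ => rfl) _

/-- `J₀(M)(ℚ̄)` is divisible, in the form used by the reduction lemmas. -/
theorem galRed_divisible :
    ∀ n : ℕ, n ≠ 0 → ∀ x : Pic0 Qb (modularFunctionFieldBar M),
      ∃ y : Pic0 Qb (modularFunctionFieldBar M), n • y = x :=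
  fun n hn x => Fermat.Agent.Div.jZero_divisible M n (Nat.pos_of_ne_zero hn) x

/-- **Galois-equivariance of the reduction of divisors of degree `0`**, for every map of places
with the push property. -/
theorem galRed_divisor (σ : GQ) (hσ : σ ∈ A.decompositionSubgroup ℚ)
    {r : Place Qb (modularFunctionFieldBar M) →
      Place (IsLocalRing.ResidueField A)
        (modularFunctionFieldFullC (IsLocalRing.ResidueField A) M)}
    (hr : IsPush (modularValSetup A ℓ M hℓ hA hℓM) r)
    {D : Divisor Qb (modularFunctionFieldBar M)}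
    (hD : D ∈ Divisor.degZero (K := Qb) (F := modularFunctionFieldBar M)) :
    redDiv r (arithmeticGalois (modularFunctionFieldFull M) σ • D) =
      coeffAut (IsLocalRing.ResidueField A) M (galRedBar A σ hσ) • redDiv r D :=
  galRed_redDiv (modularValSetup A ℓ M hℓ hA hℓM) _ _
    (galRed_mem A ℓ M hℓ hA hℓM σ hσ) (galRed_red A ℓ M hℓ hA hℓM σ hσ) hr
    (galRed_divisible M) hD

set_option maxHeartbeats 1600000 in
/-- **Galois-equivariance of the reduction `J₀(M)(ℚ̄) → Pic⁰(F_k(M))`** at a place `A` over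
`ℓ ∤ M`, for the decomposition group of `A`. -/
theorem galRed_reductionModL (A : ValuationSubring Qb) (ℓ M : ℕ) [NeZero M]
    (hℓ : ℓ.Prime) (hA : A.LiesOverPrime ℓ) (hℓM : ¬ ℓ ∣ M)
    (σ : GQ) (hσ : σ ∈ A.decompositionSubgroup ℚ) (z : JZero M) :
    reductionModL A M (σ • z) =
      coeffAut (IsLocalRing.ResidueField A) M (galRedBar A σ hσ) • reductionModL A M z := by
  classical
  by_cases hin : ReductionInputsModL A M
  swap
  · rw [reductionModL_of_not hin]
    exact (smul_zero _).symm
  have hr₀ : IsPush (modularValSetup A ℓ M hℓ hA hℓM) (placeReductionModL hin) :=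
    Fermat.Agent.ES15.heckeRed_isPush_of_isPlaceReduction A ℓ M hℓ hA hℓM
      (isPlaceReductionModL_placeReductionModL hin)
  obtain ⟨D, rfl⟩ := Pic0.mk_surjective z
  rw [galois_smul_pic0_def, SemilinearAut.pic0_smul_mk, reductionModL_mk hin,
    reductionModL_mk hin, SemilinearAut.pic0_smul_mk]
  congr 1
  apply Subtype.ext
  rw [coe_reductionDegZeroAlong, SemilinearAut.coe_degZeroSMulHom,
    SemilinearAut.coe_degZeroSMulHom, coe_reductionDegZeroAlong]
  exact galRed_divisor A ℓ M hℓ hA hℓM σ hσ hr₀ D.2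

end Modular

/-! ### Frobenius elements -/

section Frob

variable (A : ValuationSubring Qb) (ℓ M : ℕ) [NeZero M] [Fact ℓ.Prime]
  [CharP (IsLocalRing.ResidueField A) ℓ] [PerfectRing (IsLocalRing.ResidueField A) ℓ]

/-- a Frobenius element at `A` induces the Frobenius of the residue field. -/
theorem galRedBar_eq_frobeniusEquiv (σ : GQ) (hσ : A.IsFrobeniusAt σ ℓ) :
    galRedBar A σ hσ.mem_decompositionSubgroup = frobeniusEquiv (IsLocalRing.ResidueField A) ℓ := by
  ext x
  rw [galRedBar_apply, hσ.smul_residue_eq, frobeniusEquiv_apply, frobenius_def]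

set_option maxHeartbeats 1600000 in
/-- **Frobenius-equivariance of the reduction**: for a Frobenius element `σ` at `A`,
`red (σ • z) = Frob • red z`, `Frob` the coefficientwise Frobenius of `F_k(M)`. -/
theorem galRed_frobenius (A : ValuationSubring Qb) (ℓ M : ℕ) [NeZero M] [Fact ℓ.Prime]
    [CharP (IsLocalRing.ResidueField A) ℓ] [PerfectRing (IsLocalRing.ResidueField A) ℓ]
    (hA : A.LiesOverPrime ℓ) (hℓM : ¬ ℓ ∣ M)
    (σ : GQ) (hσ : A.IsFrobeniusAt σ ℓ) (z : JZero M) :
    reductionModL A M (σ • z) =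
      frobAut (IsLocalRing.ResidueField A) M ℓ • reductionModL A M z := by
  rw [galRed_reductionModL A ℓ M Fact.out hA hℓM σ hσ.mem_decompositionSubgroup z,
    galRedBar_eq_frobeniusEquiv A ℓ σ hσ, frobAut_def]

set_option maxHeartbeats 1600000 in
/-- **Frobenius-equivariance of the reduction**, powers. -/
theorem galRed_frobenius_pow (A : ValuationSubring Qb) (ℓ M : ℕ) [NeZero M] [Fact ℓ.Prime]
    [CharP (IsLocalRing.ResidueField A) ℓ] [PerfectRing (IsLocalRing.ResidueField A) ℓ]
    (hA : A.LiesOverPrime ℓ) (hℓM : ¬ ℓ ∣ M)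
    (σ : GQ) (hσ : A.IsFrobeniusAt σ ℓ) (n : ℕ) (z : JZero M) :
    reductionModL A M ((σ ^ n) • z) =
      (frobAut (IsLocalRing.ResidueField A) M ℓ ^ n) • reductionModL A M z := by
  induction n generalizing z with
  | zero => rw [pow_zero, pow_zero, one_smul, one_smul]
  | succ n ih =>
    rw [pow_succ, pow_succ, mul_smul, mul_smul, ih, galRed_frobenius A ℓ M hA hℓM σ hσ]

end Frob

/-! ### powers of a Galois element fixing a number field -/

/-- some positive power of `τ` fixes a given number field pointwise. -/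
theorem galRed_exists_pow_fix (τ : GQ) (L : IntermediateField ℚ Qb) [FiniteDimensional ℚ L] :
    ∃ m : ℕ, 0 < m ∧ ∀ y ∈ L, (τ ^ m) y = y := by
  classical
  haveI : Finite (L →ₐ[ℚ] Qb) := inferInstance
  let φ : ℕ → (L →ₐ[ℚ] Qb) := fun i => ((τ ^ i : GQ) : Qb →ₐ[ℚ] Qb).comp L.val
  obtain ⟨i, j, hij, hφ⟩ := Finite.exists_ne_map_eq_of_infinite φ
  wlog hlt : i < j generalizing i j
  · exact this j i hij.symm hφ.symm (lt_of_le_of_ne (not_lt.mp hlt) hij.symm)
  refine ⟨j - i, Nat.sub_pos_of_lt hlt, fun y hy => ?_⟩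
  have h1 : (τ ^ i) y = (τ ^ j) y := by
    have := congrArg (fun f : L →ₐ[ℚ] Qb => f ⟨y, hy⟩) hφ
    exact this
  have h2 : τ ^ j = τ ^ i * τ ^ (j - i) := by
    rw [← _root_.pow_add, Nat.add_sub_cancel' hlt.le]
  rw [h2, AlgEquiv.mul_apply] at h1
  exact ((τ ^ i).injective h1).symm

end Fermat.Agent.R38Ret
end
end MergeWrap_R38_Ret_GalRed
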