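import Mathlib
import Fermat.Prelude.Def_AlgebraicCurve_DivisorClassGroup
import Fermat.Prelude.Def_AlgebraicCurve_IsCurveOver
import Fermat.Prelude.Def_AlgebraicCurve_Repartitions
import Fermat.Agent.MU.S27.Zeta.Defs
import Fermat.Agent.MU.S27.Zeta.Fin
import Fermat.Agent.S27.Abstract
import Fermat.Agent.Lib.RR.Defs
import Fermat.Agent.Lib.FrobTrace.Residue
import Fermat.Agent.MU.Lib.GaussVal.Props
import Fermat.Agent.S27.GR.LiftStatements
import Fermat.Agent.S27.GR.TraceRed
import Fermat.Agent.S27.GR.LiftBasis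
import Fermat.Agent.MU.S27.GR.Lift
import Fermat.Agent.S27.GR.DefsA
import Fermat.Agent.S27.GR.Steps
import Fermat.Agent.MU.S27.GR.ChainA
import Fermat.Agent.S27.GR.DiscTame
import Fermat.Agent.S27.GR.Inv
import Fermat.Agent.S27.GR.Defs
import Fermat.Agent.S27.GR.Places
import Fermat.Agent.MU.Lib.RR.Hurwitz.Fibres
import Fermat.Agent.MU.Lib.Deuring.FundIneq
import Fermat.Agent.MU.Lib.FF.RedCore
import Fermat.Agent.MU.S18.KeyGlue
import Fermat.Agent.MU.S18.BaseFnBuild
import Fermat.Agent.MU.S18.NSBuild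
import Fermat.Agent.MU.Lib.Deuring.Basic
import Fermat.Agent.MU.Lib.RR.Hurwitz.Count
import Fermat.Agent.MU.S27.Red.Branch
import Fermat.Agent.MU.S27.Zeta.Main
import Fermat.Agent.MU.Lib.RR.OfSep
import Fermat.Agent.MU.S27.Zeta.Rational
import Fermat.Agent.Lib.BadRed.Mod.FrobAut
import Fermat.Agent.MU.Lib.RR.OfModularCFinal
import Fermat.Agent.MU.R38.Ret.GalRed
import Fermat.Agent.MU.R38.Ret.Defs
import Fermat.Agent.Lib.FrobDensity.Bridge
import Fermat.Agent.MU.R38.Ret.Final
import Fermat.Agent.MU.R38.Spine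

section MergeWrap_S27_Zeta_Frob -- from S27/Zeta/Frob.lean

set_option autoImplicit false
set_option linter.style.haveILetI false

/-!
# S27, part D, seat Z1 (FROB): existence of a Frobenius structure  (helper18)

`k` algebraically closed of characteristic `p`, every element of `k` in a finite field
(`c ^ (p ^ n) = c` for some `n > 0`), `F / k` a function field.  Then `F` has a Frobenius structure
fixing a given place.

Proof.  `F = Frac (k[X_i : i ∈ s] / 𝔭)` (`s` a finite set of field generators of `F / k`: the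
transcendental element `x` of `hRR.exists_x` and generators of `F` over `k(x)`); `𝔭` is generated by
finitely many polynomials, whose coefficients lie in a finite field `{c | c ^ (p ^ f) = c}`.  The
coefficientwise Frobenius `φ = MvPolynomial.mapEquiv (c ↦ c ^ (p^f))` is a ring automorphism of
`k[X]` fixing the generators of `𝔭`, so `φ 𝔭 = 𝔭`; it induces `σ` on the quotient and on the
fraction field `F`.  Orbits are finite (the elements with a finite orbit form a subfield which
contains `k` and the generators).  Finally the place `P₀` has a finite `σ`-orbit (seat Z2,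
`exists_mem_fixPl_aux`), so a power of `σ` fixes `P₀`.
-/

noncomputable section

open AlgebraicCurve IntermediateField

namespace Fermat.Agent.S27

open Fermat.Agent.RR

variable {k F : Type*} [Field k] [Field F] [Algebra k F]

/-! ### elementary lemmas -/

/-- `c ^ (p ^ n) = c` implies `c ^ (p ^ (n t)) = c`. -/
theorem z1_pow_fix {c : k} {p n : ℕ} (h : c ^ (p ^ n) = c) (t : ℕ) : c ^ (p ^ (n * t)) = c := by
  induction t with
  | zero => simp
  | succ t ih => rw [Nat.mul_succ, pow_add, pow_mul, ih, h]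

theorem z1_pow_fix_of_dvd {c : k} {p n f : ℕ} (h : c ^ (p ^ n) = c) (hd : n ∣ f) :
    c ^ (p ^ f) = c := by
  obtain ⟨t, rfl⟩ := hd
  exact z1_pow_fix h t

/-- the base automorphism of a power. -/
theorem z1_baseAut_pow (σ : SemilinearAut k F) {p f : ℕ}
    (h : ∀ c : k, SemilinearAut.baseAut σ c = c ^ (p ^ f)) (m : ℕ) (c : k) :
    SemilinearAut.baseAut (σ ^ m) c = c ^ (p ^ (f * m)) := by
  induction m generalizing c with
  | zero => simp
  | succ m ih =>
    rw [pow_succ, SemilinearAut.baseAut_mul, RingAut.mul_apply, h, ih, ← pow_mul, mul_add,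
      mul_one, pow_add, mul_comm]

/-- an element fixed by `σ ^ m` is fixed by `σ ^ (m t)`. -/
theorem z1_pow_mul_smul (σ : SemilinearAut k F) {x : F} {m : ℕ} (h : (σ ^ m) • x = x) (t : ℕ) :
    (σ ^ (m * t)) • x = x := by
  rw [pow_mul]
  induction t with
  | zero => simp
  | succ t ih => rw [pow_succ, mul_smul, h, ih]

/-- the elements with a finite orbit: closed under addition. -/
theorem z1_orbit_add (σ : SemilinearAut k F) {x y : F}
    (hx : ∃ m : ℕ, 0 < m ∧ (σ ^ m) • x = x) (hy : ∃ m : ℕ, 0 < m ∧ (σ ^ m) • y = y) :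
    ∃ m : ℕ, 0 < m ∧ (σ ^ m) • (x + y) = x + y := by
  obtain ⟨a, ha, hxa⟩ := hx
  obtain ⟨b, hb, hyb⟩ := hy
  refine ⟨a * b, Nat.mul_pos ha hb, ?_⟩
  rw [smul_add, z1_pow_mul_smul σ hxa b, mul_comm, z1_pow_mul_smul σ hyb a]

/-- the elements with a finite orbit: closed under multiplication. -/
theorem z1_orbit_mul (σ : SemilinearAut k F) {x y : F}
    (hx : ∃ m : ℕ, 0 < m ∧ (σ ^ m) • x = x) (hy : ∃ m : ℕ, 0 < m ∧ (σ ^ m) • y = y) :
    ∃ m : ℕ, 0 < m ∧ (σ ^ m) • (x * y) = x * y := by
  obtain ⟨a, ha, hxa⟩ := hx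
  obtain ⟨b, hb, hyb⟩ := hy
  refine ⟨a * b, Nat.mul_pos ha hb, ?_⟩
  rw [smul_mul', z1_pow_mul_smul σ hxa b, mul_comm a b, z1_pow_mul_smul σ hyb a]

/-- the elements with a finite orbit: closed under inversion. -/
theorem z1_orbit_inv (σ : SemilinearAut k F) {x : F}
    (hx : ∃ m : ℕ, 0 < m ∧ (σ ^ m) • x = x) :
    ∃ m : ℕ, 0 < m ∧ (σ ^ m) • x⁻¹ = x⁻¹ := by
  obtain ⟨a, ha, hxa⟩ := hx
  refine ⟨a, ha, ?_⟩
  rw [SemilinearAut.smul_def, map_inv₀, ← SemilinearAut.smul_def, hxa]

/-! ### finite generation -/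

/-- a function field is finitely generated as a field. -/
theorem z1_exists_gen (hRR : IsRRField k F) :
    ∃ s : Finset F, IntermediateField.adjoin k (s : Set F) = ⊤ := by
  classical
  obtain ⟨x, -, hfin, -⟩ := hRR.exists_x
  haveI := hfin
  obtain ⟨t, ht⟩ := IntermediateField.fg_of_noetherian (⊤ : IntermediateField k⟮x⟯ F)
  refine ⟨insert x t, ?_⟩
  have h := IntermediateField.adjoin_adjoin_left k ({x} : Set F) (t : Set F)
  rw [ht, IntermediateField.restrictScalars_top] at h
  rw [Finset.coe_insert, Set.insert_eq, ← h]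

/-! ### the construction -/

/-- **the semilinear Frobenius of a function field** over an algebraic closure of a finite
field. -/
theorem z1_exists_sigma (p : ℕ) [Fact p.Prime] [CharP k p] [IsAlgClosed k]
    (halg : ∀ c : k, ∃ n : ℕ, 0 < n ∧ c ^ (p ^ n) = c) (hRR : IsRRField k F) :
    ∃ (f : ℕ) (σ : SemilinearAut k F), 0 < f ∧
      (∀ c : k, SemilinearAut.baseAut σ c = c ^ (p ^ f)) ∧
      ∀ x : F, ∃ m : ℕ, 0 < m ∧ (σ ^ m) • x = x := by
  classical
  obtain ⟨s, hs⟩ := z1_exists_gen hRR
  -- the presentation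
  let ev : MvPolynomial (s : Set F) k →ₐ[k] F := MvPolynomial.aeval (fun i : (s : Set F) => (i : F))
  have hfg : (RingHom.ker (ev : MvPolynomial (s : Set F) k →+* F)).FG :=
    IsNoetherian.noetherian _
  obtain ⟨G, hG⟩ := hfg
  -- the exponent
  choose n hn0 hn using halg
  have hf : 0 < ∏ g ∈ G, ∏ m ∈ g.support, n (g.coeff m) :=
    Finset.prod_pos (fun g _ => Finset.prod_pos (fun m _ => hn0 _))
  have hfix : ∀ g ∈ G, ∀ m, (g.coeff m) ^ (p ^ (∏ g ∈ G, ∏ m ∈ g.support, n (g.coeff m))) =
      g.coeff m := by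
    intro g hg m
    by_cases hm : m ∈ g.support
    · exact z1_pow_fix_of_dvd (hn _) ((Finset.dvd_prod_of_mem _ hm).trans
        (Finset.dvd_prod_of_mem (fun g => ∏ m ∈ g.support, n (g.coeff m)) hg))
    · rw [MvPolynomial.notMem_support_iff.mp hm, zero_pow (pow_pos (Fact.out : p.Prime).pos _).ne']
  generalize (∏ g ∈ G, ∏ m ∈ g.support, n (g.coeff m)) = f at hf hfix
  -- the coefficientwise Frobenius
  have hφG : ∀ g ∈ G, MvPolynomial.mapEquiv (s : Set F) (iterateFrobeniusEquiv k p f) g = g := by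
    intro g hg
    ext m
    rw [MvPolynomial.mapEquiv_apply, MvPolynomial.coeff_map]
    exact hfix g hg m
  have hI : RingHom.ker (ev : MvPolynomial (s : Set F) k →+* F) =
      (RingHom.ker (ev : MvPolynomial (s : Set F) k →+* F)).map
        ((MvPolynomial.mapEquiv (s : Set F) (iterateFrobeniusEquiv k p f) :
          MvPolynomial (s : Set F) k ≃+* MvPolynomial (s : Set F) k) :
          MvPolynomial (s : Set F) k →+* MvPolynomial (s : Set F) k) := by
    have hG' : Ideal.span (G : Set (MvPolynomial (s : Set F) k)) =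
        RingHom.ker (ev : MvPolynomial (s : Set F) k →+* F) := hG
    rw [← hG', Ideal.map_span]
    congr 1
    ext y
    constructor
    · intro hy
      exact ⟨y, hy, hφG y hy⟩
    · rintro ⟨z, hz, rfl⟩
      have := hφG z hz
      rw [RingEquiv.coe_toRingHom, this]
      exact hz
  -- the fraction field
  letI : Algebra (MvPolynomial (s : Set F) k ⧸ RingHom.ker (ev : MvPolynomial (s : Set F) k →+* F))
      F := (RingHom.kerLift (ev : MvPolynomial (s : Set F) k →+* F)).toAlgebra
  have hmk : ∀ P : MvPolynomial (s : Set F) k,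
      algebraMap (MvPolynomial (s : Set F) k ⧸ RingHom.ker (ev : MvPolynomial (s : Set F) k →+* F))
        F (Ideal.Quotient.mk _ P) = ev P := fun P => rfl
  haveI : FaithfulSMul
      (MvPolynomial (s : Set F) k ⧸ RingHom.ker (ev : MvPolynomial (s : Set F) k →+* F)) F :=
    (faithfulSMul_iff_algebraMap_injective _ _).mpr (RingHom.kerLift_injective _)
  have hrange : Algebra.adjoin k (s : Set F) = ev.range := by
    have h1 := Algebra.adjoin_range_eq_range_aeval k (fun i : (s : Set F) => (i : F))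
    rw [Subtype.range_coe] at h1
    exact h1
  haveI : IsFractionRing
      (MvPolynomial (s : Set F) k ⧸ RingHom.ker (ev : MvPolynomial (s : Set F) k →+* F)) F :=
    IsFractionRing.of_field _ _ (by
      intro z
      have hz : z ∈ IntermediateField.adjoin k (s : Set F) := by
        rw [hs]
        trivial
      obtain ⟨r, hr, t, ht, rfl⟩ := IntermediateField.mem_adjoin_iff_div.mp hz
      rw [hrange] at hr ht
      obtain ⟨P, rfl⟩ := hr
      obtain ⟨Q, rfl⟩ := ht
      exact ⟨Ideal.Quotient.mk _ P, Ideal.Quotient.mk _ Q, rfl⟩)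
  have hτ : ∀ P : MvPolynomial (s : Set F) k,
      (IsFractionRing.ringEquivOfRingEquiv (K := F) (L := F)
        (Ideal.quotientEquiv _ _ (MvPolynomial.mapEquiv (s : Set F) (iterateFrobeniusEquiv k p f))
          hI)) (ev P) =
        ev (MvPolynomial.mapEquiv (s : Set F) (iterateFrobeniusEquiv k p f) P) := by
    intro P
    rw [← hmk, IsFractionRing.ringEquivOfRingEquiv_algebraMap, Ideal.quotientEquiv_mk, hmk]
  have hτc : ∀ c : k,
      (IsFractionRing.ringEquivOfRingEquiv (K := F) (L := F)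
        (Ideal.quotientEquiv _ _ (MvPolynomial.mapEquiv (s : Set F) (iterateFrobeniusEquiv k p f))
          hI)) (algebraMap k F c) = algebraMap k F (iterateFrobeniusEquiv k p f c) := by
    intro c
    have h1 := hτ (MvPolynomial.C c)
    rw [MvPolynomial.mapEquiv_apply, MvPolynomial.map_C] at h1
    have h2 : ∀ d : k, ev (MvPolynomial.C d) = algebraMap k F d := fun d =>
      MvPolynomial.aeval_C _ d
    rw [h2, h2] at h1
    exact h1
  have hτx : ∀ i : (s : Set F),
      (IsFractionRing.ringEquivOfRingEquiv (K := F) (L := F)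
        (Ideal.quotientEquiv _ _ (MvPolynomial.mapEquiv (s : Set F) (iterateFrobeniusEquiv k p f))
          hI)) (i : F) = i := by
    intro i
    have h1 := hτ (MvPolynomial.X i)
    rw [MvPolynomial.mapEquiv_apply, MvPolynomial.map_X] at h1
    have h2 : ev (MvPolynomial.X i) = (i : F) := MvPolynomial.aeval_X _ i
    rw [h2] at h1
    exact h1
  -- the semilinear automorphism
  refine ⟨f, ⟨(IsFractionRing.ringEquivOfRingEquiv (K := F) (L := F)
      (Ideal.quotientEquiv _ _ (MvPolynomial.mapEquiv (s : Set F) (iterateFrobeniusEquiv k p f))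
        hI), iterateFrobeniusEquiv k p f), SemilinearAut.mem_iff.mpr hτc⟩, hf, fun c => rfl, ?_⟩
  intro x
  have hx : x ∈ IntermediateField.adjoin k (s : Set F) := by
    rw [hs]
    trivial
  induction hx using IntermediateField.adjoin_induction with
  | mem y hy => exact ⟨1, one_pos, by rw [pow_one]; exact hτx ⟨y, hy⟩⟩
  | algebraMap c =>
    refine ⟨n c, hn0 c, ?_⟩
    rw [SemilinearAut.smul_algebraMap, z1_baseAut_pow _ (fun c => rfl) (n c) c, mul_comm,
      z1_pow_fix (hn c) f]
  | add y z _ _ hy hz => exact z1_orbit_add _ hy hz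
  | inv y _ hy => exact z1_orbit_inv _ hy
  | mul y z _ _ hy hz => exact z1_orbit_mul _ hy hz

/-- **Seat Z1 (FROB).** -/
theorem exists_frobStr (p : ℕ) (hp : p.Prime) [CharP k p] [IsAlgClosed k]
    (halg : ∀ c : k, ∃ n : ℕ, 0 < n ∧ c ^ (p ^ n) = c)
    (hRR : IsRRField k F) (P₀ : Place k F) :
    ∃ S : FrobStr k F, S.p = p ∧ S.P₀ = P₀ := by
  haveI : Fact p.Prime := ⟨hp⟩
  obtain ⟨f, σ, hf, hbase, horb⟩ := z1_exists_sigma p halg hRR
  obtain ⟨j, hj, hfix⟩ := exists_mem_fixPl_aux hRR σ horb P₀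
  refine ⟨⟨p, hp, inferInstance, f * j, Nat.mul_pos hf hj, σ ^ j, z1_baseAut_pow σ hbase j,
    fun x => ?_, P₀, hfix⟩, rfl, rfl⟩
  obtain ⟨m, hm, hx⟩ := horb x
  refine ⟨m, hm, ?_⟩
  rw [← pow_mul, mul_comm]
  exact z1_pow_mul_smul σ hx j

end Fermat.Agent.S27
end
end MergeWrap_S27_Zeta_Frob

section MergeWrap_S27_Index -- from S27/Index.lean

set_option autoImplicit false

/-!
# S27, block F: the abstract index lemma  (statement by helper40; proof by helper65)

`J` an abelian group, `ℓ` a prime, `J[ℓ]` of order `≤ ℓ^d`, and `ℓ^(d j) ≤ c * #J[ℓ^j]` for all `j`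
with a constant `c` independent of `j`.  Then `#J[ℓ^j] = ℓ^(d j)` for all `j`.

Proof.  All `J[ℓ^j]` are finite (`Nat.card` of an infinite type is `0`) and of `ℓ`-power order
`t_j = ℓ^(e_j)`.  Multiplication by `ℓ^a` maps `J[ℓ^(a+b)]` to `J[ℓ^b]` with kernel `J[ℓ^a]`, so
`t_(a+b) ≤ t_a t_b`; hence `t_j ≤ ℓ^(d j)` and `t_(n j) ≤ t_j ^ n`.  If `e_j < d j` then
`ℓ^(d n j) ≤ c ℓ^(n e_j)` gives `ℓ^n ≤ c` for all `n`: false for `n = c`.
-/

namespace Fermat.Agent.S27

section IndexAux

variable {J : Type*} [AddCommGroup J]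

/-- `#J[ℓ^j]` is a power of `ℓ` when `J[ℓ^j]` is finite. -/
theorem Index.card_tors_eq_pow {ℓ : ℕ} (hℓ : ℓ.Prime) (j : ℕ)
    (hfin : Finite (tors J (ℓ ^ j))) : ∃ e, Nat.card (tors J (ℓ ^ j)) = ℓ ^ e := by
  have hfact : Fact ℓ.Prime := Fact.mk hℓ
  have hp : IsPGroup ℓ (Multiplicative (tors J (ℓ ^ j))) := by
    intro g
    refine ⟨j, ?_⟩
    apply Multiplicative.toAdd.injective
    rw [toAdd_pow, toAdd_one]
    apply Subtype.ext
    rw [AddSubgroup.coe_nsmul]
    exact (Multiplicative.toAdd g).2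
  have hfin' : Finite (Multiplicative (tors J (ℓ ^ j))) := hfin
  obtain ⟨n, hn⟩ := IsPGroup.iff_card.1 hp
  exact ⟨n, hn⟩

/-- `#J[ℓ^(a+b)] ≤ #J[ℓ^a] * #J[ℓ^b]`. -/
theorem Index.card_tors_add_le (ℓ a b : ℕ) (hfa : Finite (tors J (ℓ ^ a)))
    (hfb : Finite (tors J (ℓ ^ b))) :
    Nat.card (tors J (ℓ ^ (a + b))) ≤ Nat.card (tors J (ℓ ^ a)) * Nat.card (tors J (ℓ ^ b)) := by
  rw [FC.card_eq_inf_ker_mul_map (tors J (ℓ ^ (a + b))) (nsmulAddMonoidHom (ℓ ^ a) : J →+ J)]
  refine Nat.mul_le_mul ?_ ?_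
  · refine AddSubgroup.card_le_of_le ?_
    intro x hx
    exact hx.2
  · refine AddSubgroup.card_le_of_le ?_
    rintro _ ⟨x, hx, rfl⟩
    have hx' : ℓ ^ (a + b) • x = 0 := hx
    show ℓ ^ b • (ℓ ^ a • x) = 0
    rw [← mul_smul, ← pow_add, add_comm b a]
    exact hx'

end IndexAux

/-- **Block F, abstract index lemma.**  (`Nat.card` of an infinite set is `0`, so `hL` contains the
finiteness of all `J[ℓ^j]`.) -/
theorem card_tors_eq_of_bounds {J : Type*} [AddCommGroup J] {ℓ d : ℕ} (hℓ : ℓ.Prime)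
    (hU : Nat.card (tors J ℓ) ≤ ℓ ^ d)
    (hL : ∃ c : ℕ, 0 < c ∧ ∀ j : ℕ, ℓ ^ (d * j) ≤ c * Nat.card (tors J (ℓ ^ j))) (j : ℕ) :
    Nat.card (tors J (ℓ ^ j)) = ℓ ^ (d * j) := by
  obtain ⟨c, hc, hL⟩ := hL
  have hℓ1 : 1 < ℓ := hℓ.one_lt
  have hfin : ∀ i, Finite (tors J (ℓ ^ i)) := by
    intro i
    apply Nat.finite_of_card_ne_zero
    intro h0
    have h1 := hL i
    rw [h0, mul_zero] at h1
    have h2 : 0 < ℓ ^ (d * i) := Nat.pow_pos hℓ.pos
    omega
  -- upper bound
  have hup : ∀ i, Nat.card (tors J (ℓ ^ i)) ≤ ℓ ^ (d * i) := by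
    intro i
    induction i with
    | zero =>
      have h1 : Nat.card (tors J (ℓ ^ 0)) ≤ 1 := by
        have hz : ∀ x : tors J (ℓ ^ 0), (x : J) = 0 := by
          intro x
          have hx : ℓ ^ 0 • (x : J) = 0 := x.2
          have h1 : ℓ ^ 0 • (x : J) = (x : J) := by
            generalize (x : J) = y
            rw [pow_zero, one_smul]
          exact h1.symm.trans hx
        have hss : Subsingleton (tors J (ℓ ^ 0)) :=
          ⟨fun x y => Subtype.ext ((hz x).trans (hz y).symm)⟩
        exact Finite.card_le_one_iff_subsingleton.2 hss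
      simpa using h1
    | succ i ih =>
      have h1 := Index.card_tors_add_le (J := J) ℓ i 1 (hfin i) (hfin 1)
      have h2 : Nat.card (tors J (ℓ ^ 1)) ≤ ℓ ^ d := by rwa [pow_one]
      calc Nat.card (tors J (ℓ ^ (i + 1)))
          ≤ Nat.card (tors J (ℓ ^ i)) * Nat.card (tors J (ℓ ^ 1)) := h1
        _ ≤ ℓ ^ (d * i) * ℓ ^ d := Nat.mul_le_mul ih h2
        _ = ℓ ^ (d * (i + 1)) := by rw [← pow_add, Nat.mul_succ]
  -- powers
  have hpow : ∀ n, Nat.card (tors J (ℓ ^ (n * j))) ≤ Nat.card (tors J (ℓ ^ j)) ^ n := by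
    intro n
    induction n with
    | zero =>
      have := hup 0
      simpa using this
    | succ n ih =>
      have h1 := Index.card_tors_add_le (J := J) ℓ (n * j) j (hfin _) (hfin _)
      calc Nat.card (tors J (ℓ ^ ((n + 1) * j)))
          = Nat.card (tors J (ℓ ^ (n * j + j))) := by rw [Nat.succ_mul]
        _ ≤ Nat.card (tors J (ℓ ^ (n * j))) * Nat.card (tors J (ℓ ^ j)) := h1
        _ ≤ Nat.card (tors J (ℓ ^ j)) ^ n * Nat.card (tors J (ℓ ^ j)) :=
            Nat.mul_le_mul_right _ ih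
        _ = Nat.card (tors J (ℓ ^ j)) ^ (n + 1) := (pow_succ _ _).symm
  obtain ⟨e, he⟩ := Index.card_tors_eq_pow hℓ j (hfin j)
  have hej : e ≤ d * j := by
    have := hup j
    rw [he] at this
    exact (Nat.pow_le_pow_iff_right hℓ1).1 this
  rw [he]
  congr 1
  by_contra hne
  have hlt : e + 1 ≤ d * j := by omega
  -- take n = c
  have h1 := hL (c * j)
  have h2 := hpow c
  rw [he, ← pow_mul] at h2
  have h3 : ℓ ^ (d * (c * j)) ≤ c * ℓ ^ (e * c) := h1.trans (Nat.mul_le_mul_left c h2)
  have h4 : e * c + c ≤ d * (c * j) := by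
    have : (e + 1) * c ≤ (d * j) * c := Nat.mul_le_mul_right c hlt
    calc e * c + c = (e + 1) * c := by ring
      _ ≤ (d * j) * c := this
      _ = d * (c * j) := by ring
  have h5 : ℓ ^ (e * c) * ℓ ^ c ≤ c * ℓ ^ (e * c) := by
    rw [← pow_add]
    exact (Nat.pow_le_pow_right hℓ.pos h4).trans h3
  have h6 : ℓ ^ c ≤ c := by
    have hpos : 0 < ℓ ^ (e * c) := Nat.pow_pos hℓ.pos
    rw [mul_comm c] at h5
    exact Nat.le_of_mul_le_mul_left h5 hpos
  exact absurd (Nat.lt_pow_self hℓ1 (n := c)) (not_lt.2 h6)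

end Fermat.Agent.S27
end MergeWrap_S27_Index

section MergeWrap_S27_Top -- from S27/Top.lean

set_option autoImplicit false

/-!
# S27, top level (architect helper40): the two bounds and the index lemma

`S27` is `#Pic⁰(F)[ℓ^j] = ℓ^(2 g j)` for `F / K` a curve over an algebraically closed field of
characteristic `0`.  It is split into

* `TorsionUpper` (blocks A, B, C, D): `Pic⁰(F)[ℓ]` is finite of order `≤ ℓ^(2g)`
  (reduction mod `p`, `sp` injective on `ℓ`-torsion, count in characteristic `p`);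
* `TorsionLower` (block E, lifting): there is a constant `c > 0`, INDEPENDENT of `j`, with
  `ℓ^(2 g j) ≤ c * #Pic⁰(F)[ℓ^j]` for all `j` (degree comparison for generic divisors; a constant
  factor such as `g! * N^g` is allowed);
* `card_tors_eq_of_bounds` (abstract, block F): the two bounds give equality.  Proof: the orders
  `r_j = #(ℓ^j • J[ℓ^(j+1)])` of the subgroups `ℓ^j • J[ℓ^(j+1)] ⊆ J[ℓ]` are non-increasing powers of `ℓ`,
  `≤ ℓ^d`, and `#J[ℓ^j] = r_0 * ... * r_(j-1)`; if one `r_i ≤ ℓ^(d-1)` then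
  `#J[ℓ^j] ≤ ℓ^(d j - (j - i))` for `j ≥ i`, against the lower bound for `j = i + c`.
-/

noncomputable section

open AlgebraicCurve

namespace Fermat.Agent.S27

open Fermat.Agent.RR

universe u v

/-- **(U)** upper bound for the `ℓ`-torsion in characteristic `0`.  OWNER: block C (with D). -/
def TorsionUpper : Prop :=
  ∀ (K : Type u) (F : Type v) [Field K] [Field F] [Algebra K F] [IsAlgClosed K] [CharZero K],
    IsRRField K F → ∀ ℓ : ℕ, ℓ.Prime →
      Nat.card (Pic0.torsion K F ℓ) ≤ ℓ ^ (2 * genusFF K F)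

/-- **(L)** lower bound up to a constant, in characteristic `0`.  OWNER: block E. -/
def TorsionLower : Prop :=
  ∀ (K : Type u) (F : Type v) [Field K] [Field F] [Algebra K F] [IsAlgClosed K] [CharZero K],
    IsRRField K F → ∀ ℓ : ℕ, ℓ.Prime →
      ∃ c : ℕ, 0 < c ∧ ∀ j : ℕ,
        ℓ ^ (2 * genusFF K F * j) ≤ c * Nat.card (Pic0.torsion K F (ℓ ^ j))

theorem card_torsion_eq_card_tors (K : Type u) (F : Type v) [Field K] [Field F] [Algebra K F]
    (n : ℕ) : Nat.card (Pic0.torsion K F n) = Nat.card (tors (Pic0 K F) n) := by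
  refine Nat.card_congr (Equiv.subtypeEquivRight fun x => ?_)
  rw [Pic0.mem_torsion, mem_tors, natCast_zsmul]

/-- **S27 from the two bounds** (for `IsRRField`; block A0 = `Fermat.Agent.S27.isRRField` supplies
the hypothesis from `IsCurveOver` and `Algebra.EssFiniteType`). -/
theorem card_torsion_of_bounds (hU : TorsionUpper.{u, v}) (hL : TorsionLower.{u, v})
    (K : Type u) (F : Type v) [Field K] [Field F] [Algebra K F] [IsAlgClosed K] [CharZero K]
    (hRR : IsRRField K F) (ℓ : ℕ) (hℓ : ℓ.Prime) (j : ℕ) :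
    Nat.card (Pic0.torsion K F (ℓ ^ j)) = ℓ ^ (2 * genusFF K F * j) := by
  rw [card_torsion_eq_card_tors]
  refine card_tors_eq_of_bounds hℓ ?_ ?_ j
  · rw [← card_torsion_eq_card_tors]
    exact hU K F hRR ℓ hℓ
  · obtain ⟨c, hc, h⟩ := hL K F hRR ℓ hℓ
    refine ⟨c, hc, fun i => ?_⟩
    rw [← card_torsion_eq_card_tors]
    exact h i

end Fermat.Agent.S27
end
end MergeWrap_S27_Top

section MergeWrap_S27_ValChoice -- from S27/ValChoice.lean

/-!
# S27 / ValChoice : seat B, the choice of the valuation (helper29)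

`K` a field of characteristic `0`, `T` a finite set of non-zero elements of `K`.  Then there are a
prime number `p` and a valuation subring `A` of `K` such that every element of `T` is a unit of
`A`, `p` lies in the maximal ideal of `A`, and the residue field of `A` is integral over `ℤ`
(= algebraic over `𝔽_p`).  If `K` is algebraically closed, so is the residue field
(`Fermat.Agent.FrobTrace.isAlgClosed_residueField`), hence it is an algebraic closure of `𝔽_p`.

Proof: `R = ℤ[T, T⁻¹]` is a finitely generated `ℤ`-algebra, so the quotient by a maximal ideal is a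
finite field (Zariski's lemma over the Jacobson ring `ℤ`); Zorn's lemma on the local subrings of `K`
whose residue field is integral over `ℤ`, ordered by domination: a maximal one is a valuation ring
(as in `LocalSubring.exists_valuationRing_of_isMax`; the residue field of `R[x]_Q` is generated by
one element over that of `R`, hence finite over it by Zariski's lemma again).
-/

set_option autoImplicit false
set_option linter.style.haveILetI false

open IsLocalRing

namespace Fermat.Agent.S27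

universe u

variable {K : Type u} [Field K]

/-- The residue field of the local subring `L` is integral over `ℤ`. -/
def ResInt (L : LocalSubring K) : Prop :=
  Algebra.IsIntegral ℤ (IsLocalRing.ResidueField L.toSubring)

/-- Integrality over `ℤ` passes along surjective ring homomorphisms. -/
lemma vc_isIntegral_of_surjective {A B : Type*} [CommRing A] [CommRing B] (f : A →+* B)
    (hf : Function.Surjective f) (hA : Algebra.IsIntegral ℤ A) : Algebra.IsIntegral ℤ B :=
  Algebra.IsIntegral.of_surjective f.toIntAlgHom hf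

/-- Integrality over `ℤ` of the image of an integral element. -/
lemma vc_isIntegral_map {A B : Type*} [CommRing A] [CommRing B] (f : A →+* B) {a : A}
    (ha : IsIntegral ℤ a) : IsIntegral ℤ (f a) :=
  ha.map f.toIntAlgHom

/-- The residue field of the localisation of a subring at a maximal ideal `Q` is `A ⧸ Q`. -/
lemma resInt_ofPrime (A : Subring K) (Q : Ideal A) [Q.IsMaximal]
    (h : Algebra.IsIntegral ℤ (A ⧸ Q)) : ResInt (LocalSubring.ofPrime A Q) :=
  vc_isIntegral_of_surjective
    (IsLocalization.AtPrime.equivQuotMaximalIdeal Q (LocalSubring.ofPrime A Q).toSubring).toRingHom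
    (IsLocalization.AtPrime.equivQuotMaximalIdeal Q (LocalSubring.ofPrime A Q).toSubring).surjective
    h

/-- A field generated by one element over a field `k` integral over `ℤ` is integral over `ℤ`. -/
lemma vc_isIntegral_of_generated {k F : Type*} [Field k] [Field F] [Algebra k F]
    (hk : Algebra.IsIntegral ℤ k) (x : F)
    (hx : Function.Surjective (Polynomial.aeval (R := k) x)) : Algebra.IsIntegral ℤ F := by
  haveI : Algebra.FiniteType k F := Algebra.FiniteType.of_surjective (Polynomial.aeval x) hx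
  haveI : Module.Finite k F := finite_of_finite_type_of_isJacobsonRing k F
  haveI : Algebra.IsIntegral k F := Algebra.IsIntegral.of_finite k F
  exact Algebra.IsIntegral.trans k

/-- **The step.**  `R` a local subring with residue field integral over `ℤ`, `A ⊇ R` a subring
generated by one element `x` over `R`, `Q` a maximal ideal of `A` containing the maximal ideal of
`R`: then `A_Q` dominates `R` and its residue field is integral over `ℤ`. -/
lemma resInt_step {R : LocalSubring K} (hR : ResInt R) (A : Subring K) (hRA : R.toSubring ≤ A)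
    (x : K) (hxA : x ∈ A)
    (hgen : ∀ a ∈ A, ∃ g : Polynomial R.toSubring, Polynomial.aeval x g = a)
    (Q : Ideal A) [Q.IsMaximal]
    (hQ : (maximalIdeal R.toSubring).map (Subring.inclusion hRA) ≤ Q) :
    R ≤ LocalSubring.ofPrime A Q ∧ ResInt (LocalSubring.ofPrime A Q) := by
  constructor
  · refine ⟨hRA.trans (LocalSubring.le_ofPrime _ _), ((local_hom_TFAE _).out 2 0).mp ?_⟩
    conv_rhs => rw [← IsLocalization.AtPrime.map_eq_maximalIdeal Q]
    refine .trans ?_ (Ideal.map_mono hQ)
    rw [Ideal.map_map]; rfl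
  · apply resInt_ofPrime
    -- the residue field of `R` maps to `A ⧸ Q`
    let φ : IsLocalRing.ResidueField R.toSubring →+* A ⧸ Q :=
      Ideal.Quotient.lift (maximalIdeal R.toSubring)
        ((Ideal.Quotient.mk Q).comp (Subring.inclusion hRA)) (fun a ha => by
          rw [RingHom.comp_apply, Ideal.Quotient.eq_zero_iff_mem]
          exact hQ (Ideal.mem_map_of_mem _ ha))
    letI : Field (A ⧸ Q) := Ideal.Quotient.field Q
    letI : Algebra (IsLocalRing.ResidueField R.toSubring) (A ⧸ Q) := φ.toAlgebra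
    refine vc_isIntegral_of_generated (k := IsLocalRing.ResidueField R.toSubring) hR
      (Ideal.Quotient.mk Q ⟨x, hxA⟩) ?_
    intro z
    obtain ⟨a, rfl⟩ := Ideal.Quotient.mk_surjective z
    obtain ⟨g, hg⟩ := hgen a.1 a.2
    refine ⟨g.map (IsLocalRing.residue R.toSubring), ?_⟩
    -- two ring homomorphisms `R[X] → A ⧸ Q`
    have key : ∀ g : Polynomial R.toSubring,
        Polynomial.aeval (Ideal.Quotient.mk Q ⟨x, hxA⟩) (g.map (IsLocalRing.residue R.toSubring)) =
          Ideal.Quotient.mk Q (Polynomial.eval₂ (Subring.inclusion hRA) ⟨x, hxA⟩ g) := by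
      intro g
      rw [Polynomial.aeval_def, Polynomial.eval₂_map, Polynomial.hom_eval₂]
      rfl
    rw [key]
    congr 1
    apply Subtype.ext
    rw [← hg]
    have h2 : A.subtype (Polynomial.eval₂ (Subring.inclusion hRA) ⟨x, hxA⟩ g) =
        Polynomial.eval₂ (A.subtype.comp (Subring.inclusion hRA)) (A.subtype ⟨x, hxA⟩) g :=
      Polynomial.hom_eval₂ g (Subring.inclusion hRA) A.subtype ⟨x, hxA⟩
    exact h2

/-- `R ≤ R[x]` as subrings. -/
lemma vc_le_adjoin (R : Subring K) (x : K) : R ≤ (Algebra.adjoin R {x}).toSubring :=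
  fun r hr => (Algebra.adjoin R {x}).algebraMap_mem ⟨r, hr⟩

/-- If `R` is maximal among the local subrings with residue field integral over `ℤ` and `R[x]` has
a maximal ideal over the maximal ideal of `R`, then `x ∈ R`. -/
lemma mem_of_maximal_resInt {R : LocalSubring K} (hR : Maximal ResInt R) (x : K)
    (Q : Ideal (Algebra.adjoin R.toSubring {x}).toSubring) [Q.IsMaximal]
    (hQ : (maximalIdeal R.toSubring).map (Subring.inclusion (vc_le_adjoin R.toSubring x)) ≤ Q) :
    x ∈ R.toSubring := by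
  have hxA : x ∈ (Algebra.adjoin R.toSubring {x}).toSubring :=
    Algebra.self_mem_adjoin_singleton _ _
  have hgen : ∀ a ∈ (Algebra.adjoin R.toSubring {x}).toSubring,
      ∃ g : Polynomial R.toSubring, Polynomial.aeval x g = a := by
    intro a ha
    have ha' : a ∈ Algebra.adjoin R.toSubring {x} := ha
    rw [Algebra.adjoin_singleton_eq_range_aeval] at ha'
    exact ha'
  obtain ⟨hle, hres⟩ := resInt_step hR.1 _ (vc_le_adjoin R.toSubring x) x hxA hgen Q hQ
  have h := hR.2 hres hle
  exact h.1 (LocalSubring.le_ofPrime _ _ hxA)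

open Polynomial Algebra in
/-- A local subring maximal among those with residue field integral over `ℤ` is a valuation
subring. -/
lemma exists_valuationSubring_of_maximal_resInt {R : LocalSubring K} (hR : Maximal ResInt R) :
    ∃ B : ValuationSubring K, B.toLocalSubring = R := by
  suffices ∀ x ∉ R.toSubring, x⁻¹ ∈ R.toSubring from
    ⟨⟨R.toSubring, fun x ↦ or_iff_not_imp_left.mpr (this x)⟩, rfl⟩
  intro x hx
  have hx0 : x ≠ 0 := fun e ↦ hx (e ▸ zero_mem _)
  let := invertibleOfNonzero hx0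
  -- the maximal ideal of `R` generates the unit ideal of `R[x]`
  have htop : (maximalIdeal R.toSubring).map
      (Subring.inclusion (vc_le_adjoin R.toSubring x)) = ⊤ := by
    by_contra hne
    obtain ⟨M, hM, hle⟩ := Ideal.exists_le_maximal _ hne
    exact hx (mem_of_maximal_resInt hR x M hle)
  have ⟨p, hp, hpx⟩ := exists_aeval_invOf_eq_zero_of_idealMap_adjoin_sup_span_eq_top x _
    (maximalIdeal.isMaximal R.toSubring).ne_top
    (top_unique <| htop.ge.trans le_self_add)
  have H : IsUnit p.leadingCoeff := of_not_not fun h ↦ by simpa using sub_mem h hp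
  have hint : IsIntegral R.toSubring x⁻¹ :=
    ⟨.C H.unit⁻¹.1 * p, by simp [Polynomial.Monic], by simpa using .inr hpx⟩
  -- `x⁻¹` is integral over `R`: lying over
  have : Algebra.IsIntegral R.toSubring (Algebra.adjoin R.toSubring {x⁻¹}) :=
    Algebra.IsIntegral.adjoin (by simpa using hint)
  obtain ⟨Q : Ideal (Algebra.adjoin R.toSubring {x⁻¹}).toSubring, hQ, e⟩ :=
    Ideal.exists_ideal_over_maximal_of_isIntegral
      (S := Algebra.adjoin R.toSubring {x⁻¹}) (maximalIdeal R.toSubring)
      (le_maximalIdeal (by simp))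
  exact mem_of_maximal_resInt hR x⁻¹ Q (Ideal.map_le_iff_le_comap.mpr e.ge)

/-- The union of a non-empty chain of local subrings (for the domination order). -/
lemma exists_chain_ub (c : Set (LocalSubring K)) (H : IsChain (· ≤ ·) c)
    (y : LocalSubring K) (hy : y ∈ c) :
    ∃ U : LocalSubring K, (∀ A ∈ c, A ≤ U) ∧
      ∀ a ∈ U.toSubring, ∃ A ∈ c, a ∈ A.toSubring := by
  have inst : Nonempty c := ⟨⟨y, hy⟩⟩
  have hdir := H.directed.mono_comp _ LocalSubring.toSubring_mono
  refine ⟨@LocalSubring.mk _ _ (⨆ i : c, i.1.toSubring) ⟨?_⟩, ?_, ?_⟩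
  · intro ⟨a, ha⟩ ⟨b, hb⟩ e
    obtain ⟨A, haA : a ∈ A.1.toSubring⟩ := (Subring.mem_iSup_of_directed hdir).mp ha
    obtain ⟨B, hbB : b ∈ B.1.toSubring⟩ := (Subring.mem_iSup_of_directed hdir).mp hb
    obtain ⟨C, hCA, hCB⟩ := hdir A B
    refine (C.1.2.2 (a := ⟨a, hCA haA⟩) (b := ⟨b, hCB hbB⟩) (Subtype.ext congr(($e).1))).imp ?_ ?_
    · exact fun h ↦ h.map (Subring.inclusion (le_iSup (fun i : c ↦ i.1.toSubring) C))
    · exact fun h ↦ h.map (Subring.inclusion (le_iSup (fun i : c ↦ i.1.toSubring) C))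
  · intro A hA
    refine ⟨le_iSup (fun i : c ↦ i.1.toSubring) ⟨A, hA⟩, ⟨?_⟩⟩
    rintro ⟨a, haA⟩ h
    obtain ⟨⟨b, hb⟩, e⟩ := isUnit_iff_exists_inv.mp h
    obtain ⟨B, hbB : b ∈ B.1.toSubring⟩ := (Subring.mem_iSup_of_directed hdir).mp hb
    obtain ⟨C, hCA, hCB⟩ := H.directed ⟨A, hA⟩ B
    apply hCA.2.1
    exact isUnit_iff_exists_inv.mpr ⟨⟨b, hCB.1 hbB⟩, Subtype.ext congr(($e).1)⟩
  · intro a ha
    obtain ⟨A, haA : a ∈ A.1.toSubring⟩ := (Subring.mem_iSup_of_directed hdir).mp ha
    exact ⟨A.1, A.2, haA⟩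

/-- Domination and residue fields: if `A ≤ U` and the residue field of `A` is integral over `ℤ`,
the residue class in `U` of an element of `A` is integral over `ℤ`. -/
lemma isIntegral_residue_of_le {A U : LocalSubring K} (hAU : A ≤ U) (hA : ResInt A)
    (a : K) (ha : a ∈ A.toSubring) :
    IsIntegral ℤ (IsLocalRing.residue U.toSubring ⟨a, hAU.1 ha⟩) := by
  haveI : IsLocalHom (Subring.inclusion hAU.1) := hAU.2
  have h1 : IsIntegral ℤ (IsLocalRing.residue A.toSubring ⟨a, ha⟩) := hA.isIntegral _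
  have h2 := vc_isIntegral_map (IsLocalRing.ResidueField.map (Subring.inclusion hAU.1)) h1
  rw [IsLocalRing.ResidueField.map_residue] at h2
  exact h2

/-- **Zorn.**  Every local subring with residue field integral over `ℤ` is dominated by a
maximal one. -/
lemma exists_maximal_resInt (L : LocalSubring K) (hL : ResInt L) :
    ∃ M, L ≤ M ∧ Maximal ResInt M := by
  refine zorn_le_nonempty₀ {L | ResInt L} ?_ L hL
  intro c hc H y hy
  obtain ⟨U, hU, hmem⟩ := exists_chain_ub c H y hy
  refine ⟨U, ?_, hU⟩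
  show ResInt U
  refine ⟨fun z => ?_⟩
  obtain ⟨⟨a, ha⟩, rfl⟩ := IsLocalRing.residue_surjective z
  obtain ⟨A, hA, haA⟩ := hmem a ha
  exact isIntegral_residue_of_le (hU A hA) (hc hA) a haA

/-- Every local subring of `K` with residue field integral over `ℤ` is dominated by a valuation
subring of `K` with residue field integral over `ℤ`. -/
theorem exists_valuationSubring_resInt (L : LocalSubring K) (hL : ResInt L) :
    ∃ B : ValuationSubring K, L ≤ B.toLocalSubring ∧
      Algebra.IsIntegral ℤ (IsLocalRing.ResidueField B) := by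
  obtain ⟨M, hLM, hM⟩ := exists_maximal_resInt L hL
  obtain ⟨B, rfl⟩ := exists_valuationSubring_of_maximal_resInt hM
  exact ⟨B, hLM, hM.1⟩

/-- A field which is integral over `ℤ` has prime characteristic. -/
lemma exists_prime_charP_of_isIntegral (k : Type*) [Field k] (hk : Algebra.IsIntegral ℤ k) :
    ∃ p : ℕ, p.Prime ∧ CharP k p := by
  obtain ⟨p, hp⟩ := CharP.exists k
  rcases CharP.char_is_prime_or_zero k p with h | h
  · exact ⟨p, h, hp⟩
  · exfalso
    subst h
    haveI : CharZero k := CharP.charP_to_charZero k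
    have h1 : IsIntegral ℤ (algebraMap ℚ k (1 / 2)) := hk.isIntegral _
    rw [isIntegral_algebraMap_iff (algebraMap ℚ k).injective] at h1
    obtain ⟨y, hy⟩ := IsIntegrallyClosed.isIntegral_iff.mp h1
    have h2 : ((2 * y : ℤ) : ℚ) = 1 := by
      push_cast
      have h3 : ((y : ℤ) : ℚ) = 1 / 2 := hy
      rw [h3]
      norm_num
    have h4 : (2 * y : ℤ) = 1 := by exact_mod_cast h2
    omega

/-- Integral over `ℤ` implies algebraic over `𝔽_p`. -/
lemma isAlgebraic_zmod_of_isIntegral (p : ℕ) (k : Type*) [Field k] [Algebra (ZMod p) k]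
    (hk : Algebra.IsIntegral ℤ k) : Algebra.IsAlgebraic (ZMod p) k := by
  haveI : Nontrivial (ZMod p) := (algebraMap (ZMod p) k).domain_nontrivial
  exact ⟨fun x => ((hk.isIntegral x).tower_top (A := ZMod p)).isAlgebraic⟩

/-- `ℤ` is a Jacobson ring. -/
theorem vc_isJacobsonRing_int : IsJacobsonRing ℤ := by
  rw [isJacobsonRing_iff_prime_eq]
  intro P hP
  by_cases h0 : P = ⊥
  · subst h0
    rw [eq_bot_iff]
    intro n hn
    rw [Ideal.mem_bot]
    by_contra hne
    obtain ⟨p, hp, hpn⟩ := Nat.exists_infinite_primes (n.natAbs + 1)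
    have hmax : (Ideal.span {(p : ℤ)}).IsMaximal :=
      PrincipalIdealRing.isMaximal_of_irreducible (Nat.prime_iff_prime_int.1 hpn).irreducible
    have h1 : n ∈ Ideal.span {(p : ℤ)} := by
      rw [Ideal.jacobson, Ideal.mem_sInf] at hn
      exact hn ⟨bot_le, hmax⟩
    rw [Ideal.mem_span_singleton] at h1
    have h2 : p ∣ n.natAbs := Int.natCast_dvd.1 h1
    have h3 : p ≤ n.natAbs := Nat.le_of_dvd (Int.natAbs_pos.2 hne) h2
    omega
  · haveI := hP.isMaximal h0
    exact Ideal.jacobson_eq_self_of_isMaximal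

/-- **Seat B.**  For a finite subset `T` of a field `K` there are a prime number `p` and a
valuation subring `A` of `K` such that `t, t⁻¹ ∈ A` for all `t ∈ T`, the residue field of `A` has
characteristic `p` and is integral over `ℤ` (i.e. algebraic over `𝔽_p`). -/
theorem exists_valuationSubring_units (T : Finset K) :
    ∃ (p : ℕ) (A : ValuationSubring K), p.Prime ∧ (∀ t ∈ T, t ∈ A ∧ t⁻¹ ∈ A) ∧
      CharP (IsLocalRing.ResidueField A) p ∧
      Algebra.IsIntegral ℤ (IsLocalRing.ResidueField A) := by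
  classical
  set s : Set K := (T : Set K) ∪ (fun t => t⁻¹) '' (T : Set K) with hs
  have hsfin : s.Finite := (T.finite_toSet).union ((T.finite_toSet).image _)
  set R₀ : Subalgebra ℤ K := Algebra.adjoin ℤ s with hR₀
  haveI : Algebra.FiniteType ℤ R₀ := Algebra.FiniteType.adjoin_of_finite hsfin
  obtain ⟨m, hm⟩ := Ideal.exists_maximal R₀.toSubring
  haveI := hm
  letI : Field (R₀.toSubring ⧸ m) := Ideal.Quotient.field m
  have hres : ResInt (LocalSubring.ofPrime R₀.toSubring m) := by
    apply resInt_ofPrime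
    haveI : Algebra.FiniteType ℤ (R₀.toSubring ⧸ m) :=
      Algebra.FiniteType.of_surjective (A := R₀) (Ideal.Quotient.mk m).toIntAlgHom
        Ideal.Quotient.mk_surjective
    haveI : IsJacobsonRing ℤ := vc_isJacobsonRing_int
    haveI : Module.Finite ℤ (R₀.toSubring ⧸ m) :=
      finite_of_finite_type_of_isJacobsonRing ℤ (R₀.toSubring ⧸ m)
    exact Algebra.IsIntegral.of_finite ℤ _
  obtain ⟨A, hLA, hA⟩ := exists_valuationSubring_resInt _ hres
  obtain ⟨p, hp, hchar⟩ := exists_prime_charP_of_isIntegral _ hA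
  refine ⟨p, A, hp, fun t ht => ?_, hchar, hA⟩
  have hle : R₀.toSubring ≤ A.toSubring := (LocalSubring.le_ofPrime _ _).trans hLA.1
  exact ⟨hle (Algebra.subset_adjoin (Or.inl ht)),
    hle (Algebra.subset_adjoin (Or.inr ⟨t, ht, rfl⟩))⟩

/-- If the residue field of `A` has characteristic `p`, then `p` is a non-unit of `A`. -/
lemma natCast_mem_nonunits_of_charP (A : ValuationSubring K) (p : ℕ)
    [CharP (IsLocalRing.ResidueField A) p] : (p : K) ∈ A.nonunits := by
  have h1 : IsLocalRing.residue A (p : A) = 0 := by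
    rw [map_natCast]
    exact CharP.cast_eq_zero _ p
  rw [IsLocalRing.residue_eq_zero_iff] at h1
  rw [ValuationSubring.mem_nonunits_iff_exists_mem_maximalIdeal]
  exact ⟨natCast_mem A p, h1⟩

/-- A non-zero element `t` with `t, t⁻¹ ∈ A` has non-zero residue class. -/
lemma residue_ne_zero_of_mem_of_inv_mem (A : ValuationSubring K) {t : K} (ht0 : t ≠ 0)
    (ht : t ∈ A) (ht' : t⁻¹ ∈ A) : IsLocalRing.residue A ⟨t, ht⟩ ≠ 0 := by
  intro h
  rw [IsLocalRing.residue_eq_zero_iff] at h
  have hu : IsUnit (⟨t, ht⟩ : A) :=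
    isUnit_iff_exists_inv.mpr ⟨⟨t⁻¹, ht'⟩, Subtype.ext (mul_inv_cancel₀ ht0)⟩
  exact (IsLocalRing.mem_maximalIdeal _).1 h hu

/-- If the natural number `n ≠ 0` in `K` is a unit of `A`, the residue characteristic does not
divide `n`. -/
lemma not_dvd_of_natCast_mem (A : ValuationSubring K) (p : ℕ)
    [CharP (IsLocalRing.ResidueField A) p] {n : ℕ} (hn0 : (n : K) ≠ 0)
    (hn : ((n : K))⁻¹ ∈ A) : ¬ p ∣ n := by
  intro hdvd
  have h1 := residue_ne_zero_of_mem_of_inv_mem A hn0 (natCast_mem A n) hn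
  apply h1
  have h2 : (⟨(n : K), natCast_mem A n⟩ : A) = ((n : ℕ) : A) := Subtype.ext (by simp)
  rw [h2, map_natCast]
  exact (CharP.cast_eq_zero_iff _ p n).2 hdvd

/-- **Seat B, algebraically closed form.**  `K` algebraically closed, `T ⊆ K` finite: there are a
prime `p` and a valuation subring `A` of `K` with `t, t⁻¹ ∈ A` for `t ∈ T`, whose residue field is
algebraically closed of characteristic `p` and integral over `ℤ` (an algebraic closure of `𝔽_p`). -/
theorem exists_valuationSubring_units_algClosed [IsAlgClosed K] (T : Finset K) :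
    ∃ (p : ℕ) (A : ValuationSubring K), p.Prime ∧ (∀ t ∈ T, t ∈ A ∧ t⁻¹ ∈ A) ∧
      CharP (IsLocalRing.ResidueField A) p ∧
      Algebra.IsIntegral ℤ (IsLocalRing.ResidueField A) ∧
      IsAlgClosed (IsLocalRing.ResidueField A) := by
  obtain ⟨p, A, hp, hT, hchar, hint⟩ := exists_valuationSubring_units T
  exact ⟨p, A, hp, hT, hchar, hint, Fermat.Agent.FrobTrace.isAlgClosed_residueField A⟩

/-- **Seat B, with a prime to avoid.**  `K` algebraically closed of characteristic `0`, `T ⊆ K`
finite, `N ≠ 0` a natural number: as above, with `p ∤ N`. -/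
theorem exists_valuationSubring_units_not_dvd [IsAlgClosed K] [CharZero K] (T : Finset K)
    (N : ℕ) (hN : N ≠ 0) :
    ∃ (p : ℕ) (A : ValuationSubring K), p.Prime ∧ ¬ p ∣ N ∧ (∀ t ∈ T, t ∈ A ∧ t⁻¹ ∈ A) ∧
      CharP (IsLocalRing.ResidueField A) p ∧
      Algebra.IsIntegral ℤ (IsLocalRing.ResidueField A) ∧
      IsAlgClosed (IsLocalRing.ResidueField A) := by
  classical
  obtain ⟨p, A, hp, hT, hchar, hint, hac⟩ :=
    exists_valuationSubring_units_algClosed (insert (N : K) T)
  haveI := hchar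
  refine ⟨p, A, hp, ?_, fun t ht => hT t (Finset.mem_insert_of_mem ht), hchar, hint, hac⟩
  exact not_dvd_of_natCast_mem A p (Nat.cast_ne_zero.2 hN)
    (hT _ (Finset.mem_insert_self _ _)).2

end Fermat.Agent.S27
end MergeWrap_S27_ValChoice

section MergeWrap_S27_Red_Defs -- from S27/Red/Defs.lean

set_option autoImplicit false

/-!
# S27, block C (good reduction of a general curve): definitions  (sub-architect helper75)

`F / K` a function field, `K` algebraically closed of characteristic `0`.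

* `PlaneModel K F` : a plane model `f(x, y) = 0` of `F` with one place at infinity (block A):
  `f = Y^N + a_{N-1}(X) Y^{N-1} + ⋯ + a_0(X)`, `deg a_b ≤ N - b` for `0 < b < N`,
  `a_0 = -c X^{N+1} + (lower)`, `c ≠ 0` (weights: `wt X = N`, `wt Y = N + 1`, the terms of top
  weight `N (N + 1)` are `Y^N` and `-c X^{N+1}`).
  CONVENTION (that of `Fermat.Agent.S28.pev2`): `f : K[X][X]`, the INNER variable is `X ↦ x`,
  the OUTER variable is `Y ↦ y`; `f.coeff b` is the coefficient of `Y^b`.
* `paramX N w = t^(-N) w`, `paramY N w = t^(-N-1) w` : the parametrisation at infinity, `w` a power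
  series with constant coefficient `c⁻¹` (leaf C-PAR: it exists over every ring in which `c` is a
  unit; `t = x / y`).
* `PlaneModel.IntegralAt M A` : the valuation ring `A` of `K` is good for the model (coefficients
  of `f` in `A`, `c` and `N!` units of `A`).

ROUTE of block C.  `xR = paramX N w`, `yR = paramY N w` over `A` (C-PAR); their images over `K`
give an embedding `ψ : F → K((t))` (C-EMB); their reductions over `k` satisfy
`IndepUpTo x̄ ȳ N` by pole orders (C-IND).  Then `Lib/GaussVal` (`Ov`, `rho`, normal forms: all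
`Type*`) gives the Gauss valuation ring of `F` with residue field `Fk = k(x̄, ȳ) ⊆ k((t))`
(C-GAUSS: `S27GR.RedModel` + `DegData`).
-/

noncomputable section

namespace Fermat.Agent.S27

open Polynomial

/-- evaluation `K[X][Y] → F`, `X ↦ x`, `Y ↦ y` -/
def pmEv {K F : Type*} [Field K] [Field F] [Algebra K F] (x y : F) : K[X][X] →+* F :=
  Polynomial.eval₂RingHom ((Polynomial.aeval x : K[X] →ₐ[K] F).toRingHom) y

/-- A plane model of the function field `F / K` with one place at infinity (block A). -/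
structure PlaneModel (K F : Type*) [Field K] [Field F] [Algebra K F] where
  /-- the degree `[F : K(x)]` -/
  N : ℕ
  hN : 0 < N
  /-- the two generators -/
  x : F
  y : F
  /-- the equation: a polynomial in `Y` (outer) with coefficients in `K[X]` (inner) -/
  f : K[X][X]
  /-- minus the coefficient of `X^(N+1)` -/
  c : K
  hc : c ≠ 0
  monic : f.Monic
  natDegree_f : f.natDegree = N
  deg_mid : ∀ b : ℕ, 0 < b → b < N → (f.coeff b).natDegree ≤ N - b
  deg_zero : (f.coeff 0).natDegree ≤ N + 1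
  top : (f.coeff 0).coeff (N + 1) = -c
  root : pmEv x y f = 0
  x_trans : Transcendental K x
  deg : Module.finrank (IntermediateField.adjoin K {x}) F = N
  gen : IntermediateField.adjoin K {x, y} = ⊤

/-- the Laurent series `t^(-N) * w` -/
def paramX {R : Type*} [CommRing R] (N : ℕ) (w : PowerSeries R) : LaurentSeries R :=
  HahnSeries.single (-(N : ℤ)) (1 : R) * HahnSeries.ofPowerSeries ℤ R w

/-- the Laurent series `t^(-N-1) * w` -/
def paramY {R : Type*} [CommRing R] (N : ℕ) (w : PowerSeries R) : LaurentSeries R :=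
  HahnSeries.single (-(N : ℤ) - 1) (1 : R) * HahnSeries.ofPowerSeries ℤ R w

/-- The valuation ring `A` is good for the plane model `M`. -/
structure PlaneModel.IntegralAt {K F : Type*} [Field K] [Field F] [Algebra K F]
    (M : PlaneModel K F) (A : ValuationSubring K) : Prop where
  coeff_mem : ∀ b a : ℕ, (M.f.coeff b).coeff a ∈ A
  c_inv_mem : M.c⁻¹ ∈ A
  /-- `N! ≠ 0` in `K` (automatic in characteristic `0`) -/
  fact_ne_zero : ((M.N.factorial : ℕ) : K) ≠ 0
  fact_inv_mem : (((M.N.factorial : ℕ) : K))⁻¹ ∈ A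

end Fermat.Agent.S27
end
end MergeWrap_S27_Red_Defs

section MergeWrap_S27_GR_LiftIndex -- from S27/GR/LiftIndex.lean

/-!
# Cluster B / GoodRed (L2): the index of a lifted basis has no root in `A`
Owner: helper27.  Blueprint: NOTES/blueprint-B-GoodRed.md, section 2 (L).

`indexNoRoot : DegData M n → (LB : LiftedBasis M n) → IndexNoRoot M n LB`
(`K` algebraically closed of characteristic `0`).

Proof.  `β` = a `K[x]`-basis of the integral closure of `K[x]` in `F` (Mathlib: integral closure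
of a PID in a finite separable extension is free of rank `n`), `b = P β`, `I = det P`,
`disc b = I ^ 2 disc β`.  If `I(c) = 0`, `c ∈ A`: a nonzero `a ∈ K ^ n` in the left kernel of
`P(c)`, scaled to `a ∈ A ^ n` with `a i₀ = 1`, gives `Σ a i b i = (x - c) f₀` with `f₀` integral
over `K[x]`; `x - c` is a unit of `O`, so `f₀ ∈ B₀` and `ρ f₀ = Σ g i b̄ i` with `g i ∈ k[x̄]`;
comparing coefficients `(x̄ - c̄) g i₀ = 1` in `k[x̄]`, impossible.
-/

set_option autoImplicit false
set_option linter.style.haveILetI false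
set_option linter.unusedVariables false
set_option linter.deprecated false

namespace Fermat.Agent.S27GR

open Polynomial IntermediateField
open scoped IntermediateField.algebraAdjoinAdjoin

noncomputable section

variable {K k F Fk : Type*} [Field K] [Field k] [Field F] [Field Fk] [Algebra K F] [Algebra k Fk]

/-- `gramDet` is Mathlib's discriminant. -/
theorem li_gramDet_eq_discr {Kx L : Type*} [Field Kx] [Field L] [Algebra Kx L] {n : ℕ}
    (b : Fin n → L) : gramDet Kx L b = Algebra.discr Kx b := rfl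

/-- in a valuation ring: a nonzero vector can be scaled to have entries in `A`, one of them `1`. -/
theorem li_exists_max (A : ValuationSubring K) {n : ℕ} (a : Fin n → K) (ha : a ≠ 0) :
    ∃ i₀, a i₀ ≠ 0 ∧ ∀ i, a i / a i₀ ∈ A := by
  have hne : ∃ i, a i ≠ 0 := by
    by_contra h
    simp only [not_exists, not_not] at h
    exact ha (funext h)
  obtain ⟨i₁, hi₁⟩ := hne
  haveI : Nonempty (Fin n) := ⟨i₁⟩
  obtain ⟨i₀, -, hi₀⟩ := Finset.exists_max_image (Finset.univ : Finset (Fin n))
    (fun i => A.valuation (a i)) ⟨i₁, Finset.mem_univ _⟩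
  have h0 : a i₀ ≠ 0 := by
    intro h
    have h1 := hi₀ i₁ (Finset.mem_univ _)
    rw [h, map_zero] at h1
    have h2 : A.valuation (a i₁) ≠ 0 := (Valuation.ne_zero_iff _).mpr hi₁
    exact h2 (le_antisymm h1 zero_le')
  refine ⟨i₀, h0, fun i => ?_⟩
  rw [← A.valuation_le_one_iff, map_div₀]
  have h2 : A.valuation (a i₀) ≠ 0 := (Valuation.ne_zero_iff _).mpr h0
  rw [div_le_iff₀ (zero_lt_iff.mpr h2), one_mul]
  exact hi₀ i (Finset.mem_univ _)

/-- the generator of `K(x)`. -/
abbrev li_gen (x : F) : K⟮x⟯ := ⟨x, mem_adjoin_simple_self K x⟩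

theorem li_aeval_gen_coe (x : F) (p : Polynomial K) :
    ((Polynomial.aeval (li_gen (K := K) x) p : K⟮x⟯) : F) = Polynomial.aeval x p := by
  have : (Polynomial.aeval x p : F) = algebraMap K⟮x⟯ F (Polynomial.aeval (li_gen (K := K) x) p) := by
    rw [← Polynomial.aeval_algebraMap_apply]
    rfl
  rw [this]
  rfl

theorem li_aeval_gen_injective {x : F} (hx : Transcendental K x) :
    Function.Injective (Polynomial.aeval (R := K) (li_gen (K := K) x)) := by
  intro p q hpq
  have h1 := congrArg (fun z : K⟮x⟯ => (z : F)) hpq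
  simp only [li_aeval_gen_coe] at h1
  exact (transcendental_iff_injective.mp hx) h1

theorem li_aeval_mem_intCl (x : F) (p : Polynomial K) : Polynomial.aeval x p ∈ intCl K x := by
  have hxm : x ∈ intCl K x := by
    have h : (algebraMap (Algebra.adjoin K {x}) F) (genAdj x) ∈
        integralClosure (Algebra.adjoin K {x}) F := Subalgebra.algebraMap_mem _ _
    exact h
  rw [← Polynomial.aeval_subalgebra_coe p (intCl K x) ⟨x, hxm⟩]
  exact Subtype.property _

/-- elements of the base ring as polynomials. -/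
theorem li_exists_poly (x : F) (r : Algebra.adjoin K {x}) :
    ∃ p : Polynomial K, (r : F) = Polynomial.aeval x p := by
  obtain ⟨p, hp⟩ := Algebra.adjoin_mem_exists_aeval _ _ r.2
  exact ⟨p, hp.symm⟩


/-- `K[x]` is a principal ideal ring (`x` transcendental). -/
theorem li_isPrincipalIdealRing {x : F} (hx : Transcendental K x) :
    IsPrincipalIdealRing (Algebra.adjoin K {x}) :=
  IsPrincipalIdealRing.of_surjective
    (Polynomial.algEquivOfTranscendental K x hx).toAlgHom.toRingHom
    (Polynomial.algEquivOfTranscendental K x hx).surjective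

/-- A `K[x]`-basis of the integral closure of `K[x]` in `F`. -/
theorem li_exists_integral_basis {x : F} (hx : Transcendental K x) (n : ℕ)
    [FiniteDimensional K⟮x⟯ F] [Algebra.IsSeparable K⟮x⟯ F]
    (hn : Module.finrank K⟮x⟯ F = n) :
    ∃ β : Fin n → F, (∀ i, β i ∈ intCl K x) ∧ LinearIndependent K⟮x⟯ β ∧
      ∀ y ∈ intCl K x, ∃ c : Fin n → Algebra.adjoin K {x}, y = ∑ i, c i • β i := by
  classical
  have := li_isPrincipalIdealRing hx
  let R := Algebra.adjoin K {x}
  let C := integralClosure R F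
  have : Module.Free R C := IsIntegralClosure.module_free R K⟮x⟯ F C
  have : IsNoetherian R C := IsIntegralClosure.isNoetherian R K⟮x⟯ F C
  have : IsLocalization (Algebra.algebraMapSubmonoid C (nonZeroDivisors R)) F :=
    IsIntegralClosure.isLocalization R K⟮x⟯ F C
  let bC := Module.Free.chooseBasis R C
  let bF := Module.Basis.localizationLocalization K⟮x⟯ (nonZeroDivisors R) F bC
  have hcard : Fintype.card (Module.Free.ChooseBasisIndex R C) = n := by
    rw [← hn, Module.finrank_eq_card_basis bF]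
  let e : Module.Free.ChooseBasisIndex R C ≃ Fin n := Fintype.equivFinOfCardEq hcard
  refine ⟨fun i => (bC (e.symm i) : F), fun i => (bC (e.symm i)).2, ?_, ?_⟩
  · have h1 : LinearIndependent K⟮x⟯ bF := bF.linearIndependent
    have h2 : (fun i : Fin n => ((bC (e.symm i) : C) : F)) = bF ∘ e.symm := by
      funext i
      simp [bF, Module.Basis.localizationLocalization_apply]
    rw [h2]
    exact h1.comp _ e.symm.injective
  · intro y hy
    have hyC : y ∈ C := hy
    obtain ⟨z, rfl⟩ : ∃ z : C, (z : F) = y := ⟨⟨y, hyC⟩, rfl⟩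
    refine ⟨fun i => bC.repr z (e.symm i), ?_⟩
    have h3 := bC.sum_repr z
    have h4 : ((∑ i, (bC.repr z) i • bC i : C) : F) = (z : F) := congrArg Subtype.val h3
    rw [← e.symm.sum_comp] at h4
    rw [← h4]
    simp only [AddSubmonoidClass.coe_finset_sum]
    rfl


namespace RedModel

variable (M : RedModel K k F Fk)

/-- elements of `K` outside `A` do not lie in `O`. -/
theorem li_mem_A_of_mem_O {c : K} (h : algebraMap K F c ∈ M.O) : c ∈ M.A := by
  by_contra hc
  have hc0 : c ≠ 0 := fun h0 => hc (h0 ▸ M.A.zero_mem)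
  have hinv : c⁻¹ ∈ M.A := (M.A.mem_or_inv_mem c).resolve_left hc
  have hnu : ¬ IsUnit (⟨c⁻¹, hinv⟩ : M.A) := by
    intro hu
    obtain ⟨u, hu⟩ := hu
    apply hc
    have h1 : ((u⁻¹ : M.Aˣ) : M.A) * ⟨c⁻¹, hinv⟩ = 1 := by
      rw [← hu]; exact u.inv_mul
    have h2 : (((u⁻¹ : M.Aˣ) : M.A) : K) * c⁻¹ = 1 := by
      have := congrArg (Subtype.val) h1
      simpa using this
    have h3 : (((u⁻¹ : M.Aˣ) : M.A) : K) = c := by
      field_simp at h2
      exact h2
    rw [← h3]
    exact ((u⁻¹ : M.Aˣ) : M.A).2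
  have hres : M.res ⟨c⁻¹, hinv⟩ = 0 := (M.res_eq_zero _).mpr hnu
  have hrho : M.rho ⟨algebraMap K F ((⟨c⁻¹, hinv⟩ : M.A) : K), M.map_mem ⟨c⁻¹, hinv⟩⟩ = 0 := by
    rw [M.rho_map, hres, map_zero]
  have hnu' := (M.rho_eq_zero _).mp hrho
  apply hnu'
  refine isUnit_iff_exists_inv.mpr ⟨⟨algebraMap K F c, h⟩, ?_⟩
  apply Subtype.ext
  simp [hc0]

/-- the base parameter is transcendental over `K`. -/
theorem li_x_transcendental [IsAlgClosed K] : Transcendental K M.x := by
  intro halg
  have hmem : M.x ∈ Set.range (algebraMap K F) := by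
    have hint : IsIntegral K M.x := halg.isIntegral
    have hirr := minpoly.irreducible hint
    have hdeg := IsAlgClosed.degree_eq_one_of_irreducible K hirr
    exact minpoly.mem_range_of_degree_eq_one K M.x hdeg
  obtain ⟨c, hc⟩ := hmem
  have hcO : algebraMap K F c ∈ M.O := hc ▸ M.x_mem
  have hcA := M.li_mem_A_of_mem_O hcO
  apply M.x_trans
  have : M.rho ⟨M.x, M.x_mem⟩ = algebraMap k Fk (M.res ⟨c, hcA⟩) := by
    rw [← M.rho_map]
    congr 1
    apply Subtype.ext
    exact hc.symm
  rw [this]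
  exact isAlgebraic_algebraMap _

/-- `x - c` lies in `O` for `c ∈ A`. -/
theorem li_sub_mem (c : M.A) : M.x - algebraMap K F c ∈ M.O :=
  M.O.sub_mem M.x_mem (M.map_mem c)

/-- `x - c` is a unit of `O` for `c ∈ A`. -/
theorem li_isUnit_sub (c : M.A) : IsUnit (⟨M.x - algebraMap K F c, M.li_sub_mem c⟩ : M.O) := by
  by_contra hnu
  have h0 := (M.rho_eq_zero _).mpr hnu
  have h1 : M.rho ⟨M.x - algebraMap K F c, M.li_sub_mem c⟩ =
      M.rho ⟨M.x, M.x_mem⟩ - algebraMap k Fk (M.res c) := by
    rw [← M.rho_map, ← map_sub]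
    rfl
  rw [h1, sub_eq_zero] at h0
  apply M.x_trans
  rw [h0]
  exact isAlgebraic_algebraMap _

theorem li_rho_sub (c : M.A) : M.rho ⟨M.x - algebraMap K F c,
    M.O.sub_mem M.x_mem (M.map_mem c)⟩ = M.xbar - algebraMap k Fk (M.res c) := by
  rw [← M.rho_map, RedModel.xbar, ← map_sub]
  rfl

/-- the reduction of a linear combination with coefficients in `A`. -/
theorem li_rho_sum {n : ℕ} (a : Fin n → K) (ha : ∀ i, a i ∈ M.A) (b : Fin n → F)
    (hb : ∀ i, b i ∈ M.O) (hg : ∑ i, algebraMap K F (a i) * b i ∈ M.O) :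
    M.rho ⟨∑ i, algebraMap K F (a i) * b i, hg⟩ =
      ∑ i, algebraMap k Fk (M.res ⟨a i, ha i⟩) * M.rho ⟨b i, hb i⟩ := by
  have h1 : (⟨∑ i, algebraMap K F (a i) * b i, hg⟩ : M.O) =
      ∑ i, (⟨algebraMap K F (a i), M.map_mem ⟨a i, ha i⟩⟩ : M.O) * ⟨b i, hb i⟩ := by
    apply Subtype.ext
    simp
  rw [h1, map_sum]
  refine Finset.sum_congr rfl fun i _ => ?_
  rw [map_mul]
  congr 1
  exact M.rho_map ⟨a i, ha i⟩

end RedModel


/-- CORE of (L2): the determinant of the transition matrix has no root in `A`. -/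
theorem li_eval_det_ne_zero (M : RedModel K k F Fk) (n : ℕ) (LB : LiftedBasis M n)
    (β : Fin n → F) (hβ : ∀ i, β i ∈ intCl K M.x)
    (P : Matrix (Fin n) (Fin n) (Polynomial K))
    (hP : ∀ i, LB.b i = ∑ j, Polynomial.aeval M.x (P i j) * β j)
    (c : K) (hc : c ∈ M.A) : P.det.eval c ≠ 0 := by
  classical
  intro h0
  -- a nonzero vector in the left kernel of `P(c)`
  have hdet : (P.map (Polynomial.evalRingHom c)).det = 0 := by
    rw [← RingHom.mapMatrix_apply, ← RingHom.map_det]
    exact h0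
  obtain ⟨a₀, ha₀, hker₀⟩ := Matrix.exists_vecMul_eq_zero_iff.mpr hdet
  -- scale it
  obtain ⟨i₀, hi₀, hA⟩ := li_exists_max M.A a₀ ha₀
  let a : Fin n → K := fun i => a₀ i / a₀ i₀
  have haA : ∀ i, a i ∈ M.A := hA
  have hai₀ : a i₀ = 1 := div_self hi₀
  have hker : ∀ j, ∑ i, a i * (P i j).eval c = 0 := by
    intro j
    have := congrFun hker₀ j
    simp only [Matrix.vecMul, dotProduct, Matrix.map_apply, Polynomial.coe_evalRingHom,
      Pi.zero_apply] at this
    simp only [a, div_mul_eq_mul_div, ← Finset.sum_div, this, zero_div]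
  -- the polynomials `r j`
  let r : Fin n → Polynomial K := fun j => ∑ i, Polynomial.C (a i) * P i j
  have hr : ∀ j, (r j).eval c = 0 := by
    intro j
    simp only [r, Polynomial.eval_finsetSum, Polynomial.eval_mul, Polynomial.eval_C]
    exact hker j
  have hq : ∀ j, ∃ q : Polynomial K, r j = (Polynomial.X - Polynomial.C c) * q := by
    intro j
    exact Polynomial.dvd_iff_isRoot.mpr (hr j)
  choose q hq using hq
  -- the element `g`
  have hgsum : ∑ i, algebraMap K F (a i) * LB.b i =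
      (M.x - algebraMap K F c) * ∑ j, Polynomial.aeval M.x (q j) * β j := by
    calc ∑ i, algebraMap K F (a i) * LB.b i
        = ∑ i, ∑ j, algebraMap K F (a i) * (Polynomial.aeval M.x (P i j) * β j) := by
          refine Finset.sum_congr rfl fun i _ => ?_
          rw [hP i, Finset.mul_sum]
      _ = ∑ j, ∑ i, algebraMap K F (a i) * (Polynomial.aeval M.x (P i j) * β j) :=
          Finset.sum_comm
      _ = ∑ j, Polynomial.aeval M.x (r j) * β j := by
          refine Finset.sum_congr rfl fun j _ => ?_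
          simp only [r, map_sum, map_mul, Polynomial.aeval_C, Finset.sum_mul, mul_assoc]
      _ = ∑ j, (M.x - algebraMap K F c) * (Polynomial.aeval M.x (q j) * β j) := by
          refine Finset.sum_congr rfl fun j _ => ?_
          rw [hq j, map_mul, map_sub, Polynomial.aeval_X, Polynomial.aeval_C, mul_assoc]
      _ = _ := by rw [Finset.mul_sum]
  set f₀ : F := ∑ j, Polynomial.aeval M.x (q j) * β j with hf₀
  have hf₀int : f₀ ∈ intCl K M.x :=
    Subalgebra.sum_mem _ fun j _ => Subalgebra.mul_mem _ (li_aeval_mem_intCl M.x (q j)) (hβ j)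
  have hgO : ∑ i, algebraMap K F (a i) * LB.b i ∈ M.O :=
    Subring.sum_mem M.O.toSubring fun i _ =>
      M.O.mul_mem _ _ (M.map_mem ⟨a i, haA i⟩) (LB.mem_O i)
  -- `f₀ ∈ O`
  obtain ⟨u, hu⟩ := M.li_isUnit_sub ⟨c, hc⟩
  have hxc : M.x - algebraMap K F c ≠ 0 := by
    intro h
    have h1 := M.li_rho_sub ⟨c, hc⟩
    have h2 : (⟨M.x - algebraMap K F ((⟨c, hc⟩ : M.A) : K),
        M.O.sub_mem M.x_mem (M.map_mem ⟨c, hc⟩)⟩ : M.O) = 0 := Subtype.ext h
    rw [h2, map_zero] at h1
    apply M.x_trans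
    have h3 : M.rho ⟨M.x, M.x_mem⟩ = algebraMap k Fk (M.res ⟨c, hc⟩) := by
      have := sub_eq_zero.mp h1.symm
      exact this
    rw [h3]
    exact isAlgebraic_algebraMap _
  have hf₀eq : ((⟨_, hgO⟩ * ((u⁻¹ : (M.O)ˣ) : M.O) : M.O) : F) = f₀ := by
    have h1 : (((u⁻¹ : (M.O)ˣ) : M.O) : F) * (M.x - algebraMap K F c) = 1 := by
      have h2 : ((u⁻¹ : (M.O)ˣ) : M.O) * (u : M.O) = 1 := u.inv_mul
      rw [hu] at h2
      exact congrArg Subtype.val h2
    show (∑ i, algebraMap K F (a i) * LB.b i) * (((u⁻¹ : (M.O)ˣ) : M.O) : F) = f₀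
    rw [hgsum]
    calc (M.x - algebraMap K F c) * f₀ * (((u⁻¹ : (M.O)ˣ) : M.O) : F)
        = f₀ * ((((u⁻¹ : (M.O)ˣ) : M.O) : F) * (M.x - algebraMap K F c)) := by ring
      _ = f₀ := by rw [h1, mul_one]
  have hf₀O : f₀ ∈ M.O := hf₀eq ▸ Subtype.property _
  -- reduce
  have hmemB : M.rho ⟨f₀, hf₀O⟩ ∈ M.Bbar := ⟨⟨f₀, hf₀O⟩, hf₀int, rfl⟩
  obtain ⟨gc, hgc⟩ := LB.basis.span _ hmemB
  have hred : M.rho ⟨_, hgO⟩ = (M.xbar - algebraMap k Fk (M.res ⟨c, hc⟩)) * M.rho ⟨f₀, hf₀O⟩ := by
    rw [← M.li_rho_sub ⟨c, hc⟩, ← map_mul]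
    congr 1
    apply Subtype.ext
    exact hgsum
  rw [M.li_rho_sum a haA LB.b LB.mem_O hgO, hgc] at hred
  -- compare coefficients
  have hind := LB.basis.indep
  rw [Fintype.linearIndependent_iff] at hind
  let coef : Fin n → k⟮M.xbar⟯ := fun i =>
    algebraMap k k⟮M.xbar⟯ (M.res ⟨a i, haA i⟩) -
      ((⟨M.xbar, mem_adjoin_simple_self k M.xbar⟩ : k⟮M.xbar⟯) -
        algebraMap k k⟮M.xbar⟯ (M.res ⟨c, hc⟩)) * algebraMap _ k⟮M.xbar⟯ (gc i)
  have hsum : ∑ i, coef i • M.rho ⟨LB.b i, LB.mem_O i⟩ = 0 := by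
    have h1 : ∀ i, coef i • M.rho ⟨LB.b i, LB.mem_O i⟩ =
        algebraMap k Fk (M.res ⟨a i, haA i⟩) * M.rho ⟨LB.b i, LB.mem_O i⟩ -
          (M.xbar - algebraMap k Fk (M.res ⟨c, hc⟩)) *
            (gc i • M.rho ⟨LB.b i, LB.mem_O i⟩) := by
      intro i
      have e1 : ∀ z : k, algebraMap k⟮M.xbar⟯ Fk (algebraMap k k⟮M.xbar⟯ z) = algebraMap k Fk z :=
        fun z => rfl
      have e2 : algebraMap k⟮M.xbar⟯ Fk (⟨M.xbar, mem_adjoin_simple_self k M.xbar⟩ : k⟮M.xbar⟯) =
          M.xbar := rfl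
      have e3 : algebraMap k⟮M.xbar⟯ Fk (algebraMap _ k⟮M.xbar⟯ (gc i)) = ((gc i : Fk)) := rfl
      have e4 : gc i • M.rho ⟨LB.b i, LB.mem_O i⟩ = (gc i : Fk) * M.rho ⟨LB.b i, LB.mem_O i⟩ :=
        rfl
      rw [Algebra.smul_def, e4]
      simp only [coef, map_sub, map_mul, e1, e2, e3]
      ring
    simp only [h1, Finset.sum_sub_distrib, ← Finset.mul_sum]
    rw [hred, sub_self]
  have hi₀' := hind coef hsum i₀
  have h1 : algebraMap k⟮M.xbar⟯ Fk (coef i₀) = 0 := by rw [hi₀', map_zero]
  obtain ⟨p, hp⟩ := li_exists_poly M.xbar (gc i₀)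
  have h2 : algebraMap k⟮M.xbar⟯ Fk (coef i₀) =
      Polynomial.aeval M.xbar (1 - (Polynomial.X - Polynomial.C (M.res ⟨c, hc⟩)) * p) := by
    have h3 : M.res ⟨a i₀, haA i₀⟩ = 1 := by
      have : (⟨a i₀, haA i₀⟩ : M.A) = 1 := Subtype.ext hai₀
      rw [this, map_one]
    have e1 : ∀ z : k, algebraMap k⟮M.xbar⟯ Fk (algebraMap k k⟮M.xbar⟯ z) = algebraMap k Fk z :=
      fun z => rfl
    have e2 : algebraMap k⟮M.xbar⟯ Fk (⟨M.xbar, mem_adjoin_simple_self k M.xbar⟩ : k⟮M.xbar⟯) =
        M.xbar := rfl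
    have e3 : algebraMap k⟮M.xbar⟯ Fk (algebraMap _ k⟮M.xbar⟯ (gc i₀)) = ((gc i₀ : Fk)) := rfl
    simp only [coef, map_sub, map_mul, Polynomial.aeval_X, Polynomial.aeval_C, map_one, ← hp,
      e1, e2, e3, h3]
  rw [h2] at h1
  have h4 := (transcendental_iff_injective.mp M.x_trans) (h1.trans (map_zero _).symm)
  have h5 := congrArg (Polynomial.eval (M.res ⟨c, hc⟩)) h4
  simp at h5


/-- the Gram determinant of integral elements is a polynomial in `x`. -/
theorem li_exists_gram_poly {x : F} (hx : Transcendental K x) (n : ℕ)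
    [FiniteDimensional K⟮x⟯ F] [Algebra.IsSeparable K⟮x⟯ F]
    (β : Fin n → F) (hβ : ∀ i, β i ∈ intCl K x) :
    ∃ dK : Polynomial K, Polynomial.aeval (li_gen (K := K) x) dK = gramDet K⟮x⟯ F β := by
  have := li_isPrincipalIdealRing hx
  have hint : IsIntegral (Algebra.adjoin K {x}) (Algebra.discr K⟮x⟯ β) :=
    Algebra.discr_isIntegral K⟮x⟯ (fun i => hβ i)
  obtain ⟨d, hd⟩ := IsIntegrallyClosed.isIntegral_iff.mp hint
  obtain ⟨p, hp⟩ := li_exists_poly x d
  refine ⟨p, ?_⟩
  apply Subtype.ext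
  rw [li_aeval_gen_coe, ← hp]
  show (d : F) = ((Algebra.discr K⟮x⟯ β : K⟮x⟯) : F)
  rw [← hd]
  rfl

/-- **(L2) the index has no root in `A`.** -/
theorem indexNoRoot [IsAlgClosed K] [CharZero K] (M : RedModel K k F Fk) (n : ℕ)
    (hdeg : DegData M n) (LB : LiftedBasis M n) : IndexNoRoot M n LB := by
  classical
  have hx : Transcendental K M.x := M.li_x_transcendental
  have hfd : FiniteDimensional K⟮M.x⟯ F :=
    Module.finite_of_finrank_pos (by rw [hdeg.deg]; exact hdeg.pos)
  have hcz : CharZero K⟮M.x⟯ := charZero_of_injective_algebraMap (algebraMap K K⟮M.x⟯).injective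
  have hsep : Algebra.IsSeparable K⟮M.x⟯ F := inferInstance
  obtain ⟨β, hβ, hβind, hβspan⟩ := li_exists_integral_basis hx n hdeg.deg
  obtain ⟨dK, hdK⟩ := li_exists_gram_poly hx n β hβ
  -- transition matrix
  have hP : ∀ i, ∃ p : Fin n → Polynomial K, LB.b i = ∑ j, Polynomial.aeval M.x (p j) * β j := by
    intro i
    obtain ⟨c, hc⟩ := hβspan (LB.b i) (LB.mem_int i)
    have hc' : ∀ j, ∃ p : Polynomial K, (c j : F) = Polynomial.aeval M.x p :=
      fun j => li_exists_poly M.x (c j)
    choose p hp using hc'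
    refine ⟨p, ?_⟩
    rw [hc]
    refine Finset.sum_congr rfl fun j _ => ?_
    rw [← hp j]
    rfl
  choose P hP using hP
  let PM : Matrix (Fin n) (Fin n) (Polynomial K) := Matrix.of P
  have hPM : ∀ i, LB.b i = ∑ j, Polynomial.aeval M.x (PM i j) * β j := hP
  refine ⟨β, PM.det, dK, hβ, hβind, hβspan, hdK, ?_, ?_⟩
  · apply li_aeval_gen_injective hx
    have h1 : Polynomial.aeval (li_gen (K := K) M.x) (LB.D.map M.A.subtype) =
        gramDet K⟮M.x⟯ F LB.b := by
      rw [← LB.D_gram]
      rfl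
    rw [h1, map_mul, map_pow, hdK]
    -- discriminant of a transformed family
    let P' : Matrix (Fin n) (Fin n) K⟮M.x⟯ :=
      PM.map (Polynomial.aeval (li_gen (K := K) M.x))
    have h2 : LB.b = (P'.map (algebraMap K⟮M.x⟯ F)).mulVec β := by
      funext i
      rw [hPM i]
      simp only [Matrix.mulVec, dotProduct, Matrix.map_apply, P']
      refine Finset.sum_congr rfl fun j _ => ?_
      congr 1
      exact (li_aeval_gen_coe M.x (PM i j)).symm
    have h3 : P'.det = Polynomial.aeval (li_gen (K := K) M.x) PM.det := by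
      have := RingHom.map_det (Polynomial.aeval (R := K) (li_gen (K := K) M.x)).toRingHom PM
      exact this.symm
    have h4 := Algebra.discr_of_matrix_mulVec (A := K⟮M.x⟯) β P'
    show Algebra.discr K⟮M.x⟯ LB.b = _
    rw [h2, h4, h3]
    rfl
  · intro c hc
    exact li_eval_det_ne_zero M n LB β hβ PM hPM c hc


end

end Fermat.Agent.S27GR
end MergeWrap_S27_GR_LiftIndex

section MergeWrap_S27_GR_LiftFinal -- from S27/GR/LiftFinal.lean

/-!
# Cluster B / GoodRed, step (L): the LIFT STEP, closed form (helper21)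

`liftStep_closed` : `DegData M n` + `BranchData M n` + (ALG-2) for `K[x] ⊆ K(x) ⊆ F`
imply `LiftStep M n BD`.  Assembles (T) `charpolyRed` (helper77), (L1) `liftBasisStep` (helper9),
(L2) `indexNoRoot` (helper27), (L3) `rootMultiplicity_map_res` (helper7), (L4) `liftStep`.
-/

set_option autoImplicit false

namespace Fermat.Agent.S27GR

open Polynomial IntermediateField
open scoped IntermediateField.algebraAdjoinAdjoin

universe uK uk uF uFk

variable {K : Type uK} {k : Type uk} {F : Type uF} {Fk : Type uFk}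
  [Field K] [Field k] [Field F] [Field Fk] [Algebra K F] [Algebra k Fk]

/-- **(L)** the LIFT STEP: only (ALG-2) remains as a hypothesis. -/
theorem liftStep_closed [IsAlgClosed K] [CharZero K] (M : RedModel K k F Fk) (n : ℕ)
    (hdeg : DegData M n) (BD : BranchData M n)
    (hA2 : DiscUpperTame.{_, _, _, uK} (Algebra.adjoin K {M.x}) K⟮M.x⟯ F) : LiftStep M n BD :=
  liftStep M n hdeg BD hA2 (M.liftBasisStep (charpolyRed M n hdeg) hdeg) (indexNoRoot M n hdeg)

end Fermat.Agent.S27GR
end MergeWrap_S27_GR_LiftFinal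

section MergeWrap_S27_GR_LiftA -- from S27/GR/LiftA.lean

/-!
# Cluster B / GoodRed, step (L) for WEAK branch data (helper37; proof = helper21's `liftStep_of`
verbatim, which only uses `unram` at points of `A`).
-/

set_option autoImplicit false

namespace Fermat.Agent.S27GR

open Polynomial IntermediateField
open scoped IntermediateField.algebraAdjoinAdjoin

noncomputable section

universe uK uk uF uFk

variable {K : Type uK} {k : Type uk} {F : Type uF} {Fk : Type uFk}
  [Field K] [Field k] [Field F] [Field Fk] [Algebra K F] [Algebra k Fk]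

/-- **(L4)** the LIFT STEP from a lifted basis (L1), the index statement (L2), the roots lemma
(L3) and the tame discriminant bound (ALG-2). -/
theorem liftStepA_of [IsAlgClosed K] [CharZero K] (M : RedModel K k F Fk) (n : ℕ)
    (hdeg : DegData M n) (BD : BranchDataA M n)
    (hA2 : DiscUpperTame.{_, _, _, uK} (Algebra.adjoin K {M.x}) K⟮M.x⟯ F)
    (LB : LiftedBasis M n) (hL2 : IndexNoRoot M n LB) : LiftStepA M n BD := by
  classical
  have hx : Transcendental K M.x := M.l4_x_transcendental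
  have hxb : Transcendental k M.xbar := M.x_trans
  obtain ⟨β, I, dK, hβint, hβLI, hβspan, hdK, hD, hI⟩ := hL2
  -- (ALG-2) in polynomial language
  have key : ∀ (c : K) (m : ℕ), (X - C c) ^ m ∣ dK → m + fibreCard K M.x c ≤ n :=
    fun c m hm => add_fibreCard_le_of_pow_dvd M.x hx n hdeg.deg hdeg.pos hA2 β dK hβint hβLI
      hβspan hdK c m hm
  -- nonvanishing
  have hD0 : LB.D ≠ 0 := by
    intro h0
    apply LB.D_bar_ne
    rw [h0, Polynomial.map_zero]
  have hDK0 : LB.D.map M.A.subtype ≠ 0 := by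
    intro h0
    apply hD0
    apply map_subtype_injective
    rw [h0, Polynomial.map_zero]
  have hI2dK : I ^ 2 * dK ≠ 0 := by rw [← hD]; exact hDK0
  have hI0 : I ^ 2 ≠ 0 := left_ne_zero_of_mul hI2dK
  -- multiplicities of roots in `A`
  have hmult : ∀ r : M.A, LB.D.rootMultiplicity r = dK.rootMultiplicity (r : K) := by
    intro r
    rw [Polynomial.eq_rootMultiplicity_map (f := M.A.subtype) Subtype.val_injective r, hD,
      Polynomial.rootMultiplicity_mul hI2dK]
    have h1 : (I ^ 2).rootMultiplicity (r : K) = 0 := by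
      rw [Polynomial.rootMultiplicity_eq_zero_iff]
      intro hroot
      exfalso
      rw [Polynomial.IsRoot.def, Polynomial.eval_pow] at hroot
      exact hI (r : K) r.2 (pow_eq_zero_iff (two_ne_zero) |>.mp hroot)
    have h2 : M.A.subtype r = (r : K) := rfl
    rw [h2, h1, zero_add]
  -- roots in `A` are branch values
  have hrootS : ∀ r : M.A, LB.D.IsRoot r → (r : K) ∈ BD.S := by
    intro r hr
    by_contra hS
    have h1 : 0 < LB.D.rootMultiplicity r := (Polynomial.rootMultiplicity_pos hD0).mpr hr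
    rw [hmult r] at h1
    have h2 := key (r : K) _ (Polynomial.pow_rootMultiplicity_dvd dK (r : K))
    rw [BD.unram (r : K) r.2 hS] at h2
    omega
  refine ⟨fun i => M.rho ⟨LB.b i, LB.mem_O i⟩, LB.basis,
    l4_polyEquiv k M.xbar hxb (LB.D.map M.res), ?_, ?_, ?_⟩
  · rw [l4_algebraMap_polyEquiv, ← LB.D_gram_bar]
    rfl
  · intro h0
    apply LB.D_bar_ne
    apply (l4_polyEquiv k M.xbar hxb).injective
    rw [h0, map_zero]
  · intro c hc m hm
    rw [l4_piAt_pow_dvd_iff] at hm
    have hm1 : m ≤ (LB.D.map M.res).rootMultiplicity (M.res ⟨c, hc⟩) :=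
      (Polynomial.le_rootMultiplicity_iff LB.D_bar_ne).mpr hm
    rw [rootMultiplicity_map_res M.res_eq_zero LB.D LB.D_bar_ne] at hm1
    have hfil : ∀ r ∈ LB.D.roots.filter (fun r => M.res r = M.res ⟨c, hc⟩),
        (r : K) ∈ BD.S ∧ M.res r = M.res ⟨c, hc⟩ := by
      intro r hr
      rw [Multiset.mem_filter] at hr
      exact ⟨hrootS r ((Polynomial.mem_roots hD0).mp hr.1), hr.2⟩
    constructor
    · intro hcS
      have hall : ∀ r ∈ LB.D.roots.filter (fun r => M.res r = M.res ⟨c, hc⟩),
          r = (⟨c, hc⟩ : M.A) := by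
        intro r hr
        obtain ⟨h1, h2⟩ := hfil r hr
        exact Subtype.ext (BD.S_inj (r : K) h1 c hcS r.2 hc h2)
      have hrep := Multiset.eq_replicate_card.mpr hall
      have hcount : Multiset.card (LB.D.roots.filter (fun r => M.res r = M.res ⟨c, hc⟩)) ≤
          LB.D.rootMultiplicity (⟨c, hc⟩ : M.A) := by
        rw [← Polynomial.count_roots]
        calc Multiset.card (LB.D.roots.filter (fun r => M.res r = M.res ⟨c, hc⟩))
            = Multiset.count (⟨c, hc⟩ : M.A)
                (LB.D.roots.filter (fun r => M.res r = M.res ⟨c, hc⟩)) := by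
              conv_rhs => rw [hrep]
              rw [Multiset.count_replicate_self]
          _ ≤ Multiset.count (⟨c, hc⟩ : M.A) LB.D.roots :=
              Multiset.count_le_of_le _ (Multiset.filter_le _ _)
      rw [hmult ⟨c, hc⟩] at hcount
      have h2 := key c _ (Polynomial.pow_rootMultiplicity_dvd dK c)
      have h3 : (((⟨c, hc⟩ : M.A)) : K) = c := rfl
      rw [h3] at hcount
      omega
    · intro hno
      have hempty : LB.D.roots.filter (fun r => M.res r = M.res ⟨c, hc⟩) = 0 := by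
        apply Multiset.eq_zero_of_forall_notMem
        intro r hr
        obtain ⟨h1, h2⟩ := hfil r hr
        exact hno (r : K) h1 r.2 h2
      rw [hempty, Multiset.card_zero] at hm1
      omega

/-- **(L)** the LIFT STEP for weak branch data: only (ALG-2) remains as a hypothesis. -/
theorem liftStepA_closed [IsAlgClosed K] [CharZero K] (M : RedModel K k F Fk) (n : ℕ)
    (hdeg : DegData M n) (BD : BranchDataA M n)
    (hA2 : DiscUpperTame.{_, _, _, uK} (Algebra.adjoin K {M.x}) K⟮M.x⟯ F) : LiftStepA M n BD := by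
  obtain ⟨LB⟩ := M.liftBasisStep (charpolyRed M n hdeg) hdeg
  exact liftStepA_of M n hdeg BD hA2 LB (indexNoRoot M n hdeg LB)

end

end Fermat.Agent.S27GR
end MergeWrap_S27_GR_LiftA

section MergeWrap_S27_GR_Points -- from S27/GR/Points.lean

/-!
# Cluster B / GoodRed: the POINTS step (P) of the discriminant chain  (helper46)

`pointsStep : CharpolyRed M → DegData M n → PointsStep M` for algebraically closed `K`, `k`:
every `k`-point `χ` of `Spec B̄` over `c̄` is the reduction `χ_ψ` of a `K`-point `ψ` of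
`Spec (intCl K x)` over `c` (for ANY lift `c ∈ A` of `c̄`), and `ψ ↦ χ_ψ` is a function, so
`#pts(B̄, c̄) ≤ #fibre(c)`.

Only the characteristic polynomials provided by `CharpolyRed` are used (Cayley–Hamilton, norms).
-/

set_option autoImplicit false

namespace Fermat.Agent.S27GR

open Polynomial IntermediateField
open scoped IntermediateField.algebraAdjoinAdjoin

noncomputable section

variable {K k F Fk : Type*} [Field K] [Field k] [Field F] [Field Fk] [Algebra K F] [Algebra k Fk]

namespace RedModel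

variable (M : RedModel K k F Fk)

/-- `O ∩ K = A`. -/
theorem pts_mem_A_of_algebraMap_mem {a : K} (h : algebraMap K F a ∈ M.O) : a ∈ M.A := by
  by_contra ha
  have ha0 : a ≠ 0 := fun h0 => ha (h0 ▸ M.A.zero_mem)
  have hinv : a⁻¹ ∈ M.A := (M.A.mem_or_inv_mem a).resolve_left ha
  have hnu : ¬ IsUnit (⟨a⁻¹, hinv⟩ : M.A) := by
    intro hu
    obtain ⟨u, hu⟩ := hu
    have h1 : ((u⁻¹ : (M.A)ˣ) : M.A) * ⟨a⁻¹, hinv⟩ = 1 := by
      rw [← hu]; exact u.inv_mul
    have h2 : (((u⁻¹ : (M.A)ˣ) : M.A) : K) * a⁻¹ = 1 := by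
      have := congrArg (Subtype.val) h1
      simpa using this
    have h3 : (((u⁻¹ : (M.A)ˣ) : M.A) : K) = a := by
      field_simp at h2
      exact h2
    exact ha (h3 ▸ ((u⁻¹ : (M.A)ˣ) : M.A).2)
  have h0 : M.res ⟨a⁻¹, hinv⟩ = 0 := (M.res_eq_zero _).mpr hnu
  have h1 : M.rho ⟨algebraMap K F a⁻¹, M.map_mem ⟨a⁻¹, hinv⟩⟩ = 0 := by
    have := M.rho_map ⟨a⁻¹, hinv⟩
    rw [h0, map_zero] at this
    exact this
  have h2 : ¬ IsUnit (⟨algebraMap K F a⁻¹, M.map_mem ⟨a⁻¹, hinv⟩⟩ : M.O) :=
    (M.rho_eq_zero _).mp h1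
  apply h2
  refine ⟨⟨⟨algebraMap K F a⁻¹, M.map_mem ⟨a⁻¹, hinv⟩⟩, ⟨algebraMap K F a, h⟩, ?_, ?_⟩, rfl⟩
  · apply Subtype.ext
    show algebraMap K F a⁻¹ * algebraMap K F a = 1
    rw [← map_mul, inv_mul_cancel₀ ha0, map_one]
  · apply Subtype.ext
    show algebraMap K F a * algebraMap K F a⁻¹ = 1
    rw [← map_mul, mul_inv_cancel₀ ha0, map_one]

/-- The base parameter is transcendental over `K` (`K` algebraically closed). -/
theorem pts_x_transcendental [IsAlgClosed K] : Transcendental K M.x := by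
  intro halg
  have hint : IsIntegral K M.x := halg.isIntegral
  have hdeg : (minpoly K M.x).degree = 1 :=
    IsAlgClosed.degree_eq_one_of_irreducible K (minpoly.irreducible hint)
  obtain ⟨a, ha⟩ := minpoly.mem_range_of_degree_eq_one K M.x hdeg
  have hO : algebraMap K F a ∈ M.O := by rw [ha]; exact M.x_mem
  have hA : a ∈ M.A := M.pts_mem_A_of_algebraMap_mem hO
  have h1 : M.rho ⟨M.x, M.x_mem⟩ = algebraMap k Fk (M.res ⟨a, hA⟩) := by
    rw [← M.rho_map ⟨a, hA⟩]
    congr 1
    exact Subtype.ext ha.symm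
  apply M.x_trans
  rw [h1]
  exact isAlgebraic_algebraMap _

end RedModel

section Core

variable (M : RedModel K k F Fk)

/-- `x` as an element of `K⟮x⟯`. -/
def ptsXKx : K⟮M.x⟯ := ⟨M.x, mem_adjoin_simple_self K M.x⟩

/-- `p ↦ p(x)`, `K[X] → K⟮x⟯`. -/
def ptsEvKx : K[X] →+* K⟮M.x⟯ := (Polynomial.aeval (ptsXKx M)).toRingHom

/-- The map `A[X] → K⟮x⟯` used in `CharpolyRed`. -/
def ptsToKx : (M.A)[X] →+* K⟮M.x⟯ := (ptsEvKx M).comp (Polynomial.mapRingHom M.A.subtype)

theorem ptsEvKx_C (a : K) : ptsEvKx M (C a) = algebraMap K K⟮M.x⟯ a := by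
  simp [ptsEvKx]

theorem ptsEvKx_X : ptsEvKx M X = ptsXKx M := by
  simp [ptsEvKx]

theorem algebraMap_ptsEvKx (p : K[X]) :
    algebraMap K⟮M.x⟯ F (ptsEvKx M p) = Polynomial.aeval M.x p := by
  induction p using Polynomial.induction_on' with
  | add p q hp hq => rw [map_add, map_add, map_add, hp, hq]
  | monomial n a =>
    rw [← C_mul_X_pow_eq_monomial, map_mul, map_pow, ptsEvKx_C, ptsEvKx_X, map_mul, map_pow,
      map_mul, map_pow, aeval_C, aeval_X, ← IsScalarTower.algebraMap_apply]
    rfl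

theorem ptsEvKx_injective [IsAlgClosed K] : Function.Injective (ptsEvKx M) := by
  rw [injective_iff_map_eq_zero]
  intro p hp
  have h := congrArg (algebraMap K⟮M.x⟯ F) hp
  rw [algebraMap_ptsEvKx, map_zero] at h
  by_contra hne
  exact M.pts_x_transcendental ⟨p, hne, h⟩

/-- `y ∈ K⟮x⟯` is a polynomial in `x` whose value at `x = c` is `e`. -/
def PtsPolyVal (c : K) (y : K⟮M.x⟯) (e : K) : Prop :=
  ∃ p : K[X], ptsEvKx M p = y ∧ p.eval c = e

variable {M}

theorem PtsPolyVal.mul {c : K} {y y' : K⟮M.x⟯} {e e' : K} (h : PtsPolyVal M c y e)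
    (h' : PtsPolyVal M c y' e') : PtsPolyVal M c (y * y') (e * e') := by
  obtain ⟨p, rfl, rfl⟩ := h
  obtain ⟨q, rfl, rfl⟩ := h'
  exact ⟨p * q, map_mul _ _ _, eval_mul⟩

theorem PtsPolyVal.pow {c : K} {y : K⟮M.x⟯} {e : K} (h : PtsPolyVal M c y e) (m : ℕ) :
    PtsPolyVal M c (y ^ m) (e ^ m) := by
  obtain ⟨p, rfl, rfl⟩ := h
  exact ⟨p ^ m, map_pow _ _ _, eval_pow m⟩

theorem PtsPolyVal.const (c a : K) : PtsPolyVal M c (algebraMap K K⟮M.x⟯ a) a :=
  ⟨C a, ptsEvKx_C M a, eval_C⟩

theorem PtsPolyVal.unique [IsAlgClosed K] {c : K} {y : K⟮M.x⟯} {e e' : K}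
    (h : PtsPolyVal M c y e) (h' : PtsPolyVal M c y e') : e = e' := by
  obtain ⟨p, hp, rfl⟩ := h
  obtain ⟨q, hq, rfl⟩ := h'
  have : p = q := ptsEvKx_injective M (hp.trans hq.symm)
  rw [this]

variable (M)

/-- norm of `a - f` = value of the characteristic polynomial of `f` at `a`. -/
theorem pts_norm_sub [FiniteDimensional K⟮M.x⟯ F] (f : F) (a : K⟮M.x⟯) :
    Algebra.norm K⟮M.x⟯ (algebraMap K⟮M.x⟯ F a - f) =
      (LinearMap.charpoly (LinearMap.mulLeft K⟮M.x⟯ f)).eval a := by
  rw [LinearMap.eval_charpoly, Algebra.norm_apply]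
  congr 1
  ext b
  simp [Algebra.smul_def]

/-- The specialisation `A[X] → A`, `X ↦ c`. -/
def ptsEvA (c : K) (hc : c ∈ M.A) : (M.A)[X] →+* M.A := Polynomial.evalRingHom ⟨c, hc⟩

theorem pts_evalRingHom_comp (c : K) (hc : c ∈ M.A) :
    (Polynomial.evalRingHom c).comp (Polynomial.mapRingHom M.A.subtype) =
      (M.A.subtype : M.A →+* K).comp (ptsEvA M c hc) := by
  apply Polynomial.ringHom_ext
  · intro a
    simp [ptsEvA]
  · simp [ptsEvA]

/-- The specialised characteristic polynomial `Φ(c, T) ∈ K[T]`. -/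
def ptsSpec (c : K) (hc : c ∈ M.A) (Φ : Polynomial (Polynomial M.A)) : K[X] :=
  (Φ.map (ptsEvA M c hc)).map (M.A.subtype : M.A →+* K)

theorem ptsSpec_monic (c : K) (hc : c ∈ M.A) {Φ : Polynomial (Polynomial M.A)} (hΦ : Φ.Monic) :
    (ptsSpec M c hc Φ).Monic := (hΦ.map _).map _

theorem ptsSpec_eq (c : K) (hc : c ∈ M.A) (Φ : Polynomial (Polynomial M.A)) :
    ptsSpec M c hc Φ = (Φ.map (Polynomial.mapRingHom M.A.subtype)).map (Polynomial.evalRingHom c) := by
  rw [ptsSpec, Polynomial.map_map, Polynomial.map_map, pts_evalRingHom_comp]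

theorem pts_hom_eval {S S' : Type*} [CommRing S] [CommRing S'] (φ : S →+* S') (P : S[X]) (a : S) :
    (P.map φ).eval (φ a) = φ (P.eval a) := by
  rw [Polynomial.eval_map, Polynomial.eval₂_at_apply]

/-- Value of the characteristic polynomial at a polynomial point. -/
theorem pts_polyVal_charpoly (c : K) (hc : c ∈ M.A) (Φ : Polynomial (Polynomial M.A))
    (α : K[X]) :
    PtsPolyVal M c ((Φ.map (ptsToKx M)).eval (ptsEvKx M α)) ((ptsSpec M c hc Φ).eval (α.eval c)) := by
  refine ⟨(Φ.map (Polynomial.mapRingHom M.A.subtype)).eval α, ?_, ?_⟩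
  · rw [ptsToKx, ← Polynomial.map_map]
    exact (pts_hom_eval (ptsEvKx M) _ α).symm
  · rw [ptsSpec_eq]
    exact (pts_hom_eval (Polynomial.evalRingHom c) _ α).symm

end Core

section General

/-- Cayley–Hamilton at a point: if `Φ(x, T)` is the characteristic polynomial of `f` over `L(x)`,
`S ∋ x, f` a subalgebra and `ψ : S → Q` an `L`-algebra homomorphism with `ψ x = c₀ ∈ L`, then
`Φ(c₀, ψ f) = 0`. -/
theorem pts_aeval_at_point {R₀ L E Q : Type*} [CommRing R₀] [Field L] [Field E] [Algebra L E]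
    [CommRing Q] [Algebra L Q]
    (g : R₀ →+* L) (x f : E) [FiniteDimensional L⟮x⟯ E] (S : Subalgebra L E) (hx : x ∈ S)
    (hf : f ∈ S) (Φ : Polynomial (Polynomial R₀))
    (hΦ : Φ.map ((Polynomial.aeval (⟨x, mem_adjoin_simple_self L x⟩ : L⟮x⟯)).toRingHom.comp
          (Polynomial.mapRingHom g)) = LinearMap.charpoly (LinearMap.mulLeft L⟮x⟯ f))
    (ψ : S →ₐ[L] Q) (c₀ : L) (hψ : ψ ⟨x, hx⟩ = algebraMap L Q c₀) :
    Polynomial.aeval (ψ ⟨f, hf⟩)
      ((Φ.map (Polynomial.mapRingHom g)).map (Polynomial.evalRingHom c₀)) = 0 := by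
  set h : Polynomial R₀ →+* L⟮x⟯ :=
    (Polynomial.aeval (⟨x, mem_adjoin_simple_self L x⟩ : L⟮x⟯)).toRingHom.comp
      (Polynomial.mapRingHom g) with hh
  have h1 : Polynomial.aeval f (LinearMap.charpoly (LinearMap.mulLeft L⟮x⟯ f)) = 0 :=
    Algebra.aeval_self_charpoly_lmul (R := L⟮x⟯) f
  rw [← hΦ, Polynomial.aeval_def, Polynomial.eval₂_map] at h1
  set θ : Polynomial R₀ →+* S :=
    (Polynomial.aeval (⟨x, hx⟩ : S)).toRingHom.comp (Polynomial.mapRingHom g) with hθ
  have hθ' : (S.val : S →+* E).comp θ = (algebraMap L⟮x⟯ E).comp h := by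
    apply Polynomial.ringHom_ext
    · intro a
      simp only [hθ, hh, RingHom.coe_comp, Function.comp_apply, Polynomial.coe_mapRingHom,
        Polynomial.map_C, AlgHom.toRingHom_eq_coe, RingHom.coe_coe, Polynomial.aeval_C]
      rfl
    · simp only [hθ, hh, RingHom.coe_comp, Function.comp_apply, Polynomial.coe_mapRingHom,
        Polynomial.map_X, AlgHom.toRingHom_eq_coe, RingHom.coe_coe, Polynomial.aeval_X]
      rfl
  have h2 : Polynomial.eval₂ θ (⟨f, hf⟩ : S) Φ = 0 := by
    apply Subtype.ext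
    have := Polynomial.hom_eval₂ Φ θ (S.val : S →+* E) (⟨f, hf⟩ : S)
    rw [hθ'] at this
    exact this.trans h1
  have h3 := congrArg (ψ : S →+* Q) h2
  rw [Polynomial.hom_eval₂, map_zero] at h3
  have hψθ : (ψ : S →+* Q).comp θ =
      (algebraMap L Q).comp ((Polynomial.evalRingHom c₀).comp (Polynomial.mapRingHom g)) := by
    apply Polynomial.ringHom_ext
    · intro a
      simp only [hθ, RingHom.coe_comp, Function.comp_apply, Polynomial.coe_mapRingHom,
        Polynomial.map_C, AlgHom.toRingHom_eq_coe, RingHom.coe_coe, Polynomial.aeval_C,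
        Polynomial.coe_evalRingHom, Polynomial.eval_C, AlgHom.commutes]
    · simp only [hθ, RingHom.coe_comp, Function.comp_apply, Polynomial.coe_mapRingHom,
        Polynomial.map_X, AlgHom.toRingHom_eq_coe, RingHom.coe_coe, Polynomial.aeval_X,
        Polynomial.coe_evalRingHom, Polynomial.eval_X]
      exact hψ
  rw [hψθ] at h3
  rw [Polynomial.aeval_def, Polynomial.eval₂_map, Polynomial.eval₂_map]
  exact h3

theorem pts_eval_at_point {R₀ L E : Type*} [CommRing R₀] [Field L] [Field E] [Algebra L E]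
    (g : R₀ →+* L) (x f : E) [FiniteDimensional L⟮x⟯ E] (S : Subalgebra L E) (hx : x ∈ S)
    (hf : f ∈ S) (Φ : Polynomial (Polynomial R₀))
    (hΦ : Φ.map ((Polynomial.aeval (⟨x, mem_adjoin_simple_self L x⟩ : L⟮x⟯)).toRingHom.comp
          (Polynomial.mapRingHom g)) = LinearMap.charpoly (LinearMap.mulLeft L⟮x⟯ f))
    (ψ : S →ₐ[L] L) :
    ((Φ.map (Polynomial.mapRingHom g)).map (Polynomial.evalRingHom (ψ ⟨x, hx⟩))).eval
      (ψ ⟨f, hf⟩) = 0 := by
  have := pts_aeval_at_point g x f S hx hf Φ hΦ ψ (ψ ⟨x, hx⟩) rfl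
  rwa [Polynomial.coe_aeval_eq_eval] at this

theorem pts_evalRingHom_comp_map {R S : Type*} [CommRing R] [CommRing S] (g : R →+* S) (a : R) :
    (Polynomial.evalRingHom (g a)).comp (Polynomial.mapRingHom g) =
      g.comp (Polynomial.evalRingHom a) := by
  apply Polynomial.ringHom_ext
  · intro b
    simp
  · simp

end General

section Key

variable (M : RedModel K k F Fk)

/-- The map `A[X] → k⟮x̄⟯` used in `CharpolyRed`. -/
def ptsTokx : (M.A)[X] →+* k⟮M.xbar⟯ :=
  (Polynomial.aeval (⟨M.xbar, mem_adjoin_simple_self k M.xbar⟩ : k⟮M.xbar⟯)).toRingHom.comp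
    (Polynomial.mapRingHom M.res)

/-- The data provided by `CharpolyRed` for one element `f`. -/
structure PtsData [FiniteDimensional K⟮M.x⟯ F] [FiniteDimensional k⟮M.xbar⟯ Fk] (f : M.O)
    (Φ : Polynomial (Polynomial M.A)) : Prop where
  monic : Φ.Monic
  hK : Φ.map (ptsToKx M) = LinearMap.charpoly (LinearMap.mulLeft K⟮M.x⟯ (f : F))
  hk : Φ.map (ptsTokx M) = LinearMap.charpoly (LinearMap.mulLeft k⟮M.xbar⟯ (M.rho f))

variable {M}

theorem CharpolyRed.exists_ptsData [FiniteDimensional K⟮M.x⟯ F] [FiniteDimensional k⟮M.xbar⟯ Fk]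
    (hT : CharpolyRed M) (f : M.O) (hf : (f : F) ∈ intCl K M.x) :
    ∃ Φ, PtsData M f Φ := by
  obtain ⟨Φ, h1, h2, h3⟩ := hT f hf
  exact ⟨Φ, h1, h2, h3⟩

variable [FiniteDimensional K⟮M.x⟯ F] [FiniteDimensional k⟮M.xbar⟯ Fk]

/-- (D1) the value of an integral function at a point over `c` is a root of `Φ(c, T)`. -/
theorem PtsData.eval_point {f : M.O} {Φ : Polynomial (Polynomial M.A)} (h : PtsData M f Φ)
    (hf : (f : F) ∈ intCl K M.x) (c : K) (hc : c ∈ M.A)
    (ψ : intCl K M.x →ₐ[K] K) (hψ : ψ ⟨M.x, M.x_mem_intCl⟩ = c) :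
    (ptsSpec M c hc Φ).eval (ψ ⟨f, hf⟩) = 0 := by
  have := pts_eval_at_point (M.A.subtype : M.A →+* K) M.x (f : F) (intCl K M.x) M.x_mem_intCl hf Φ
    h.hK ψ
  rw [hψ] at this
  rw [ptsSpec_eq]
  exact this

/-- (D1') the same with values in a `K`-algebra. -/
theorem PtsData.aeval_point {f : M.O} {Φ : Polynomial (Polynomial M.A)} (h : PtsData M f Φ)
    (hf : (f : F) ∈ intCl K M.x) (c : K) (hc : c ∈ M.A) {Q : Type*} [CommRing Q] [Algebra K Q]
    (ψ : intCl K M.x →ₐ[K] Q) (hψ : ψ ⟨M.x, M.x_mem_intCl⟩ = algebraMap K Q c) :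
    Polynomial.aeval (ψ ⟨f, hf⟩) (ptsSpec M c hc Φ) = 0 := by
  have := pts_aeval_at_point (M.A.subtype : M.A →+* K) M.x (f : F) (intCl K M.x) M.x_mem_intCl
    hf Φ h.hK ψ c hψ
  rw [ptsSpec_eq]
  exact this

/-- (D2) the value of a reduced integral function at a point over `c̄` is a root of `Φ̄(c̄, T)`. -/
theorem PtsData.eval_point_bar {f : M.O} {Φ : Polynomial (Polynomial M.A)} (h : PtsData M f Φ)
    (hf : (f : F) ∈ intCl K M.x) (c : K) (hc : c ∈ M.A)
    (χ : M.Bbar →ₐ[k] k) (hχ : χ ⟨M.xbar, M.xbar_mem_Bbar⟩ = M.res ⟨c, hc⟩) :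
    ((Φ.map (ptsEvA M c hc)).map M.res).eval (χ ⟨M.rho f, ⟨f, hf, rfl⟩⟩) = 0 := by
  have := pts_eval_at_point M.res M.xbar (M.rho f) M.Bbar M.xbar_mem_Bbar ⟨f, hf, rfl⟩ Φ
    h.hk χ
  rw [hχ, Polynomial.map_map, pts_evalRingHom_comp_map, ← Polynomial.map_map] at this
  exact this

/-- The value of an integral function of the model at a point over `c ∈ A` lies in `A`. -/
theorem PtsData.point_mem_A {f : M.O} {Φ : Polynomial (Polynomial M.A)} (h : PtsData M f Φ)
    (hf : (f : F) ∈ intCl K M.x) (c : K) (hc : c ∈ M.A)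
    (ψ : intCl K M.x →ₐ[K] K) (hψ : ψ ⟨M.x, M.x_mem_intCl⟩ = c) :
    ψ ⟨f, hf⟩ ∈ M.A := by
  have h1 := h.eval_point hf c hc ψ hψ
  have hint : IsIntegral M.A (ψ ⟨f, hf⟩) := by
    refine ⟨Φ.map (ptsEvA M c hc), h.monic.map _, ?_⟩
    rw [ptsSpec, Polynomial.eval_map] at h1
    exact h1
  obtain ⟨y, hy⟩ := IsIntegrallyClosed.isIntegral_iff.mp hint
  rw [← hy]
  exact y.2

/-- Scaling: every integral function is `c'⁻¹ •` an integral function of the model. -/
theorem pts_exists_scale (M : RedModel K k F Fk) (b : F) (hb : b ∈ intCl K M.x) :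
    ∃ (c' : K) (b₀ : M.O), c' ≠ 0 ∧ (b₀ : F) ∈ intCl K M.x ∧
      b = algebraMap K F c'⁻¹ * (b₀ : F) := by
  by_cases hb0 : b = 0
  · exact ⟨1, 0, one_ne_zero, (intCl K M.x).zero_mem, by simp [hb0]⟩
  · obtain ⟨c', hc', hmem, -⟩ := M.val b hb0
    refine ⟨c', ⟨_, hmem⟩, hc', ?_, ?_⟩
    · exact (intCl K M.x).mul_mem ((intCl K M.x).algebraMap_mem c') hb
    · show b = algebraMap K F c'⁻¹ * (algebraMap K F c' * b)
      rw [← mul_assoc, ← map_mul, inv_mul_cancel₀ hc', map_one, one_mul]

theorem pts_norm_neg (M : RedModel K k F Fk) [FiniteDimensional K⟮M.x⟯ F] (z : F) :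
    Algebra.norm K⟮M.x⟯ (-z) =
      (algebraMap K K⟮M.x⟯ (-1)) ^ Module.finrank K⟮M.x⟯ F * Algebra.norm K⟮M.x⟯ z := by
  have h : -z = algebraMap K⟮M.x⟯ F (algebraMap K K⟮M.x⟯ (-1)) * z := by
    rw [map_neg, map_neg, map_one, map_one, neg_one_mul]
  rw [h, map_mul, Algebra.norm_algebraMap]

/-- (N-α) the norm of `α(x) - b₀` is a polynomial in `x` with value `Φ(c, α(c))` at `c`. -/
theorem PtsData.polyVal_norm_sub {f : M.O} {Φ : Polynomial (Polynomial M.A)} (h : PtsData M f Φ)
    (c : K) (hc : c ∈ M.A) (α : K[X]) :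
    PtsPolyVal M c (Algebra.norm K⟮M.x⟯ (algebraMap K⟮M.x⟯ F (ptsEvKx M α) - (f : F)))
      ((ptsSpec M c hc Φ).eval (α.eval c)) := by
  rw [pts_norm_sub, ← h.hK]
  exact pts_polyVal_charpoly M c hc Φ α

/-- (N2) the norm of an integral function is a polynomial in `x`. -/
theorem pts_polyVal_norm (hT : CharpolyRed M) (c : K) (hc : c ∈ M.A) (b : F)
    (hb : b ∈ intCl K M.x) :
    ∃ e : K, PtsPolyVal M c (Algebra.norm K⟮M.x⟯ b) e := by
  obtain ⟨c', b₀, hc', hb₀, rfl⟩ := pts_exists_scale M b hb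
  obtain ⟨Φ, hΦ⟩ := hT.exists_ptsData b₀ hb₀
  have h1 := hΦ.polyVal_norm_sub c hc 0
  rw [map_zero, map_zero, zero_sub, pts_norm_neg] at h1
  have h2 : PtsPolyVal M c ((algebraMap K K⟮M.x⟯ (-1)) ^ Module.finrank K⟮M.x⟯ F)
      ((-1) ^ Module.finrank K⟮M.x⟯ F) := (PtsPolyVal.const c (-1)).pow _
  have h3 := h2.mul h1
  have h4 : ((algebraMap K K⟮M.x⟯ (-1)) ^ Module.finrank K⟮M.x⟯ F) *
      ((algebraMap K K⟮M.x⟯ (-1)) ^ Module.finrank K⟮M.x⟯ F * Algebra.norm K⟮M.x⟯ (b₀ : F)) =
      Algebra.norm K⟮M.x⟯ (b₀ : F) := by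
    rw [← mul_assoc, ← mul_pow, ← map_mul]
    simp
  rw [h4] at h3
  have h5 : PtsPolyVal M c (Algebra.norm K⟮M.x⟯ (algebraMap K F c'⁻¹))
      (c'⁻¹ ^ Module.finrank K⟮M.x⟯ F) := by
    rw [IsScalarTower.algebraMap_apply K K⟮M.x⟯ F, Algebra.norm_algebraMap]
    exact (PtsPolyVal.const c c'⁻¹).pow _
  exact ⟨_, by rw [map_mul]; exact h5.mul h3⟩

/-- (N1) if `t` is a root of `Φ(c, T)` then the norm of `f - t` vanishes at `c`. -/
theorem PtsData.polyVal_norm_sub_const {f : M.O} {Φ : Polynomial (Polynomial M.A)}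
    (h : PtsData M f Φ) (c : K) (hc : c ∈ M.A) (t : K) (ht : (ptsSpec M c hc Φ).eval t = 0) :
    PtsPolyVal M c (Algebra.norm K⟮M.x⟯ ((f : F) - algebraMap K F t)) 0 := by
  have h1 := h.polyVal_norm_sub c hc (C t)
  rw [Polynomial.eval_C, ht, ptsEvKx_C, ← IsScalarTower.algebraMap_apply K K⟮M.x⟯ F] at h1
  have h2 : (f : F) - algebraMap K F t = -(algebraMap K F t - (f : F)) := by ring
  rw [h2, pts_norm_neg]
  have h3 := ((PtsPolyVal.const (M := M) c (-1)).pow (Module.finrank K⟮M.x⟯ F)).mul h1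
  rwa [mul_zero] at h3

theorem pts_reverse_map_of_monic {S S' : Type*} [CommRing S] [CommRing S'] [Nontrivial S']
    (e : S →+* S') {P : S[X]} (hP : P.Monic) : (P.map e).reverse = P.reverse.map e := by
  rw [Polynomial.reverse, Polynomial.reverse, hP.natDegree_map, Polynomial.reflect_map]

theorem pts_pow_mul_eval_inv {L : Type*} [Field L] (P : L[X]) {a : L} (ha : a ≠ 0) :
    a ^ P.natDegree * P.eval a⁻¹ = P.reverse.eval a := by
  let _ : Invertible (a⁻¹) := invertibleOfNonzero (inv_ne_zero ha)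
  have h := Polynomial.eval₂_reverse_mul_pow (RingHom.id L) (a⁻¹) P
  rw [invOf_eq_inv, inv_inv] at h
  rw [← Polynomial.eval, ← Polynomial.eval] at h
  rw [← h, mul_comm (a ^ P.natDegree), mul_assoc, ← mul_pow, inv_mul_cancel₀ ha, one_pow,
    mul_one]

/-- (N3) the norm of `1 - (x - c) u` is a polynomial in `x` with value `1` at `c`. -/
theorem pts_polyVal_norm_one_sub [IsAlgClosed K] (hT : CharpolyRed M) (c : K)
    (u : F) (hu : u ∈ intCl K M.x) :
    PtsPolyVal M c (Algebra.norm K⟮M.x⟯ (1 - (M.x - algebraMap K F c) * u)) 1 := by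
  obtain ⟨c', u₀, hc', hu₀, rfl⟩ := pts_exists_scale M u hu
  obtain ⟨Φ, hΦ⟩ := hT.exists_ptsData u₀ hu₀
  set α : K[X] := (X - C c) * C c'⁻¹ with hα
  have hαc : α.eval c = 0 := by simp [hα]
  have hα0 : α ≠ 0 :=
    mul_ne_zero (Polynomial.X_sub_C_ne_zero c) (by simpa using hc')
  set a : K⟮M.x⟯ := ptsEvKx M α with ha
  have ha0 : a ≠ 0 := fun h => hα0 (ptsEvKx_injective M (h.trans (map_zero _).symm))
  have hmul : (M.x - algebraMap K F c) * (algebraMap K F c'⁻¹ * (u₀ : F)) =
      algebraMap K⟮M.x⟯ F a * (u₀ : F) := by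
    rw [ha, algebraMap_ptsEvKx, hα, map_mul, map_sub, Polynomial.aeval_X, Polynomial.aeval_C,
      Polynomial.aeval_C, mul_assoc]
  have hfac : 1 - algebraMap K⟮M.x⟯ F a * (u₀ : F) =
      algebraMap K⟮M.x⟯ F a * (algebraMap K⟮M.x⟯ F a⁻¹ - (u₀ : F)) := by
    rw [mul_sub, ← map_mul, mul_inv_cancel₀ ha0, map_one]
  rw [hmul, hfac, map_mul, Algebra.norm_algebraMap, pts_norm_sub]
  have hnd : (LinearMap.charpoly (LinearMap.mulLeft K⟮M.x⟯ (u₀ : F))).natDegree =
      Module.finrank K⟮M.x⟯ F := LinearMap.charpoly_natDegree _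
  rw [← hnd, pts_pow_mul_eval_inv _ ha0, ← hΦ.hK, ptsToKx, ← Polynomial.map_map,
    pts_reverse_map_of_monic _ (hΦ.monic.map _)]
  refine ⟨(Φ.map (Polynomial.mapRingHom M.A.subtype)).reverse.eval α, ?_, ?_⟩
  · exact (pts_hom_eval (ptsEvKx M) _ α).symm
  · have h1 := pts_hom_eval (Polynomial.evalRingHom c)
      (Φ.map (Polynomial.mapRingHom M.A.subtype)).reverse α
    rw [Polynomial.coe_evalRingHom] at h1
    rw [← h1, hαc, ← Polynomial.coeff_zero_eq_eval_zero, Polynomial.coeff_map,
      Polynomial.coeff_zero_reverse, (hΦ.monic.map _).leadingCoeff]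
    simp

/-- If `t` is a root of `Φ(c, T)`, the ideal `(x - c, f - t)` of the integral closure is proper
(norm argument). -/
theorem PtsData.span_ne_top [IsAlgClosed K] (hT : CharpolyRed M) {f : M.O}
    {Φ : Polynomial (Polynomial M.A)} (h : PtsData M f Φ) (hf : (f : F) ∈ intCl K M.x)
    (c : K) (hc : c ∈ M.A) (t : K) (ht : (ptsSpec M c hc Φ).eval t = 0) :
    Ideal.span {(⟨M.x, M.x_mem_intCl⟩ : intCl K M.x) - algebraMap K (intCl K M.x) c,
      (⟨f, hf⟩ : intCl K M.x) - algebraMap K (intCl K M.x) t} ≠ ⊤ := by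
  intro htop
  have h1 : (1 : intCl K M.x) ∈ Ideal.span
      {(⟨M.x, M.x_mem_intCl⟩ : intCl K M.x) - algebraMap K (intCl K M.x) c,
        (⟨f, hf⟩ : intCl K M.x) - algebraMap K (intCl K M.x) t} := by
    rw [htop]; trivial
  obtain ⟨u, v, huv⟩ := Ideal.mem_span_pair.mp h1
  have hF : (v : F) * ((f : F) - algebraMap K F t) =
      1 - (M.x - algebraMap K F c) * (u : F) := by
    have h2 := congrArg (fun z : intCl K M.x => (z : F)) huv
    simp only [Subalgebra.coe_add, Subalgebra.coe_mul, Subalgebra.coe_sub,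
      Subalgebra.coe_algebraMap, Subalgebra.coe_one] at h2
    linear_combination h2
  obtain ⟨e, he⟩ := pts_polyVal_norm hT c hc (v : F) v.2
  have h2 := h.polyVal_norm_sub_const c hc t ht
  have h3 := he.mul h2
  rw [← map_mul, hF] at h3
  have h4 := pts_polyVal_norm_one_sub hT c (u : F) u.2
  have h5 := h3.unique h4
  simp at h5

/-- KEY: every root `t` of `Φ(c, T)` is the value of `f` at a point over `c`. -/
theorem PtsData.exists_point [IsAlgClosed K] (hT : CharpolyRed M) {f : M.O}
    {Φ : Polynomial (Polynomial M.A)} (h : PtsData M f Φ) (hf : (f : F) ∈ intCl K M.x)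
    (c : K) (hc : c ∈ M.A) (t : K) (ht : (ptsSpec M c hc Φ).eval t = 0) :
    ∃ ψ : intCl K M.x →ₐ[K] K, ψ ⟨M.x, M.x_mem_intCl⟩ = c ∧ ψ ⟨f, hf⟩ = t := by
  obtain ⟨P, hPmax, hle⟩ := Ideal.exists_le_maximal _ (h.span_ne_top hT hf c hc t ht)
  have := hPmax
  have hxP : Ideal.Quotient.mkₐ K P (⟨M.x, M.x_mem_intCl⟩ : intCl K M.x) =
      algebraMap K (intCl K M.x ⧸ P) c := by
    show Ideal.Quotient.mk P _ = Ideal.Quotient.mk P (algebraMap K (intCl K M.x) c)
    rw [Ideal.Quotient.mk_eq_mk_iff_sub_mem]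
    exact hle (Ideal.subset_span (by simp))
  have hfP : Ideal.Quotient.mkₐ K P (⟨f, hf⟩ : intCl K M.x) =
      algebraMap K (intCl K M.x ⧸ P) t := by
    show Ideal.Quotient.mk P _ = Ideal.Quotient.mk P (algebraMap K (intCl K M.x) t)
    rw [Ideal.Quotient.mk_eq_mk_iff_sub_mem]
    exact hle (Ideal.subset_span (by simp))
  have : Algebra.IsIntegral K (intCl K M.x ⧸ P) := by
    refine ⟨fun q => ?_⟩
    obtain ⟨b, rfl⟩ := Ideal.Quotient.mk_surjective q
    obtain ⟨c', b₀, -, hb₀, hb⟩ := pts_exists_scale M (b : F) b.2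
    obtain ⟨Φ₀, hΦ₀⟩ := hT.exists_ptsData b₀ hb₀
    have hb' : b = c'⁻¹ • (⟨b₀, hb₀⟩ : intCl K M.x) := by
      apply Subtype.ext
      rw [hb, Algebra.smul_def]
      rfl
    have hint : IsIntegral K (Ideal.Quotient.mkₐ K P (⟨b₀, hb₀⟩ : intCl K M.x)) := by
      refine ⟨ptsSpec M c hc Φ₀, ptsSpec_monic M c hc hΦ₀.monic, ?_⟩
      rw [← Polynomial.aeval_def]
      exact hΦ₀.aeval_point hb₀ c hc _ hxP
    have : Ideal.Quotient.mk P b = c'⁻¹ • Ideal.Quotient.mkₐ K P (⟨b₀, hb₀⟩ : intCl K M.x) := by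
      rw [hb']
      rfl
    rw [this]
    exact hint.smul _
  have hbij := IsAlgClosed.algebraMap_bijective_of_isIntegral (k := K)
    (K := intCl K M.x ⧸ P)
  let e : K ≃ₐ[K] (intCl K M.x ⧸ P) := AlgEquiv.ofBijective (Algebra.ofId K _) hbij
  refine ⟨(e.symm.toAlgHom).comp (Ideal.Quotient.mkₐ K P), ?_, ?_⟩
  · show e.symm (Ideal.Quotient.mkₐ K P _) = c
    rw [hxP, AlgEquiv.commutes]
    rfl
  · show e.symm (Ideal.Quotient.mkₐ K P _) = t
    rw [hfP, AlgEquiv.commutes]
    rfl

theorem PtsData.natDegree_spec {f : M.O} {Φ : Polynomial (Polynomial M.A)} (h : PtsData M f Φ)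
    (c : K) (hc : c ∈ M.A) :
    (ptsSpec M c hc Φ).natDegree = Module.finrank K⟮M.x⟯ F := by
  have h1 : (ptsSpec M c hc Φ).natDegree = Φ.natDegree := by
    rw [ptsSpec, (h.monic.map _).natDegree_map, h.monic.natDegree_map]
  have h2 : (Φ.map (ptsToKx M)).natDegree = Φ.natDegree := h.monic.natDegree_map _
  rw [h1, ← h2, h.hK]
  exact LinearMap.charpoly_natDegree _

/-- There are at most `[F : K(x)]` points over `c`. -/
theorem pts_not_injective [IsAlgClosed K] (hT : CharpolyRed M) (c : K) (hc : c ∈ M.A)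
    (ψ : Fin (Module.finrank K⟮M.x⟯ F + 1) → (intCl K M.x →ₐ[K] K))
    (hψ : ∀ i, ψ i ⟨M.x, M.x_mem_intCl⟩ = c) : ¬ Function.Injective ψ := by
  classical
  intro hinj
  set I : Fin (Module.finrank K⟮M.x⟯ F + 1) → Ideal (intCl K M.x) :=
    fun i => RingHom.ker (ψ i : intCl K M.x →+* K) with hI
  have hsurj : ∀ i, Function.Surjective (ψ i : intCl K M.x →+* K) := fun i a =>
    ⟨algebraMap K _ a, (ψ i).commutes a⟩
  have hmax : ∀ i, (I i).IsMaximal := fun i => RingHom.ker_isMaximal_of_surjective _ (hsurj i)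
  have hmem : ∀ i (b : intCl K M.x), b - algebraMap K _ (ψ i b) ∈ I i := by
    intro i b
    rw [hI, RingHom.mem_ker]
    show (ψ i) (b - algebraMap K _ (ψ i b)) = 0
    rw [map_sub, AlgHom.commutes]
    exact sub_self _
  have hne : ∀ i j, i ≠ j → I i ≠ I j := by
    intro i j hij hIij
    apply hij
    apply hinj
    apply AlgHom.ext
    intro b
    have h1 := hmem i b
    rw [hIij, hI, RingHom.mem_ker] at h1
    have h2 : (ψ j) (b - algebraMap K _ (ψ i b)) = 0 := h1
    rw [map_sub, AlgHom.commutes, sub_eq_zero] at h2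
    exact h2.symm
  have hcop : Pairwise (Function.onFun IsCoprime I) := fun i j hij =>
    Ideal.isCoprime_iff_sup_eq.mpr ((hmax i).coprime_of_ne (hmax j) (hne i j hij))
  have : Infinite K := IsAlgClosed.instInfinite
  set a : Fin (Module.finrank K⟮M.x⟯ F + 1) → K := fun i => Infinite.natEmbedding K i with ha
  have hainj : Function.Injective a := fun i j hij =>
    Fin.ext ((Infinite.natEmbedding K).injective hij)
  obtain ⟨b, hb⟩ := Ideal.exists_forall_sub_mem_ideal hcop (fun i => algebraMap K _ (a i))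
  have hval : ∀ i, ψ i b = a i := by
    intro i
    have h1 := hb i
    rw [hI, RingHom.mem_ker] at h1
    have h2 : (ψ i) (b - algebraMap K _ (a i)) = 0 := h1
    rw [map_sub, AlgHom.commutes, sub_eq_zero] at h2
    exact h2
  obtain ⟨c', b₀, hc', hb₀, hbeq⟩ := pts_exists_scale M (b : F) b.2
  obtain ⟨Φ, hΦ⟩ := hT.exists_ptsData b₀ hb₀
  have hb0 : (⟨b₀, hb₀⟩ : intCl K M.x) = c' • b := by
    apply Subtype.ext
    show (b₀ : F) = c' • (b : F)
    rw [hbeq, Algebra.smul_def, ← mul_assoc, ← map_mul, mul_inv_cancel₀ hc', map_one, one_mul]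
  have hval0 : ∀ i, ψ i ⟨b₀, hb₀⟩ = c' * a i := by
    intro i
    rw [hb0, map_smul, hval, smul_eq_mul]
  have hp0 : ptsSpec M c hc Φ ≠ 0 := (ptsSpec_monic M c hc hΦ.monic).ne_zero
  have hsub : (Finset.univ.image (fun i => c' * a i)).val ⊆ (ptsSpec M c hc Φ).roots := by
    intro t ht
    rw [Finset.mem_val, Finset.mem_image] at ht
    obtain ⟨i, -, rfl⟩ := ht
    rw [Polynomial.mem_roots hp0, Polynomial.IsRoot, ← hval0 i]
    exact hΦ.eval_point hb₀ c hc (ψ i) (hψ i)
  have hcard := Polynomial.card_le_degree_of_subset_roots hsub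
  rw [hΦ.natDegree_spec c hc, Finset.card_image_of_injective _
    (fun i j hij => hainj (mul_left_cancel₀ hc' hij)), Finset.card_univ, Fintype.card_fin] at hcard
  omega

theorem pts_finite_fibre [IsAlgClosed K] (hT : CharpolyRed M) (c : K) (hc : c ∈ M.A) :
    Finite {ψ : intCl K M.x →ₐ[K] K // ∀ h : M.x ∈ intCl K M.x, ψ ⟨M.x, h⟩ = c} := by
  by_contra hinf
  rw [not_finite_iff_infinite] at hinf
  set emb := Infinite.natEmbedding
      {ψ : intCl K M.x →ₐ[K] K // ∀ h : M.x ∈ intCl K M.x, ψ ⟨M.x, h⟩ = c} with hemb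
  refine pts_not_injective hT c hc (fun i => (emb i).1) (fun i => (emb i).2 _) ?_
  intro i j hij
  exact Fin.ext (emb.injective (Subtype.ext hij))

end Key

section Main

variable (M : RedModel K k F Fk)

/-- The points of `Spec (intCl K x)` over `x = c` (the subtype counted by `fibreCard`). -/
abbrev PtsFibre (c : K) : Type _ :=
  {ψ : intCl K M.x →ₐ[K] K // ∀ h : M.x ∈ intCl K M.x, ψ ⟨M.x, h⟩ = c}

/-- The integral functions of the model, as a subring of `O`. -/
def ptsB0 : Subring M.O := (intCl K M.x).toSubring.comap M.O.subtype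

/-- `B₀ → intCl K x`. -/
def ptsIota : ptsB0 M →+* intCl K M.x where
  toFun f := ⟨((f : M.O) : F), f.2⟩
  map_one' := rfl
  map_mul' _ _ := rfl
  map_zero' := rfl
  map_add' _ _ := rfl

/-- `B₀ → B̄`, the reduction. -/
def ptsRho : ptsB0 M →+* M.Bbar where
  toFun f := ⟨M.rho (f : M.O), ⟨(f : M.O), f.2, rfl⟩⟩
  map_one' := Subtype.ext (map_one M.rho)
  map_mul' a b := Subtype.ext (map_mul M.rho (a : M.O) (b : M.O))
  map_zero' := Subtype.ext (map_zero M.rho)
  map_add' a b := Subtype.ext (map_add M.rho (a : M.O) (b : M.O))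

/-- `A → B₀`, the constants. -/
def ptsConst : M.A →+* ptsB0 M where
  toFun a := ⟨⟨algebraMap K F a, M.map_mem a⟩, (intCl K M.x).algebraMap_mem (a : K)⟩
  map_one' := by
    apply Subtype.ext; apply Subtype.ext
    show algebraMap K F ((1 : M.A) : K) = 1
    simp
  map_mul' a b := by
    apply Subtype.ext; apply Subtype.ext
    show algebraMap K F ((a * b : M.A) : K) = algebraMap K F a * algebraMap K F b
    simp
  map_zero' := by
    apply Subtype.ext; apply Subtype.ext
    show algebraMap K F ((0 : M.A) : K) = 0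
    simp
  map_add' a b := by
    apply Subtype.ext; apply Subtype.ext
    show algebraMap K F ((a + b : M.A) : K) = algebraMap K F a + algebraMap K F b
    simp

theorem ptsIota_const (a : M.A) : ptsIota M (ptsConst M a) = algebraMap K (intCl K M.x) a := rfl

theorem ptsRho_const (a : M.A) : ptsRho M (ptsConst M a) = algebraMap k M.Bbar (M.res a) := by
  apply Subtype.ext
  show M.rho ⟨algebraMap K F a, M.map_mem a⟩ = algebraMap k Fk (M.res a)
  exact M.rho_map a

variable {M}
variable [FiniteDimensional K⟮M.x⟯ F] [FiniteDimensional k⟮M.xbar⟯ Fk]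

theorem pts_point_mem_A (hT : CharpolyRed M) (c : K) (hc : c ∈ M.A)
    (ψ : intCl K M.x →ₐ[K] K) (hψ : ψ ⟨M.x, M.x_mem_intCl⟩ = c) (f : ptsB0 M) :
    ψ (ptsIota M f) ∈ M.A := by
  obtain ⟨Φ, hΦ⟩ := hT.exists_ptsData (f : M.O) f.2
  exact hΦ.point_mem_A f.2 c hc ψ hψ

/-- Every point of `Spec B̄` over `c̄` is the reduction of a point over `c`. -/
theorem pts_exists_lift [IsAlgClosed K] (hT : CharpolyRed M) (c : K) (hc : c ∈ M.A)
    (χ : M.Bbar →ₐ[k] k) (hχ : χ ⟨M.xbar, M.xbar_mem_Bbar⟩ = M.res ⟨c, hc⟩) :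
    ∃ ψ : PtsFibre M c,
      ∀ (f : ptsB0 M) (hA : ψ.1 (ptsIota M f) ∈ M.A),
        χ (ptsRho M f) = M.res ⟨ψ.1 (ptsIota M f), hA⟩ := by
  classical
  by_contra hcon
  push Not at hcon
  choose fψ hAψ hneψ using hcon
  have hfin := pts_finite_fibre hT c hc
  let _ : Fintype (PtsFibre M c) :=
    Fintype.ofFinite _
  set g : PtsFibre M c → ptsB0 M :=
    fun ψ => fψ ψ - ptsConst M ⟨ψ.1 (ptsIota M (fψ ψ)), hAψ ψ⟩ with hg
  have hg1 : ∀ ψ : PtsFibre M c, ψ.1 (ptsIota M (g ψ)) = 0 := by
    intro ψ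
    rw [hg]
    simp only [map_sub, ptsIota_const, AlgHom.commutes]
    exact sub_self _
  have hg2 : ∀ ψ : PtsFibre M c, χ (ptsRho M (g ψ)) ≠ 0 := by
    intro ψ
    rw [hg]
    simp only [map_sub, ptsRho_const, AlgHom.commutes]
    exact sub_ne_zero.mpr (hneψ ψ)
  set f₀ : ptsB0 M := ∏ ψ, g ψ with hf₀
  have h01 : ∀ ψ : PtsFibre M c,
      ψ.1 (ptsIota M f₀) = 0 := by
    intro ψ
    rw [hf₀, map_prod, map_prod]
    exact Finset.prod_eq_zero (Finset.mem_univ ψ) (hg1 ψ)
  have h02 : χ (ptsRho M f₀) ≠ 0 := by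
    rw [hf₀, map_prod, map_prod]
    exact Finset.prod_ne_zero_iff.mpr (fun ψ _ => hg2 ψ)
  obtain ⟨a, ha⟩ := M.res_surj (χ (ptsRho M f₀))⁻¹
  set f' : ptsB0 M := ptsConst M a * f₀ with hf'
  have h1' : ∀ ψ : PtsFibre M c,
      ψ.1 (ptsIota M f') = 0 := by
    intro ψ
    rw [hf', map_mul, map_mul, h01 ψ, mul_zero]
  have h2' : χ (ptsRho M f') = 1 := by
    rw [hf', map_mul, map_mul, ptsRho_const, AlgHom.commutes, ha]
    exact inv_mul_cancel₀ h02
  obtain ⟨Φ, hΦ⟩ := hT.exists_ptsData (f' : M.O) f'.2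
  have hmonic := ptsSpec_monic M c hc hΦ.monic
  have hroots : ∀ t ∈ (ptsSpec M c hc Φ).roots, t = 0 := by
    intro t ht
    rw [Polynomial.mem_roots hmonic.ne_zero] at ht
    obtain ⟨ψ, hψx, hψf⟩ := hΦ.exists_point hT f'.2 c hc t ht
    rw [← hψf]
    exact h1' ⟨ψ, fun _ => hψx⟩
  have hp1 : (ptsSpec M c hc Φ).eval 1 = 1 := by
    rw [(IsAlgClosed.splits _).eval_eq_prod_roots_of_monic hmonic]
    apply Multiset.prod_eq_one
    intro y hy
    rw [Multiset.mem_map] at hy
    obtain ⟨t, ht, rfl⟩ := hy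
    rw [hroots t ht, sub_zero]
  have hA1 : (Φ.map (ptsEvA M c hc)).eval 1 = 1 := by
    apply Subtype.ext
    have h := pts_hom_eval (M.A.subtype : M.A →+* K) (Φ.map (ptsEvA M c hc)) 1
    rw [map_one] at h
    have h' : (((Φ.map (ptsEvA M c hc)).eval (1 : M.A) : M.A) : K) =
        (ptsSpec M c hc Φ).eval 1 := h.symm
    rw [h', hp1]
    rfl
  have hD2 := hΦ.eval_point_bar f'.2 c hc χ hχ
  have hχf : χ ⟨M.rho (f' : M.O), ⟨(f' : M.O), f'.2, rfl⟩⟩ = 1 := h2'
  rw [hχf] at hD2
  have h := pts_hom_eval M.res (Φ.map (ptsEvA M c hc)) 1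
  rw [map_one, hA1, map_one, hD2] at h
  exact zero_ne_one h

/-- **(P) POINTS STEP** of the discriminant chain. -/
theorem pointsStep [IsAlgClosed K] [IsAlgClosed k] (M : RedModel K k F Fk) (n : ℕ)
    (hT : CharpolyRed M) (hdeg : DegData M n) : PointsStep M := by
  have hK : FiniteDimensional K⟮M.x⟯ F :=
    Module.finite_of_finrank_pos (by rw [hdeg.deg]; exact hdeg.pos)
  have hk : FiniteDimensional k⟮M.xbar⟯ Fk :=
    Module.finite_of_finrank_pos (by rw [hdeg.degk]; exact hdeg.pos)
  intro c hc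
  unfold numPtsBbar fibreCard
  have hfin : Finite (PtsFibre M c) := pts_finite_fibre hT c hc
  have key : ∀ χ : {χ : M.Bbar →ₐ[k] k // χ ⟨M.xbar, M.xbar_mem_Bbar⟩ = M.res ⟨c, hc⟩},
      ∃ ψ : PtsFibre M c,
        ∀ (f : ptsB0 M) (hA : ψ.1 (ptsIota M f) ∈ M.A),
          χ.1 (ptsRho M f) = M.res ⟨ψ.1 (ptsIota M f), hA⟩ :=
    fun χ => pts_exists_lift hT c hc χ.1 χ.2
  choose L hL using key
  apply Nat.card_le_card_of_injective L
  intro χ χ' hχχ'
  apply Subtype.ext
  apply AlgHom.ext
  rintro ⟨y, f, hf, rfl⟩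
  have hA := pts_point_mem_A hT c hc (L χ).1 ((L χ).2 _) ⟨f, hf⟩
  have h1 := hL χ ⟨f, hf⟩ hA
  have hA' : (L χ').1 (ptsIota M ⟨f, hf⟩) ∈ M.A := by rw [← hχχ']; exact hA
  have h2 := hL χ' ⟨f, hf⟩ hA'
  have h3 : M.res ⟨(L χ).1 (ptsIota M ⟨f, hf⟩), hA⟩ = M.res ⟨(L χ').1 (ptsIota M ⟨f, hf⟩), hA'⟩ := by
    congr 2
    rw [hχχ']
  exact h1.trans (h3.trans h2.symm)

end Main

end

end Fermat.Agent.S27GR
end MergeWrap_S27_GR_Points

section MergeWrap_S27_GR_Final -- from S27/GR/Final.lean

/-!
# Cluster B / GoodRed: THE DISCRIMINANT CHAIN, unconditional (helper37, assembly)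

* `discChainA : DiscChainA` — for algebraically closed `K` (char 0), `k`, a reduction model `M`,
  DEGREE `DegData M n` and a WEAK branch datum `BD : BranchDataA M n` imply
  (NORM) `NormalReduction M`, (FIB) `FibreBound M`, (FIB=) `FibreEq M n BD`.
* `discChain : DiscChain` — the same for (strong) branch data `BranchData M n`.
* `fibreBound_inv`, `fibreBound_at_infty` — the chart at infinity.

Pieces: (ALG-1) `discLowerBound` helper59, (ALG-2) `discUpperTame` helper2, (T) `charpolyRed`
helper77, (L1) helper9, (L2) helper27, (L3) helper7, (L4) helper21, (P) `pointsStep` helper46,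
`EvalAt` helper57, `Inv` helper19, (C) helper37.
-/

set_option autoImplicit false

namespace Fermat.Agent.S27GR

open Polynomial IntermediateField
open scoped IntermediateField.algebraAdjoinAdjoin

noncomputable section

variable {K k F Fk : Type*} [Field K] [Field k] [Field F] [Field Fk] [Algebra K F] [Algebra k Fk]

/-- the discriminant chain for weak branch data, for a given model. -/
theorem discChainA_model [IsAlgClosed K] [CharZero K] [IsAlgClosed k]
    (M : RedModel K k F Fk) (n : ℕ) (hdeg : DegData M n) (BD : BranchDataA M n) :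
    NormalReduction M ∧ FibreBound M ∧ FibreEq M n BD := by
  have hx : Transcendental K M.x := M.x_transcendental
  have : IsPrincipalIdealRing (Algebra.adjoin K {M.x}) := lb_isPrincipalIdealRing_adjoin hx
  have hT : CharpolyRed M := charpolyRed M n hdeg
  have hL : LiftStepA M n BD :=
    liftStepA_closed M n hdeg BD (discUpperTame (Algebra.adjoin K {M.x}) K⟮M.x⟯ F)
  have hP : PointsStep M := pointsStep M n hT hdeg
  exact discChainA_of_steps M n hdeg BD hL hP

/-- **THE DISCRIMINANT CHAIN** (weak branch data, with equality of fibre cardinalities). -/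
theorem discChainA : DiscChainA := by
  intro K k F Fk _ _ _ _ _ _ _ _ _ M n hdeg BD
  exact discChainA_model M n hdeg BD

/-- **THE DISCRIMINANT CHAIN**. -/
theorem discChain : DiscChain := by
  intro K k F Fk _ _ _ _ _ _ _ _ _ M n hdeg BD
  obtain ⟨h1, h2, -⟩ := discChainA_model M n hdeg BD.toA
  exact ⟨h1, h2⟩

/-- (NORM) for a given model. -/
theorem normalReduction_of_branchData [IsAlgClosed K] [CharZero K] [IsAlgClosed k]
    (M : RedModel K k F Fk) (n : ℕ) (hdeg : DegData M n) (BD : BranchDataA M n) :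
    NormalReduction M := (discChainA_model M n hdeg BD).1

/-- (FIB) for a given model. -/
theorem fibreBound_of_branchData [IsAlgClosed K] [CharZero K] [IsAlgClosed k]
    (M : RedModel K k F Fk) (n : ℕ) (hdeg : DegData M n) (BD : BranchDataA M n) :
    FibreBound M := (discChainA_model M n hdeg BD).2.1

/-- (FIB=) for a given model. -/
theorem fibreEq_of_branchData [IsAlgClosed K] [CharZero K] [IsAlgClosed k]
    (M : RedModel K k F Fk) (n : ℕ) (hdeg : DegData M n) (BD : BranchDataA M n) :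
    FibreEq M n BD := (discChainA_model M n hdeg BD).2.2

/-- (FIB) in the chart at infinity. -/
theorem fibreBound_inv [IsAlgClosed K] [CharZero K] [IsAlgClosed k]
    (M : RedModel K k F Fk) (n : ℕ) (hdeg : DegData M n) (BD : BranchData M n)
    (hS : ∀ c ∈ BD.S, c ≠ 0 → c⁻¹ ∈ M.A) : FibreBound M.inv :=
  fibreBound_of_branchData M.inv n hdeg.inv (BD.inv hS).toA

end

end Fermat.Agent.S27GR
end MergeWrap_S27_GR_Final

section MergeWrap_S27_GR_Genus -- from S27/GR/Genus.lean

set_option autoImplicit false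
set_option linter.style.haveILetI false
set_option linter.unusedSectionVars false

/-!
# Cluster B / GoodRed (GE): the genus inequality `g(F) ≤ g(Fk)` from the fibre bounds

Input: `FibreBound M` (discriminant chain, finite part) and the fibre bound at `∞`
(the discriminant chain in the chart `x⁻¹`).  Output: `genusFF K F ≤ genusFF k Fk`
(Riemann-Hurwitz on both sides, `Lib/RR/Hurwitz`).  Together with Deuring's inequality
`genusFF k Fk ≤ genusFF K F` (`Lib/Deuring`) this is the genus equality.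
-/

noncomputable section

open AlgebraicCurve IntermediateField

namespace Fermat.Agent.S27GR

variable {K k F Fk : Type*} [Field K] [Field k] [Field F] [Field Fk] [Algebra K F] [Algebra k Fk]

/-- the base parameter of a reduction datum is transcendental over `K`. -/
theorem RedModel.ge_x_transcendental [IsAlgClosed K] (M : RedModel K k F Fk) :
    Transcendental K M.x := by
  intro halg
  obtain ⟨c, hc⟩ := Fermat.Agent.S24Res.mem_range_of_isAlgebraic halg
  have htr := M.x_trans
  by_cases hcA : c ∈ M.A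
  · apply htr
    have h1 : M.rho ⟨M.x, M.x_mem⟩ = algebraMap k Fk (M.res ⟨c, hcA⟩) := by
      rw [← M.rho_map ⟨c, hcA⟩]
      congr 1
      exact Subtype.ext hc.symm
    rw [h1]
    exact isAlgebraic_algebraMap _
  · have hinv : c⁻¹ ∈ M.A := (M.A.mem_or_inv_mem c).resolve_left hcA
    have hc0 : c ≠ 0 := fun h0 => hcA (h0 ▸ M.A.zero_mem)
    have hnu : ¬ IsUnit (⟨c⁻¹, hinv⟩ : M.A) := by
      intro hu
      obtain ⟨u, hu⟩ := hu
      apply hcA
      have h2 : ((u⁻¹ : (M.A)ˣ) : M.A) * ⟨c⁻¹, hinv⟩ = 1 := by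
        rw [← hu]
        exact u.inv_mul
      have h3 : (((u⁻¹ : (M.A)ˣ) : M.A) : K) * c⁻¹ = 1 := congrArg Subtype.val h2
      have h4 : (((u⁻¹ : (M.A)ˣ) : M.A) : K) = c := by
        field_simp at h3
        exact h3
      rw [← h4]
      exact ((u⁻¹ : (M.A)ˣ) : M.A).2
    have hres : M.res ⟨c⁻¹, hinv⟩ = 0 := (M.res_eq_zero _).mpr hnu
    have h5 := M.rho_map ⟨c⁻¹, hinv⟩
    rw [hres, map_zero] at h5
    have h6 : (⟨M.x, M.x_mem⟩ : M.O) * ⟨algebraMap K F c⁻¹, M.map_mem ⟨c⁻¹, hinv⟩⟩ = 1 := by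
      apply Subtype.ext
      show M.x * algebraMap K F c⁻¹ = 1
      rw [← hc, ← map_mul, mul_inv_cancel₀ hc0, map_one]
    have h7 := congrArg M.rho h6
    rw [map_mul, h5, mul_zero, map_one] at h7
    exact zero_ne_one h7

/-- the residue map of the constants as a total function (`0` outside `A`). -/
def RedModel.resFun (M : RedModel K k F Fk) (c : K) : k :=
  open Classical in if hc : c ∈ M.A then M.res ⟨c, hc⟩ else 0

theorem RedModel.resFun_of_mem (M : RedModel K k F Fk) {c : K} (hc : c ∈ M.A) :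
    M.resFun c = M.res ⟨c, hc⟩ := by
  unfold RedModel.resFun
  rw [dif_pos hc]

/-- **GE, inequality `g(F) ≤ g(Fk)`**: Riemann-Hurwitz comparison from the fibre bounds
(finite part: `FibreBound M`; at `∞`: the fibre bound in the chart `x⁻¹`). -/
theorem genusFF_le_of_fibreBound [IsAlgClosed K] [CharZero K] [IsAlgClosed k]
    (M : RedModel K k F Fk) (n : ℕ) (hdeg : DegData M n) (BD : BranchData M n)
    (hK : Fermat.Agent.RR.IsRRField K F) (hk : Fermat.Agent.RR.IsRRField k Fk)
    (hfib : FibreBound M)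
    (hinf : fibreCard k M.xbar⁻¹ 0 ≤ fibreCard K M.x⁻¹ 0) :
    genusFF K F ≤ genusFF k Fk := by
  have hx := M.ge_x_transcendental
  have hxk : Transcendental k M.xbar := M.x_trans
  haveI : FiniteDimensional K⟮M.x⟯ F :=
    Module.finite_of_finrank_pos (by rw [hdeg.deg]; exact hdeg.pos)
  haveI : FiniteDimensional k⟮M.xbar⟯ Fk :=
    Module.finite_of_finrank_pos (by rw [hdeg.degk]; exact hdeg.pos)
  haveI : Algebra.IsSeparable k⟮M.xbar⟯ Fk := hdeg.sepk
  haveI : Algebra.IsSeparable K⟮M.x⟯ F := Algebra.IsSeparable.of_integral _ _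
  refine Fermat.Agent.RRHur.genusFF_le_of_fibres hK hk hx hxk (by rw [hdeg.deg, hdeg.degk])
    BD.S M.resFun ?_ ?_ ?_ ?_
  · intro c hc c' hc' hcc
    have hcA := BD.S_mem c hc
    have hcA' := BD.S_mem c' hc'
    rw [M.resFun_of_mem hcA, M.resFun_of_mem hcA'] at hcc
    exact BD.S_inj c hc c' hc' hcA hcA' hcc
  · intro c hc
    rw [← fibreCard_eq_card_zeros hx, BD.unram c hc, hdeg.deg]
  · intro c hc
    have hcA := BD.S_mem c hc
    rw [← fibreCard_eq_card_zeros hx, ← fibreCard_eq_card_zeros hxk, M.resFun_of_mem hcA]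
    exact hfib c hcA
  · rw [← fibreCard_inv_eq_card_poles hx, ← fibreCard_inv_eq_card_poles hxk]
    exact hinf

end Fermat.Agent.S27GR
end
end MergeWrap_S27_GR_Genus

section MergeWrap_S27_GR_GenusEq -- from S27/GR/GenusEq.lean

set_option autoImplicit false
set_option linter.style.haveILetI false

/-!
# S27, block C (helper20): GENUS EQUALITY for an abstract reduction model, universe-polymorphic

`Fermat/Agent/S27/GR/*.lean` is the universe-polymorphic port (`Type*`) of the discriminant chain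
`Lib/GoodRed` (cluster B, architect helper37; the original is stated in `Type`).

* `RedModel.toValSetup` : a reduction model is a constant reduction in the sense of `Lib/Deuring`;
* `ValSetup_toRedModel` : conversely, with a base parameter;
* `genusFF_le_of_branchData` : `g(F) ≤ g(Fk)` from `DegData` + `BranchData` (discriminant chain in
  both charts + Riemann-Hurwitz);
* `genusFF_eq_of_branchData` : `g(F) = g(Fk)` if moreover the lattice property holds (Deuring).
-/

noncomputable section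

open AlgebraicCurve IntermediateField

namespace Fermat.Agent.S27GR

open Fermat.Agent.RR Fermat.Agent.Deuring

variable {K k F Fk : Type*} [Field K] [Field k] [Field F] [Field Fk] [Algebra K F] [Algebra k Fk]

/-- `O ∩ K = A` for a reduction model. -/
theorem RedModel.mem_O_iff (M : RedModel K k F Fk) (c : K) : algebraMap K F c ∈ M.O ↔ c ∈ M.A := by
  constructor
  · intro hcO
    by_contra hcA
    have hinv : c⁻¹ ∈ M.A := (M.A.mem_or_inv_mem c).resolve_left hcA
    have hc0 : c ≠ 0 := fun h0 => hcA (h0 ▸ M.A.zero_mem)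
    have hnu : ¬ IsUnit (⟨c⁻¹, hinv⟩ : M.A) := by
      intro hu
      obtain ⟨u, hu⟩ := hu
      apply hcA
      have h2 : ((u⁻¹ : (M.A)ˣ) : M.A) * ⟨c⁻¹, hinv⟩ = 1 := by
        rw [← hu]
        exact u.inv_mul
      have h3 : (((u⁻¹ : (M.A)ˣ) : M.A) : K) * c⁻¹ = 1 := congrArg Subtype.val h2
      have h4 : (((u⁻¹ : (M.A)ˣ) : M.A) : K) = c := by
        field_simp at h3
        exact h3
      rw [← h4]
      exact ((u⁻¹ : (M.A)ˣ) : M.A).2
    have hres : M.res ⟨c⁻¹, hinv⟩ = 0 := (M.res_eq_zero _).mpr hnu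
    have h5 := M.rho_map ⟨c⁻¹, hinv⟩
    rw [hres, map_zero] at h5
    have h6 : (⟨algebraMap K F c, hcO⟩ : M.O) *
        ⟨algebraMap K F c⁻¹, M.map_mem ⟨c⁻¹, hinv⟩⟩ = 1 := by
      apply Subtype.ext
      show algebraMap K F c * algebraMap K F c⁻¹ = 1
      rw [← map_mul, mul_inv_cancel₀ hc0, map_one]
    have h7 := congrArg M.rho h6
    rw [map_mul, h5, mul_zero, map_one] at h7
    exact zero_ne_one h7
  · intro hc
    exact M.map_mem ⟨c, hc⟩

/-- a reduction model is a constant reduction (`Lib/Deuring`). -/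
def RedModel.toValSetup (M : RedModel K k F Fk) (hK : IsRRField K F) (hk : IsRRField k Fk) :
    ValSetup K F k Fk where
  A := M.A
  Ov := M.O
  res := M.res
  ρ := M.rho
  hF := hK
  hFk := hk
  res_surj := M.res_surj
  ρ_surj := M.rho_surj
  mem_Ov_iff := M.mem_O_iff
  ρ_algebraMap := fun c hc _ => M.rho_map ⟨c, hc⟩
  ρ_eq_zero_iff := M.rho_eq_zero
  scale := by
    intro f hf
    obtain ⟨c, hc, h, hu⟩ := M.val f hf
    have hc' : algebraMap K F c ≠ 0 := (map_ne_zero (algebraMap K F)).mpr hc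
    refine ⟨c⁻¹, inv_ne_zero hc, ?_, ?_⟩
    · rw [map_inv₀, inv_inv, mul_comm]
      exact h
    · rw [map_inv₀, inv_inv, mul_comm]
      obtain ⟨u, hu⟩ := hu
      have h1 : (((u⁻¹ : (M.O)ˣ) : M.O) : F) = (algebraMap K F c * f)⁻¹ := by
        have h2 : ((u : M.O) : F) * (((u⁻¹ : (M.O)ˣ) : M.O) : F) = 1 :=
          congrArg Subtype.val u.mul_inv
        rw [hu] at h2
        exact eq_inv_of_mul_eq_one_right h2
      rw [← h1]
      exact ((u⁻¹ : (M.O)ˣ) : M.O).2

@[simp] theorem RedModel.toValSetup_A (M : RedModel K k F Fk) (hK : IsRRField K F)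
    (hk : IsRRField k Fk) : (M.toValSetup hK hk).A = M.A := rfl

@[simp] theorem RedModel.toValSetup_Ov (M : RedModel K k F Fk) (hK : IsRRField K F)
    (hk : IsRRField k Fk) : (M.toValSetup hK hk).Ov = M.O := rfl

/-- a constant reduction with a base parameter is a reduction model. -/
def ValSetup_toRedModel (S : ValSetup K F k Fk) (res_eq_zero : ∀ a : S.A, S.res a = 0 ↔ ¬ IsUnit a)
    (x : F) (hx : x ∈ S.Ov) (htr : Transcendental k (S.ρ ⟨x, hx⟩)) : RedModel K k F Fk where
  A := S.A
  res := S.res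
  res_surj := S.res_surj
  res_eq_zero := res_eq_zero
  O := S.Ov
  rho := S.ρ
  rho_surj := S.ρ_surj
  rho_eq_zero := S.ρ_eq_zero_iff
  map_mem := fun a => (S.mem_Ov_iff _).mpr a.2
  rho_map := fun a => S.ρ_algebraMap a.1 a.2 _
  val := by
    intro f hf
    obtain ⟨c, hc, h1, h2⟩ := S.scale f hf
    have hc' : algebraMap K F c ≠ 0 := (map_ne_zero (algebraMap K F)).mpr hc
    have e : algebraMap K F c⁻¹ * f = f * (algebraMap K F c)⁻¹ := by
      rw [map_inv₀, mul_comm]
    refine ⟨c⁻¹, inv_ne_zero hc, by rw [e]; exact h1, ?_⟩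
    refine isUnit_iff_exists_inv.mpr ⟨⟨_, h2⟩, ?_⟩
    apply Subtype.ext
    show algebraMap K F c⁻¹ * f * (f * (algebraMap K F c)⁻¹)⁻¹ = 1
    rw [e]
    exact mul_inv_cancel₀ (mul_ne_zero hf (inv_ne_zero hc'))
  x := x
  x_mem := hx
  x_trans := htr

/-- **GE, `≤`**: `g(F) ≤ g(Fk)` from the degree and branch data (discriminant chain in both
charts, Riemann-Hurwitz on both sides). -/
theorem genusFF_le_of_branchData [IsAlgClosed K] [CharZero K] [IsAlgClosed k]
    (M : RedModel K k F Fk) (n : ℕ) (hdeg : DegData M n) (BD : BranchData M n)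
    (hS : ∀ c ∈ BD.S, c ≠ 0 → c⁻¹ ∈ M.A)
    (hK : IsRRField K F) (hk : IsRRField k Fk) :
    genusFF K F ≤ genusFF k Fk :=
  genusFF_le_of_fibreBound M n hdeg BD hK hk
    (fibreBound_of_branchData M n hdeg BD.toA)
    (FibreBound.at_infty (fibreBound_inv M n hdeg BD hS))

/-- **GE**: `g(F) = g(Fk)` for a reduction model with degree data, branch data and the lattice
property. -/
theorem genusFF_eq_of_branchData [IsAlgClosed K] [CharZero K] [IsAlgClosed k]
    (M : RedModel K k F Fk) (n : ℕ) (hdeg : DegData M n) (BD : BranchData M n)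
    (hS : ∀ c ∈ BD.S, c ≠ 0 → c⁻¹ ∈ M.A)
    (hK : IsRRField K F) (hk : IsRRField k Fk) (hL : HasLattice (M.toValSetup hK hk)) :
    genusFF K F = genusFF k Fk := by
  haveI : Infinite k := IsAlgClosed.instInfinite
  exact le_antisymm (genusFF_le_of_branchData M n hdeg BD hS hK hk)
    (Fermat.Agent.Deuring.genusFF_le (M.toValSetup hK hk) hL)

end Fermat.Agent.S27GR
end
end MergeWrap_S27_GR_GenusEq

section MergeWrap_S27_Red_GaussStmt -- from S27/Red/GaussStmt.lean

set_option autoImplicit false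

/-!
# S27, block C, seat C-GAUSS: the reduction model of a plane model (STATEMENT)

The interface used by the assembly `C-TOP` (and by block E): for a plane model `M` of `F / K` and
a valuation ring `A` of `K` which is good for `M` (`M.IntegralAt A`), there is a field `Fk` over
the residue field `k` of `A` and a reduction model `R : S27GR.RedModel K k F Fk` with `R.A = A`,
`R.x = M.x`, `M.y ∈ R.O`, and degree data `[F : K(x)] = N = [Fk : k(x̄)]`, `Fk / k(x̄)` separable.
No hypothesis on the characteristic of `K` or of `k`.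
The proof (with the explicit construction: `Fk = k(x̄, ȳ) ⊆ k((t))`) is in `Red/Gauss.lean`.
-/

noncomputable section

namespace Fermat.Agent.S27

universe u v

/-- **C-GAUSS** (statement). -/
def RedModelStatement : Prop :=
  ∀ (K : Type u) (F : Type v) [Field K] [Field F] [Algebra K F] (M : PlaneModel K F)
    (A : ValuationSubring K), M.IntegralAt A →
    ∃ (Fk : Type u) (_ : Field Fk) (_ : Algebra (IsLocalRing.ResidueField A) Fk)
      (R : Fermat.Agent.S27GR.RedModel K (IsLocalRing.ResidueField A) F Fk),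
      R.A = A ∧ R.x = M.x ∧ M.y ∈ R.O ∧ Fermat.Agent.S27GR.DegData R M.N

end Fermat.Agent.S27
end
end MergeWrap_S27_Red_GaussStmt

section MergeWrap_S27_Red_SPCore -- from S27/Red/SPCore.lean

set_option autoImplicit false
set_option linter.style.haveILetI false

noncomputable section

open AlgebraicCurve Fermat.Agent.RR Fermat.Agent.Deuring Fermat.Agent.FF

namespace Fermat.Agent.S27

variable {K F k Fk : Type*} [Field K] [Field F] [Algebra K F]
  [Field k] [Field Fk] [Algebra k Fk]

/-- the reduction on `Pic⁰` kills no nonzero `m`-torsion class, `m` a unit of `A`. -/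
theorem sp_eq_zero_of_torsion [IsAlgClosed k] (S : ValSetup K F k Fk)
    {r : Place K F → Place k Fk} (hr : IsReduction S r)
    (hg : genusFF K F = genusFF k Fk)
    (x : F) (hx : x ∈ S.Ov) (hy : Transcendental k (S.red x))
    [FiniteDimensional (IntermediateField.adjoin k {S.red x}) Fk]
    [Algebra.IsSeparable (IntermediateField.adjoin k {S.red x}) Fk]
    (hle : Divisor.degree (poleDiv S.hF x) ≤ Divisor.degree (poleDiv S.hFk (S.red x)))
    (m : ℕ) (hm0 : (m : K) ≠ 0) (hmA : ((m : K))⁻¹ ∈ S.A)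
    (z : Pic0 K F) (hz : (m : ℤ) • z = 0) (hred : hr.redPic0 z = 0) : z = 0 := by
  haveI : Infinite k := IsAlgClosed.instInfinite
  obtain ⟨B⟩ := Fermat.Agent.S18Key.nonempty_baseFn S r hr.push hr.gr hr.deg x hx hy hle
  obtain ⟨N⟩ := Fermat.Agent.S18Key.BaseFn.nonempty_nsData B S.hFk S.res_surj (genusFF K F) hg.le
  obtain ⟨D, rfl⟩ := Pic0.mk_surjective z
  have hdeg : Divisor.degree (D : Divisor K F) = 0 := Divisor.mem_degZero.mp D.2
  -- `m D` is principal
  have hmD : (m • (D : Divisor K F)) ∈ Divisor.principal (K := K) (F := F) := by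
    have h1 : Pic0.mk ((m : ℤ) • D) = 0 := hz
    have h2 := (QuotientAddGroup.eq_zero_iff _).mp h1
    rw [AddSubgroup.mem_addSubgroupOf] at h2
    simpa using h2
  -- the reduction of `D` is principal
  have hredD : Finsupp.mapDomain r (D : Divisor K F) ∈ Divisor.principal (K := k) (F := Fk) := by
    rw [IsReduction.redPic0_mk] at hred
    have h2 := (QuotientAddGroup.eq_zero_iff _).mp hred
    rw [AddSubgroup.mem_addSubgroupOf] at h2
    exact h2
  have hD := Fermat.Agent.S18Key.key_lemma' (Fermat.Agent.S18Key.RedSetup.ofVal S r hr.push)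
    (genusFF K F) (Fermat.Agent.S18Key.riemann_of_isRRField S.hF _ le_rfl) N m hm0 hmA
    (D : Divisor K F) hdeg hmD hredD
  refine (QuotientAddGroup.eq_zero_iff _).mpr ?_
  rw [AddSubgroup.mem_addSubgroupOf]
  exact hD

/-- **C-SP, abstract form**: `#Pic⁰(F)[m] ≤ #Pic⁰(F_k)[m]` for `m` a unit of `A`. -/
theorem card_torsion_le_of_valSetup [IsAlgClosed k] (S : ValSetup K F k Fk) (hL : HasLattice S)
    (hg : genusFF K F = genusFF k Fk)
    (x : F) (hx : x ∈ S.Ov) (hy : Transcendental k (S.red x))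
    [FiniteDimensional (IntermediateField.adjoin k {S.red x}) Fk]
    [Algebra.IsSeparable (IntermediateField.adjoin k {S.red x}) Fk]
    (hle : Divisor.degree (poleDiv S.hF x) ≤ Divisor.degree (poleDiv S.hFk (S.red x)))
    (m : ℕ) (hm0 : (m : K) ≠ 0) (hmA : ((m : K))⁻¹ ∈ S.A)
    [Finite (Pic0.torsion k Fk m)] :
    Nat.card (Pic0.torsion K F m) ≤ Nat.card (Pic0.torsion k Fk m) := by
  haveI : Infinite k := IsAlgClosed.instInfinite
  obtain ⟨r, hr⟩ := exists_isReduction S hL hg
  -- the restriction of the reduction to the `m`-torsion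
  let φ : Pic0.torsion K F m → Pic0.torsion k Fk m := fun z =>
    ⟨hr.redPic0 z.1, by
      rw [Pic0.mem_torsion, ← map_zsmul, Pic0.mem_torsion.mp z.2, map_zero]⟩
  refine Nat.card_le_card_of_injective φ ?_
  intro z₁ z₂ h12
  have h0 : hr.redPic0 (z₁.1 - z₂.1) = 0 := by
    rw [map_sub, sub_eq_zero]
    exact congrArg Subtype.val h12
  have hz : (m : ℤ) • (z₁.1 - z₂.1) = 0 := by
    rw [zsmul_sub, Pic0.mem_torsion.mp z₁.2, Pic0.mem_torsion.mp z₂.2, sub_zero]
  have := sp_eq_zero_of_torsion S hr hg x hx hy hle m hm0 hmA _ hz h0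
  exact Subtype.ext (sub_eq_zero.mp this)

end Fermat.Agent.S27
end
end MergeWrap_S27_Red_SPCore

section MergeWrap_S27_GR_LatticeAbs -- from S27/GR/LatticeAbs.lean

set_option autoImplicit false
set_option linter.style.haveILetI false

/-!
# S27, block C5 (helper20): the LATTICE property from an orthonormal cover (abstract part)

`S : Deuring.ValSetup K F k Fk` a constant reduction.  A family `e : ι → F` is *orthonormal* if
`e i ∈ Ov` and the reductions `S.red (e i)` are `k`-linearly independent.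

* `lat_exists_pivot_basis` : every finite-dimensional `K`-subspace of `ι →₀ K` has a basis with
  coordinates in `A` whose coordinatewise reductions are `k`-linearly independent
  (Gaussian elimination, pivot = coordinate of maximal absolute value; any valuation ring).
* `hasLattice_of_cover` : if every finite subset of `F` lies in the `K`-span of an orthonormal
  family, then `S` has the lattice property `Deuring.HasLattice`.
-/

noncomputable section

namespace Fermat.Agent.S27GR

open Fermat.Agent.Deuring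

section Elim

variable {K : Type*} [Field K] (A : ValuationSubring K) {k : Type*} [Field k] (res : A →+* k)

open Classical in
/-- the residue map as a total function (`0` outside `A`). -/
def latRes (c : K) : k := if h : c ∈ A then res ⟨c, h⟩ else 0

theorem latRes_of_mem {c : K} (h : c ∈ A) : latRes A res c = res ⟨c, h⟩ := by
  unfold latRes
  rw [dif_pos h]

@[simp] theorem latRes_zero : latRes A res 0 = 0 := by
  rw [latRes_of_mem A res A.zero_mem]
  exact map_zero res

@[simp] theorem latRes_one : latRes A res 1 = 1 := by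
  rw [latRes_of_mem A res A.one_mem]
  exact map_one res

variable {ι : Type*}

/-- coordinatewise reduction of a vector. -/
def latRedVec (v : ι →₀ K) : ι →₀ k := v.mapRange (latRes A res) (latRes_zero A res)

@[simp] theorem latRedVec_apply (v : ι →₀ K) (i : ι) :
    latRedVec A res v i = latRes A res (v i) := by
  simp [latRedVec]

/-- **Pivot elimination**: a finite-dimensional subspace of `ι →₀ K` has a basis with coordinates
in `A` whose reductions are linearly independent. -/
theorem lat_exists_pivot_basis (W : Submodule K (ι →₀ K)) [FiniteDimensional K W] :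
    ∃ (m : ℕ) (v : Fin m → ι →₀ K), (∀ j, v j ∈ W) ∧ (∀ j i, v j i ∈ A) ∧
      Submodule.span K (Set.range v) = W ∧
      LinearIndependent k (fun j => latRedVec A res (v j)) := by
  classical
  induction hd : Module.finrank K W using Nat.strong_induction_on generalizing W with
  | _ d ih =>
    by_cases hW : W = ⊥
    · subst hW
      refine ⟨0, Fin.elim0, fun j => j.elim0, fun j => j.elim0, ?_, ?_⟩
      · rw [Set.range_eq_empty, Submodule.span_empty]
      · exact linearIndependent_empty_type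
    · obtain ⟨w, hwW, hw0⟩ := Submodule.exists_mem_ne_zero_of_ne_bot hW
      have hsupp : w.support.Nonempty := Finsupp.support_nonempty_iff.mpr hw0
      obtain ⟨i₀, hi₀, hmax⟩ := Finset.exists_max_image w.support
        (fun i => A.valuation (w i)) hsupp
      have hwi₀ : w i₀ ≠ 0 := Finsupp.mem_support_iff.mp hi₀
      set u : ι →₀ K := (w i₀)⁻¹ • w with hu
      have huW : u ∈ W := W.smul_mem _ hwW
      have hui₀ : u i₀ = 1 := by
        rw [hu, Finsupp.smul_apply, smul_eq_mul, inv_mul_cancel₀ hwi₀]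
      have huA : ∀ i, u i ∈ A := by
        intro i
        rw [hu, Finsupp.smul_apply, smul_eq_mul]
        by_cases hi : i ∈ w.support
        · rw [← ValuationSubring.valuation_le_one_iff, map_mul, map_inv₀]
          have hv0 : A.valuation (w i₀) ≠ 0 := (Valuation.ne_zero_iff _).mpr hwi₀
          rw [inv_mul_le_iff₀ (zero_lt_iff.mpr hv0), mul_one]
          exact hmax i hi
        · rw [Finsupp.notMem_support_iff.mp hi, mul_zero]
          exact A.zero_mem
      set W' : Submodule K (ι →₀ K) := W ⊓ LinearMap.ker (Finsupp.lapply (R := K) i₀) with hW'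
      have hW'le : W' ≤ W := inf_le_left
      have huW' : u ∉ W' := by
        intro h
        have h1 : u i₀ = 0 := by
          have := h.2
          simpa [LinearMap.mem_ker] using this
        rw [hui₀] at h1
        exact one_ne_zero h1
      have hlt : W' < W := lt_of_le_of_ne hW'le (fun h => huW' (h ▸ huW))
      haveI : FiniteDimensional K W' := Submodule.finiteDimensional_of_le hW'le
      have hrk : Module.finrank K W' < d := hd ▸ Submodule.finrank_lt_finrank_of_lt hlt
      obtain ⟨m, v, hvW, hvA, hvspan, hvind⟩ := ih _ hrk W' rfl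
      have hvi₀ : ∀ j, v j i₀ = 0 := by
        intro j
        have := (hvW j).2
        simpa [LinearMap.mem_ker] using this
      refine ⟨m + 1, Fin.cons u v, ?_, ?_, ?_, ?_⟩
      · intro j
        refine Fin.cases ?_ (fun j => ?_) j
        · simpa using huW
        · simpa using hW'le (hvW j)
      · intro j i
        refine Fin.cases ?_ (fun j => ?_) j
        · simpa using huA i
        · simpa using hvA j i
      · rw [Fin.range_cons, Submodule.span_insert, hvspan]
        apply le_antisymm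
        · refine sup_le ?_ hW'le
          rw [Submodule.span_singleton_le_iff_mem]
          exact huW
        · intro y hy
          have hy' : y - y i₀ • u ∈ W' := by
            refine ⟨W.sub_mem hy (W.smul_mem _ huW), ?_⟩
            simp [LinearMap.mem_ker, hui₀]
          have : y = y i₀ • u + (y - y i₀ • u) := by abel
          rw [this]
          exact Submodule.add_mem_sup (Submodule.smul_mem _ _ (Submodule.mem_span_singleton_self u))
            hy'
      · have hfun : (fun j => latRedVec A res ((Fin.cons u v : Fin (m + 1) → ι →₀ K) j)) =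
            Fin.cons (latRedVec A res u) (fun j => latRedVec A res (v j)) := by
          funext j
          refine Fin.cases ?_ (fun j => ?_) j
          · simp
          · simp
        rw [hfun, linearIndependent_finCons]
        refine ⟨hvind, ?_⟩
        intro hmem
        have hle : Submodule.span k (Set.range fun j => latRedVec A res (v j)) ≤
            LinearMap.ker (Finsupp.lapply (R := k) i₀) := by
          rw [Submodule.span_le]
          rintro _ ⟨j, rfl⟩
          simp [LinearMap.mem_ker, hvi₀ j]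
        have h1 := hle hmem
        simp [LinearMap.mem_ker, hui₀] at h1

end Elim

section Transfer

variable {K F k Fk : Type*} [Field K] [Field F] [Algebra K F]
  [Field k] [Field Fk] [Algebra k Fk] (S : ValSetup K F k Fk)

variable {ι : Type*}

/-- a linear combination with coefficients in `A` of elements of `Ov` lies in `Ov`, and its
reduction is the reduced linear combination. -/
theorem lat_red_linearCombination (e : ι → F) (he : ∀ i, e i ∈ S.Ov) (c : ι →₀ K)
    (hc : ∀ i, c i ∈ S.A) :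
    Finsupp.linearCombination K e c ∈ S.Ov ∧
      S.red (Finsupp.linearCombination K e c) =
        Finsupp.linearCombination k (fun i => S.red (e i)) (latRedVec S.A S.res c) := by
  classical
  have key : ∀ s : Finset ι, (∑ i ∈ s, c i • e i) ∈ S.Ov ∧
      S.red (∑ i ∈ s, c i • e i) = ∑ i ∈ s, latRes S.A S.res (c i) • S.red (e i) := by
    intro s
    induction s using Finset.induction_on with
    | empty => simp
    | insert a s ha ih =>
      rw [Finset.sum_insert ha, Finset.sum_insert ha]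
      have h1 : c a • e a ∈ S.Ov := S.smul_mem (hc a) (he a)
      refine ⟨add_mem h1 ih.1, ?_⟩
      rw [S.red_add h1 ih.1, ih.2, S.red_smul (hc a) (he a), latRes_of_mem S.A S.res (hc a)]
  have h1 : Finsupp.linearCombination K e c = ∑ i ∈ c.support, c i • e i := by
    rw [Finsupp.linearCombination_apply, Finsupp.sum]
  have h2 : Finsupp.linearCombination k (fun i => S.red (e i)) (latRedVec S.A S.res c) =
      ∑ i ∈ c.support, latRes S.A S.res (c i) • S.red (e i) := by
    rw [Finsupp.linearCombination_apply, latRedVec,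
      Finsupp.sum_mapRange_index (fun a => by simp), Finsupp.sum]
  rw [h1, h2]
  exact key c.support

/-- **LATTICE from an orthonormal cover**: if every finite subset of `F` lies in the `K`-span of
a family of elements of `Ov` with `k`-linearly independent reductions, then `S` has the lattice
property. -/
theorem hasLattice_of_cover
    (H : ∀ t : Finset F, ∃ (ι : Type) (e : ι → F), (∀ i, e i ∈ S.Ov) ∧
      LinearIndependent k (fun i => S.red (e i)) ∧
      ∀ f ∈ t, f ∈ Submodule.span K (Set.range e)) :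
    HasLattice S := by
  classical
  intro W hWfd
  obtain ⟨t, ht⟩ : W.FG := (Submodule.fg_iff_finiteDimensional W).mpr hWfd
  obtain ⟨ι, e, heO, heind, het⟩ := H t
  set T : (ι →₀ K) →ₗ[K] F := Finsupp.linearCombination K e with hT
  have hpre : ∀ f : F, f ∈ t → ∃ c : ι →₀ K, T c = f := by
    intro f hf
    have := het f hf
    rw [← Finsupp.range_linearCombination] at this
    exact this
  choose! c hc using hpre
  set W' : Submodule K (ι →₀ K) := Submodule.span K (c '' (t : Set F)) with hW'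
  haveI : FiniteDimensional K W' :=
    FiniteDimensional.span_of_finite K (Set.Finite.image _ t.finite_toSet)
  have hmap : Submodule.map T W' = W := by
    rw [hW', Submodule.map_span, Set.image_image, ← ht]
    congr 1
    ext f
    constructor
    · rintro ⟨g, hg, rfl⟩
      show T (c g) ∈ (t : Set F)
      rw [hc g hg]
      exact hg
    · intro hf
      exact ⟨f, hf, hc f hf⟩
  obtain ⟨m, v, hvW, hvA, hvspan, hvind⟩ := lat_exists_pivot_basis S.A S.res W'
  refine ⟨m, fun j => T (v j), ?_, ?_, ?_, ?_⟩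
  · intro j
    rw [← hmap]
    exact Submodule.mem_map_of_mem (hvW j)
  · intro j
    exact (lat_red_linearCombination S e heO (v j) (hvA j)).1
  · rw [← hmap, ← hvspan, Submodule.map_span]
    congr 1
    ext f
    constructor
    · rintro ⟨j, rfl⟩
      exact ⟨v j, ⟨j, rfl⟩, rfl⟩
    · rintro ⟨_, ⟨j, rfl⟩, rfl⟩
      exact ⟨j, rfl⟩
  · have hfun : (fun j => S.red (T (v j))) =
        (Finsupp.linearCombination k (fun i => S.red (e i))) ∘
          (fun j => latRedVec S.A S.res (v j)) := by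
      funext j
      exact (lat_red_linearCombination S e heO (v j) (hvA j)).2
    rw [hfun]
    exact hvind.map' _ (LinearMap.ker_eq_bot.mpr heind)

end Transfer

end Fermat.Agent.S27GR
end
end MergeWrap_S27_GR_LatticeAbs

section MergeWrap_S27_GR_Lattice -- from S27/GR/Lattice.lean

set_option autoImplicit false
set_option linter.style.haveILetI false

/-!
# S27, block C5 (helper20): the LATTICE property of a reduction model with degree data

`RedModel.hasLattice (M : RedModel K k F Fk) n (hdeg : DegData M n) hK hk :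
    Deuring.HasLattice (M.toValSetup hK hk)`

No further hypothesis (any valued field `(K, A)`, any residue characteristic, no separability, no
algebraic closedness).  Proof: lift a `k(x̄)`-basis of `Fk` to `w : Fin n → O`; it is a
`K(x)`-basis of `F` (`linearIndependent_lift` + `deg = degk`).  A finite subset `t` of `F` has a
common denominator `D ∈ K[x]`, normalised to be a unit of `O` (Gauss lemma), with
`D t ⊆ ⊕ K[x] w_j`; the family `x^i w_j / D` is orthonormal and its `K`-span contains `t`;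
conclude with `hasLattice_of_cover` (pivot elimination).

Corollary `genusFF_eq_of_degData_branchData` : genus equality without the lattice hypothesis.
-/

noncomputable section

namespace Fermat.Agent.S27GR

open Polynomial IntermediateField Fermat.Agent.RR Fermat.Agent.Deuring AlgebraicCurve

variable {K k F Fk : Type*} [Field K] [Field k] [Field F] [Field Fk] [Algebra K F] [Algebra k Fk]

/-- the powers of a transcendental element are linearly independent. -/
theorem lat_linearIndependent_pow {R S : Type*} [Field R] [CommRing S] [Algebra R S] {y : S}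
    (hy : Transcendental R y) : LinearIndependent R (fun i : ℕ => y ^ i) := by
  have h := (Polynomial.basisMonomials R).linearIndependent.map'
    (Polynomial.aeval y).toLinearMap
    (LinearMap.ker_eq_bot.mpr (transcendental_iff_injective.mp hy))
  have hfun : (fun i : ℕ => y ^ i) =
      (Polynomial.aeval y).toLinearMap ∘ (Polynomial.basisMonomials R) := by
    funext i
    simp [Polynomial.coe_basisMonomials]
  rw [hfun]
  exact h

namespace RedModel

variable (M : RedModel K k F Fk)

/-- the `K`-span of the `x^i w_j` (= the `K[x]`-span of the `w_j`). -/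
def latL {n : ℕ} (w : Fin n → F) : Submodule K F :=
  Submodule.span K (Set.range fun p : ℕ × Fin n => M.x ^ p.1 * w p.2)

theorem x_mul_mem_latL {n : ℕ} (w : Fin n → F) {f : F} (hf : f ∈ M.latL w) :
    M.x * f ∈ M.latL w := by
  unfold latL at hf ⊢
  induction hf using Submodule.span_induction with
  | mem f hf =>
    obtain ⟨p, rfl⟩ := hf
    have h1 : M.x * (M.x ^ p.1 * w p.2) = M.x ^ (p.1 + 1) * w p.2 := by ring
    rw [h1]
    exact Submodule.subset_span ⟨(p.1 + 1, p.2), rfl⟩
  | zero => simp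
  | add f g _ _ hf hg =>
    rw [mul_add]
    exact add_mem hf hg
  | smul c f _ hf =>
    rw [mul_smul_comm]
    exact Submodule.smul_mem _ _ hf

theorem aeval_mul_mem_latL {n : ℕ} (w : Fin n → F) (P : K[X]) {f : F} (hf : f ∈ M.latL w) :
    Polynomial.aeval M.x P * f ∈ M.latL w := by
  induction P using Polynomial.induction_on' with
  | add p q hp hq =>
    rw [map_add, add_mul]
    exact add_mem hp hq
  | monomial i a =>
    rw [Polynomial.aeval_monomial, mul_assoc, ← Algebra.smul_def]
    refine Submodule.smul_mem _ _ ?_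
    induction i with
    | zero => simpa using hf
    | succ i ih =>
      rw [pow_succ', mul_assoc]
      exact M.x_mul_mem_latL w ih

/-- the elements of `F` with a denominator in `K[x]` into `latL w`: a `K(x)`-subspace. -/
def latN {n : ℕ} (w : Fin n → F) : Submodule K⟮M.x⟯ F where
  carrier := {f | ∃ D : K[X], D ≠ 0 ∧ Polynomial.aeval M.x D * f ∈ M.latL w}
  zero_mem' := ⟨1, one_ne_zero, by simp⟩
  add_mem' := by
    rintro f g ⟨D, hD, hf⟩ ⟨E, hE, hg⟩
    refine ⟨D * E, mul_ne_zero hD hE, ?_⟩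
    have h1 : Polynomial.aeval M.x (D * E) * (f + g) =
        Polynomial.aeval M.x E * (Polynomial.aeval M.x D * f) +
          Polynomial.aeval M.x D * (Polynomial.aeval M.x E * g) := by
      rw [map_mul]
      ring
    rw [h1]
    exact add_mem (M.aeval_mul_mem_latL w E hf) (M.aeval_mul_mem_latL w D hg)
  smul_mem' := by
    rintro g f ⟨D, hD, hf⟩
    obtain ⟨r, s, hrs⟩ := (IntermediateField.mem_adjoin_simple_iff K _).mp g.2
    by_cases hs : Polynomial.aeval M.x s = 0
    · refine ⟨1, one_ne_zero, ?_⟩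
      have h0 : (g : F) = 0 := by rw [hrs, hs, div_zero]
      have h1 : g • f = 0 := by
        rw [IntermediateField.smul_def, h0]
        simp
      rw [h1, mul_zero]
      exact zero_mem _
    · have hs0 : s ≠ 0 := by
        rintro rfl
        simp at hs
      refine ⟨s * D, mul_ne_zero hs0 hD, ?_⟩
      have h1 : Polynomial.aeval M.x (s * D) * (g • f) =
          Polynomial.aeval M.x r * (Polynomial.aeval M.x D * f) := by
        rw [IntermediateField.smul_def, smul_eq_mul, hrs, map_mul]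
        field_simp
      rw [h1]
      exact M.aeval_mul_mem_latL w r hf

theorem mem_latN {n : ℕ} (w : Fin n → F) (f : F) :
    f ∈ M.latN w ↔ ∃ D : K[X], D ≠ 0 ∧ Polynomial.aeval M.x D * f ∈ M.latL w := Iff.rfl

/-- **C5, LATTICE**: a reduction model with `[F : K(x)] = [Fk : k(x̄)]` has the lattice property
(orthonormal bases of all finite-dimensional `K`-subspaces of `F`). -/
theorem hasLattice (n : ℕ) (hdeg : DegData M n) (hK : IsRRField K F) (hk : IsRRField k Fk) :
    HasLattice (M.toValSetup hK hk) := by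
  classical
  haveI : FiniteDimensional k⟮M.xbar⟯ Fk :=
    Module.finite_of_finrank_pos (by rw [hdeg.degk]; exact hdeg.pos)
  haveI : FiniteDimensional K⟮M.x⟯ F :=
    Module.finite_of_finrank_pos (by rw [hdeg.deg]; exact hdeg.pos)
  let bbar : Module.Basis (Fin n) k⟮M.xbar⟯ Fk := Module.finBasisOfFinrankEq _ _ hdeg.degk
  have hsurj : ∀ j, ∃ f : M.O, M.rho f = bbar j := fun j => M.rho_surj _
  choose wO hwO using hsurj
  have hindbar : LinearIndependent k⟮M.xbar⟯ (fun i => M.rho (wO i)) := by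
    have h1 : (fun i => M.rho (wO i)) = bbar := funext hwO
    rw [h1]
    exact bbar.linearIndependent
  have hindK := M.linearIndependent_lift wO hindbar
  have htop : Submodule.span K⟮M.x⟯ (Set.range fun i => ((wO i : M.O) : F)) = ⊤ :=
    hindK.span_eq_top_of_card_eq_finrank' (by rw [Fintype.card_fin, hdeg.deg])
  set w : Fin n → F := fun i => ((wO i : M.O) : F) with hw
  have hN : ∀ f : F, ∃ D : K[X], D ≠ 0 ∧ Polynomial.aeval M.x D * f ∈ M.latL w := by
    intro f
    have hle : Submodule.span K⟮M.x⟯ (Set.range w) ≤ M.latN w := by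
      rw [Submodule.span_le]
      rintro _ ⟨j, rfl⟩
      refine ⟨1, one_ne_zero, ?_⟩
      rw [map_one, one_mul]
      exact Submodule.subset_span ⟨(0, j), by simp⟩
    have hf : f ∈ M.latN w := hle (htop ▸ Submodule.mem_top)
    exact hf
  apply hasLattice_of_cover
  intro t
  -- a common denominator
  have hD : ∃ D : K[X], D ≠ 0 ∧ ∀ f ∈ t, Polynomial.aeval M.x D * f ∈ M.latL w := by
    induction t using Finset.induction_on with
    | empty => exact ⟨1, one_ne_zero, by simp⟩
    | insert a t _ ih =>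
      obtain ⟨D, hD, hDt⟩ := ih
      obtain ⟨E, hE, hEa⟩ := hN a
      refine ⟨D * E, mul_ne_zero hD hE, fun f hf => ?_⟩
      rcases Finset.mem_insert.mp hf with rfl | hf
      · have h1 : Polynomial.aeval M.x (D * E) * f =
            Polynomial.aeval M.x D * (Polynomial.aeval M.x E * f) := by
          rw [map_mul]
          ring
        rw [h1]
        exact M.aeval_mul_mem_latL w D hEa
      · have h1 : Polynomial.aeval M.x (D * E) * f =
            Polynomial.aeval M.x E * (Polynomial.aeval M.x D * f) := by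
          rw [map_mul]
          ring
        rw [h1]
        exact M.aeval_mul_mem_latL w E (hDt f hf)
  obtain ⟨D, hD0, hDt⟩ := hD
  obtain ⟨c, hc0, D₀, hDD₀, hred⟩ := M.exists_primitive D hD0
  have hunit := M.isUnit_evO hred
  obtain ⟨uu, huu⟩ := hunit
  set u : F := ((M.evO D₀ : M.O) : F) with hu_def
  have hueq : Polynomial.aeval M.x D = algebraMap K F c * u := by
    rw [hu_def, coe_evO]
    conv_lhs => rw [hDD₀]
    rw [map_mul, Polynomial.aeval_C]
  have huO : u ∈ M.O := (M.evO D₀).2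
  have huinv_eq : (((uu⁻¹ : M.Oˣ) : M.O) : F) = u⁻¹ := by
    have h2 : ((uu : M.O) : F) * (((uu⁻¹ : M.Oˣ) : M.O) : F) = 1 :=
      congrArg Subtype.val uu.mul_inv
    rw [huu] at h2
    exact eq_inv_of_mul_eq_one_right h2
  have huinv : u⁻¹ ∈ M.O := huinv_eq ▸ ((uu⁻¹ : M.Oˣ) : M.O).2
  have hu0 : u ≠ 0 := by
    intro h0
    have h2 : ((uu : M.O) : F) * (((uu⁻¹ : M.Oˣ) : M.O) : F) = 1 :=
      congrArg Subtype.val uu.mul_inv
    rw [huu] at h2
    rw [show ((M.evO D₀ : M.O) : F) = u from rfl, h0, zero_mul] at h2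
    exact zero_ne_one h2
  have hut : ∀ f ∈ t, u * f ∈ M.latL w := by
    intro f hf
    have h1 := hDt f hf
    rw [hueq, mul_assoc, ← Algebra.smul_def] at h1
    have h2 := Submodule.smul_mem (M.latL w) c⁻¹ h1
    rwa [smul_smul, inv_mul_cancel₀ hc0, one_smul] at h2
  set S := M.toValSetup hK hk with hS
  have hSO : ∀ f : F, f ∈ S.Ov ↔ f ∈ M.O := fun f => Iff.rfl
  refine ⟨ℕ × Fin n, fun p => M.x ^ p.1 * w p.2 * u⁻¹, ?_, ?_, ?_⟩
  · intro p
    exact mul_mem (mul_mem (pow_mem M.x_mem _) (wO p.2).2) huinv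
  · -- linear independence of the reductions
    have hredx : S.red M.x = M.xbar := S.red_of_mem M.x_mem
    have hredw : ∀ j, S.red (w j) = M.rho (wO j) := fun j => S.red_of_mem (wO j).2
    have hredu0 : S.red u ≠ 0 := S.red_ne_zero huO huinv hu0
    have hred : ∀ p : ℕ × Fin n, S.red (M.x ^ p.1 * w p.2 * u⁻¹) =
        M.xbar ^ p.1 * M.rho (wO p.2) * (S.red u)⁻¹ := by
      intro p
      have hxO : M.x ^ p.1 ∈ S.Ov := pow_mem M.x_mem _
      have hwO' : w p.2 ∈ S.Ov := (wO p.2).2
      rw [S.red_mul (mul_mem hxO hwO') huinv, S.red_mul hxO hwO', S.red_pow M.x_mem, hredx,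
        hredw, S.red_inv huO huinv hu0]
    have hgen : Transcendental k (AdjoinSimple.gen k M.xbar) := by
      rw [← transcendental_algebraMap_iff (algebraMap k⟮M.xbar⟯ Fk).injective,
        AdjoinSimple.algebraMap_gen]
      exact M.x_trans
    have hb := lat_linearIndependent_pow hgen
    have hprod := linearIndependent_smul hb hindbar
    have hmul : LinearMap.ker (LinearMap.mulRight k (S.red u)⁻¹) = ⊥ := by
      rw [LinearMap.ker_eq_bot]
      intro a b hab
      simp only [LinearMap.mulRight_apply] at hab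
      exact mul_right_cancel₀ (inv_ne_zero hredu0) hab
    have hfinal := hprod.map' _ hmul
    have hfun : (fun p : ℕ × Fin n => S.red (M.x ^ p.1 * w p.2 * u⁻¹)) =
        (LinearMap.mulRight k (S.red u)⁻¹) ∘
          (fun p : ℕ × Fin n => AdjoinSimple.gen k M.xbar ^ p.1 • M.rho (wO p.2)) := by
      funext p
      rw [hred p]
      simp only [Function.comp_apply, LinearMap.mulRight_apply, IntermediateField.smul_def,
        smul_eq_mul]
      rfl
    rw [hfun]
    exact hfinal
  · intro f hf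
    have h1 := hut f hf
    have h2 : f = LinearMap.mulRight K u⁻¹ (u * f) := by
      rw [LinearMap.mulRight_apply]
      field_simp
    have h3 : Submodule.map (LinearMap.mulRight K u⁻¹) (M.latL w) =
        Submodule.span K (Set.range fun p : ℕ × Fin n => M.x ^ p.1 * w p.2 * u⁻¹) := by
      unfold latL
      rw [Submodule.map_span, ← Set.range_comp]
      rfl
    rw [h2, ← h3]
    exact Submodule.mem_map_of_mem h1

end RedModel

/-- **GE without the lattice hypothesis**: `g(F) = g(Fk)` for a reduction model with degree data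
and branch data. -/
theorem genusFF_eq_of_degData_branchData [IsAlgClosed K] [CharZero K] [IsAlgClosed k]
    (M : RedModel K k F Fk) (n : ℕ) (hdeg : DegData M n) (BD : BranchData M n)
    (hS : ∀ c ∈ BD.S, c ≠ 0 → c⁻¹ ∈ M.A)
    (hK : IsRRField K F) (hk : IsRRField k Fk) :
    genusFF K F = genusFF k Fk :=
  genusFF_eq_of_branchData M n hdeg BD hS hK hk (M.hasLattice n hdeg hK hk)

end Fermat.Agent.S27GR
end
end MergeWrap_S27_GR_Lattice

section MergeWrap_S27_Red_SP -- from S27/Red/SP.lean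

set_option autoImplicit false
set_option linter.style.haveILetI false

noncomputable section

open AlgebraicCurve Fermat.Agent.RR Fermat.Agent.Deuring Fermat.Agent.FF IntermediateField

namespace Fermat.Agent.S27

variable {K F k Fk : Type*} [Field K] [Field F] [Algebra K F]
  [Field k] [Field Fk] [Algebra k Fk]

/-- the reduction of the base parameter of a reduction model is `x̄`. -/
theorem sp_red_x (M : S27GR.RedModel K k F Fk) (hK : IsRRField K F) (hk : IsRRField k Fk) :
    (M.toValSetup hK hk).red M.x = M.xbar :=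
  (M.toValSetup hK hk).red_of_mem (f := M.x) M.x_mem

/-- **C-SP**: specialisation bound for a reduction model with degree data and genus equality. -/
theorem card_torsion_le_of_redModel [IsAlgClosed k] (M : S27GR.RedModel K k F Fk) (n : ℕ)
    (hdeg : S27GR.DegData M n) (hK : IsRRField K F) (hk : IsRRField k Fk)
    (hg : genusFF K F = genusFF k Fk)
    (m : ℕ) (hm0 : (m : K) ≠ 0) (hmA : ((m : K))⁻¹ ∈ M.A)
    [Finite (Pic0.torsion k Fk m)] :
    Nat.card (Pic0.torsion K F m) ≤ Nat.card (Pic0.torsion k Fk m) := by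
  have hred := sp_red_x M hK hk
  have hxK : Transcendental K M.x := M.lb_x_transcendental
  have hxk : Transcendental k M.xbar := M.x_trans
  haveI : FiniteDimensional k⟮M.xbar⟯ Fk :=
    Module.finite_of_finrank_pos (by rw [hdeg.degk]; exact hdeg.pos)
  haveI : FiniteDimensional K⟮M.x⟯ F :=
    Module.finite_of_finrank_pos (by rw [hdeg.deg]; exact hdeg.pos)
  haveI : Algebra.IsSeparable k⟮M.xbar⟯ Fk := hdeg.sepk
  have h1 : Divisor.degree (poleDiv hK M.x) = (n : ℤ) := by
    rw [Fermat.Agent.RRHur.degree_poleDiv_eq_finrank hK hxK, hdeg.deg]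
  have h2 : Divisor.degree (poleDiv hk M.xbar) = (n : ℤ) := by
    rw [Fermat.Agent.RRHur.degree_poleDiv_eq_finrank hk hxk, hdeg.degk]
  have key : ∀ (y : Fk), (M.toValSetup hK hk).red M.x = y → Transcendental k y →
      ∀ [FiniteDimensional k⟮y⟯ Fk] [Algebra.IsSeparable k⟮y⟯ Fk],
      Divisor.degree (poleDiv hK M.x) ≤ Divisor.degree (poleDiv hk y) →
      Nat.card (Pic0.torsion K F m) ≤ Nat.card (Pic0.torsion k Fk m) := by
    intro y hy htr _ _ hle
    subst hy
    exact card_torsion_le_of_valSetup (M.toValSetup hK hk) (M.hasLattice n hdeg hK hk) hg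
      M.x M.x_mem htr hle m hm0 hmA
  exact key M.xbar hred hxk (by rw [h1, h2])

end Fermat.Agent.S27
end
end MergeWrap_S27_Red_SP

section MergeWrap_S27_Red_Upper -- from S27/Red/Upper.lean

set_option autoImplicit false
set_option linter.style.haveILetI false

noncomputable section

open AlgebraicCurve Fermat.Agent.RR IntermediateField

namespace Fermat.Agent.S27

/-- In a field of characteristic `p` which is integral over `ℤ` every element is fixed by a
power of the Frobenius. -/
theorem up_exists_pow_eq (p : ℕ) (hp : p.Prime) (k : Type*) [Field k] [CharP k p]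
    (hk : Algebra.IsIntegral ℤ k) (c : k) : ∃ n : ℕ, 0 < n ∧ c ^ (p ^ n) = c := by
  haveI : Fact p.Prime := ⟨hp⟩
  letI : Algebra (ZMod p) k := ZMod.algebra k p
  have halg : Algebra.IsAlgebraic (ZMod p) k := isAlgebraic_zmod_of_isIntegral p k hk
  have hc : IsIntegral (ZMod p) c := (halg.isAlgebraic c).isIntegral
  haveI : FiniteDimensional (ZMod p) (ZMod p)⟮c⟯ := IntermediateField.adjoin.finiteDimensional hc
  haveI : Finite (ZMod p)⟮c⟯ := Module.finite_of_finite (ZMod p)
  letI : Fintype (ZMod p)⟮c⟯ := Fintype.ofFinite _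
  have hcard : Fintype.card (ZMod p)⟮c⟯ = p ^ Module.finrank (ZMod p) (ZMod p)⟮c⟯ := by
    rw [Module.card_eq_pow_finrank (K := ZMod p) (V := (ZMod p)⟮c⟯), ZMod.card]
  refine ⟨Module.finrank (ZMod p) (ZMod p)⟮c⟯, Module.finrank_pos, ?_⟩
  have h := FiniteField.pow_card (⟨c, IntermediateField.mem_adjoin_simple_self _ c⟩ : (ZMod p)⟮c⟯)
  rw [hcard] at h
  exact congrArg Subtype.val h

variable {K F : Type*} [Field K] [Field F] [Algebra K F]

open Classical in
/-- the nonzero coefficients of the equation of a plane model. -/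
def PlaneModel.coeffSet (M : PlaneModel K F) : Finset K :=
  M.f.support.biUnion fun b => (M.f.coeff b).support.image fun a => (M.f.coeff b).coeff a

theorem PlaneModel.coeff_mem_coeffSet (M : PlaneModel K F) (b a : ℕ)
    (h : (M.f.coeff b).coeff a ≠ 0) : (M.f.coeff b).coeff a ∈ M.coeffSet := by
  classical
  rw [PlaneModel.coeffSet, Finset.mem_biUnion]
  refine ⟨b, ?_, Finset.mem_image.mpr ⟨a, Polynomial.mem_support_iff.mpr h, rfl⟩⟩
  rw [Polynomial.mem_support_iff]
  intro h0
  apply h
  rw [h0, Polynomial.coeff_zero]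

open Classical in
/-- the elements that must be units of the valuation ring. -/
def PlaneModel.goodSet (M : PlaneModel K F) (S : Finset K) (ℓ : ℕ) : Finset K :=
  branchUnits S ∪ M.coeffSet ∪ {M.c, ((M.N.factorial : ℕ) : K), (ℓ : K)}

/-- a valuation ring in which the good set consists of units is good for the plane model. -/
theorem PlaneModel.integralAt_of_goodSet [CharZero K] (M : PlaneModel K F) (S : Finset K) (ℓ : ℕ)
    (A : ValuationSubring K) (hT : ∀ t ∈ M.goodSet S ℓ, t ∈ A ∧ t⁻¹ ∈ A) : M.IntegralAt A where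
  coeff_mem := by
    classical
    intro b a
    by_cases h : (M.f.coeff b).coeff a = 0
    · rw [h]
      exact A.zero_mem
    · refine (hT _ ?_).1
      rw [PlaneModel.goodSet]
      exact Finset.mem_union_left _ (Finset.mem_union_right _ (M.coeff_mem_coeffSet b a h))
  c_inv_mem := by
    classical
    refine (hT _ ?_).2
    rw [PlaneModel.goodSet]
    exact Finset.mem_union_right _ (by simp)
  fact_ne_zero := Nat.cast_ne_zero.mpr (Nat.factorial_ne_zero _)
  fact_inv_mem := by
    classical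
    refine (hT _ ?_).2
    rw [PlaneModel.goodSet]
    exact Finset.mem_union_right _ (by simp)


section Inj

variable {k Fk : Type*} [Field k] [Field Fk] [Algebra k Fk]

open Fermat.Agent.Deuring Fermat.Agent.FF

/-- the reduction map on the `m`-torsion is injective, `m` a unit of `A` (abstract form). -/
theorem up_exists_injective_of_valSetup [IsAlgClosed k] (S : ValSetup K F k Fk)
    (hL : HasLattice S) (hg : genusFF K F = genusFF k Fk)
    (x : F) (hx : x ∈ S.Ov) (hy : Transcendental k (S.red x))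
    [FiniteDimensional (IntermediateField.adjoin k {S.red x}) Fk]
    [Algebra.IsSeparable (IntermediateField.adjoin k {S.red x}) Fk]
    (hle : Divisor.degree (poleDiv S.hF x) ≤ Divisor.degree (poleDiv S.hFk (S.red x)))
    (m : ℕ) (hm0 : (m : K) ≠ 0) (hmA : ((m : K))⁻¹ ∈ S.A) :
    ∃ φ : Pic0.torsion K F m → Pic0.torsion k Fk m, Function.Injective φ := by
  haveI : Infinite k := IsAlgClosed.instInfinite
  obtain ⟨r, hr⟩ := exists_isReduction S hL hg
  refine ⟨fun z => ⟨hr.redPic0 z.1, by
      rw [Pic0.mem_torsion, ← map_zsmul, Pic0.mem_torsion.mp z.2, map_zero]⟩, ?_⟩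
  intro z₁ z₂ h12
  have h0 : hr.redPic0 (z₁.1 - z₂.1) = 0 := by
    rw [map_sub, sub_eq_zero]
    exact congrArg Subtype.val h12
  have hz : (m : ℤ) • (z₁.1 - z₂.1) = 0 := by
    rw [zsmul_sub, Pic0.mem_torsion.mp z₁.2, Pic0.mem_torsion.mp z₂.2, sub_zero]
  have := sp_eq_zero_of_torsion S hr hg x hx hy hle m hm0 hmA _ hz h0
  exact Subtype.ext (sub_eq_zero.mp this)

/-- the reduction map on the `m`-torsion is injective, `m` a unit of `A` (`RedModel` form). -/
theorem up_exists_injective_of_redModel [IsAlgClosed k] (M : S27GR.RedModel K k F Fk) (n : ℕ)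
    (hdeg : S27GR.DegData M n) (hK : IsRRField K F) (hk : IsRRField k Fk)
    (hg : genusFF K F = genusFF k Fk)
    (m : ℕ) (hm0 : (m : K) ≠ 0) (hmA : ((m : K))⁻¹ ∈ M.A) :
    ∃ φ : Pic0.torsion K F m → Pic0.torsion k Fk m, Function.Injective φ := by
  have hred := sp_red_x M hK hk
  have hxK : Transcendental K M.x := M.lb_x_transcendental
  have hxk : Transcendental k M.xbar := M.x_trans
  haveI : FiniteDimensional k⟮M.xbar⟯ Fk :=
    Module.finite_of_finrank_pos (by rw [hdeg.degk]; exact hdeg.pos)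
  haveI : FiniteDimensional K⟮M.x⟯ F :=
    Module.finite_of_finrank_pos (by rw [hdeg.deg]; exact hdeg.pos)
  haveI : Algebra.IsSeparable k⟮M.xbar⟯ Fk := hdeg.sepk
  have h1 : Divisor.degree (poleDiv hK M.x) = (n : ℤ) := by
    rw [Fermat.Agent.RRHur.degree_poleDiv_eq_finrank hK hxK, hdeg.deg]
  have h2 : Divisor.degree (poleDiv hk M.xbar) = (n : ℤ) := by
    rw [Fermat.Agent.RRHur.degree_poleDiv_eq_finrank hk hxk, hdeg.degk]
  have key : ∀ (y : Fk), (M.toValSetup hK hk).red M.x = y → Transcendental k y →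
      ∀ [FiniteDimensional k⟮y⟯ Fk] [Algebra.IsSeparable k⟮y⟯ Fk],
      Divisor.degree (poleDiv hK M.x) ≤ Divisor.degree (poleDiv hk y) →
      ∃ φ : Pic0.torsion K F m → Pic0.torsion k Fk m, Function.Injective φ := by
    intro y hy htr _ _ hle
    subst hy
    exact up_exists_injective_of_valSetup (M.toValSetup hK hk) (M.hasLattice n hdeg hK hk) hg
      M.x M.x_mem htr hle m hm0 hmA
  exact key M.xbar hred hxk (by rw [h1, h2])

end Inj

universe u v

/-- **C-TOP, core**: for a plane model `M` of `F / K` (`K` algebraically closed of characteristic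
`0`) with reduction models (C-GAUSS), `Pic⁰(F)[ℓ^j]` is finite of order `≤ ℓ^(2 g j)`. -/
theorem torsionUpper_of_planeModel (hRed : RedModelStatement.{u, v})
    (K : Type u) (F : Type v) [Field K] [Field F] [Algebra K F] [IsAlgClosed K] [CharZero K]
    (hRR : IsRRField K F) (M : PlaneModel K F) (ℓ : ℕ) (hℓ : ℓ.Prime) (j : ℕ) :
    Finite (Pic0.torsion K F (ℓ ^ j)) ∧
      Nat.card (Pic0.torsion K F (ℓ ^ j)) ≤ ℓ ^ (2 * genusFF K F * j) := by
  classical
  -- `F / K(x)` is finite separable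
  haveI : FiniteDimensional K⟮M.x⟯ F :=
    Module.finite_of_finrank_pos (by rw [M.deg]; exact M.hN)
  haveI : CharZero K⟮M.x⟯ := charZero_of_injective_algebraMap (algebraMap K K⟮M.x⟯).injective
  haveI : Algebra.IsSeparable K⟮M.x⟯ F := inferInstance
  -- the branch set
  obtain ⟨S, hS⟩ := exists_branchSet hRR M.x_trans
  -- the valuation ring
  obtain ⟨p, A, hp, hpℓ, hT, hchar, hint, hac⟩ :=
    exists_valuationSubring_units_not_dvd (M.goodSet S ℓ) ℓ hℓ.ne_zero
  haveI := hchar
  haveI := hac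
  have hne : ℓ ≠ p := fun h => hpℓ (h ▸ dvd_rfl)
  have hI : M.IntegralAt A := M.integralAt_of_goodSet S ℓ A hT
  -- the reduction model
  obtain ⟨Fk, _, _, R, hRA, hRx, -, hdeg⟩ := hRed K F M A hI
  -- the reduced function field is an `IsRRField`
  haveI : FiniteDimensional (IsLocalRing.ResidueField A)⟮R.xbar⟯ Fk :=
    Module.finite_of_finrank_pos (by rw [hdeg.degk]; exact hdeg.pos)
  haveI : Algebra.IsSeparable (IsLocalRing.ResidueField A)⟮R.xbar⟯ Fk := hdeg.sepk
  have hxk : Transcendental (IsLocalRing.ResidueField A) R.xbar := R.x_trans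
  have hk : IsRRField (IsLocalRing.ResidueField A) Fk := isRRField_of_separable hxk
  -- branch data
  have hunr : ∀ c : K, c ∉ S → Fermat.Agent.S27GR.fibreCard K R.x c = M.N := by
    intro c hc
    rw [hRx, hS c hc, M.deg]
  have hT' : ∀ t ∈ branchUnits S, t ∈ R.A ∧ t⁻¹ ∈ R.A := by
    intro t ht
    rw [hRA]
    refine hT t ?_
    rw [PlaneModel.goodSet]
    exact Finset.mem_union_left _ (Finset.mem_union_left _ ht)
  -- genus equality
  have hg : genusFF K F = genusFF (IsLocalRing.ResidueField A) Fk :=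
    Fermat.Agent.S27GR.genusFF_eq_of_degData_branchData R M.N hdeg
      (branchDataOf R M.N S hunr hT') (branchDataOf_inv_mem R M.N S hunr hT') hRR hk
  -- the count in characteristic `p`
  obtain ⟨P₀⟩ := nonempty_place hk
  obtain ⟨Fr, hFrp, -⟩ := exists_frobStr p hp
    (fun c => up_exists_pow_eq p hp (IsLocalRing.ResidueField A) hint c) hk P₀
  haveI : Fact ℓ.Prime := ⟨hℓ⟩
  have hcard : Nat.card (Pic0.torsion (IsLocalRing.ResidueField A) Fk (ℓ ^ j)) =
      ℓ ^ (2 * genusFF (IsLocalRing.ResidueField A) Fk * j) :=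
    card_torsion_of_frobStr hk Fr ℓ (by rw [hFrp]; exact hne) j
  haveI : Finite (Pic0.torsion (IsLocalRing.ResidueField A) Fk (ℓ ^ j)) :=
    Nat.finite_of_card_ne_zero (by rw [hcard]; exact pow_ne_zero _ hℓ.ne_zero)
  -- specialisation
  have hℓA : ((ℓ : K))⁻¹ ∈ R.A := by
    rw [hRA]
    refine (hT _ ?_).2
    rw [PlaneModel.goodSet]
    exact Finset.mem_union_right _ (by simp)
  have hℓjA : (((ℓ ^ j : ℕ) : K))⁻¹ ∈ R.A := by
    rw [Nat.cast_pow, ← inv_pow]
    exact pow_mem hℓA j
  have hℓj0 : ((ℓ ^ j : ℕ) : K) ≠ 0 := Nat.cast_ne_zero.mpr (pow_ne_zero _ hℓ.ne_zero)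
  obtain ⟨φ, hφ⟩ := up_exists_injective_of_redModel R M.N hdeg hRR hk hg (ℓ ^ j) hℓj0 hℓjA
  refine ⟨Finite.of_injective φ hφ, ?_⟩
  rw [hg, ← hcard]
  exact Nat.card_le_card_of_injective φ hφ

/-- **C-TOP, strong form**: `Pic⁰(F)[ℓ^j]` is finite of order `≤ ℓ^(2 g j)`. -/
theorem torsionUpper_pow (hRed : RedModelStatement.{u, v})
    (hA : ∀ (K : Type u) (F : Type v) [Field K] [Field F] [Algebra K F] [IsAlgClosed K]
      [CharZero K], IsRRField K F → Nonempty (PlaneModel K F))
    (K : Type u) (F : Type v) [Field K] [Field F] [Algebra K F] [IsAlgClosed K] [CharZero K]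
    (hRR : IsRRField K F) (ℓ : ℕ) (hℓ : ℓ.Prime) (j : ℕ) :
    Finite (Pic0.torsion K F (ℓ ^ j)) ∧
      Nat.card (Pic0.torsion K F (ℓ ^ j)) ≤ ℓ ^ (2 * genusFF K F * j) := by
  obtain ⟨M⟩ := hA K F hRR
  exact torsionUpper_of_planeModel hRed K F hRR M ℓ hℓ j

/-- **C-TOP**: the upper bound `#Pic⁰(F)[ℓ] ≤ ℓ^(2g)` in characteristic `0`, from the reduction
model of a plane model (C-GAUSS) and the existence of plane models (block A). -/
theorem torsionUpper (hRed : RedModelStatement.{u, v})
    (hA : ∀ (K : Type u) (F : Type v) [Field K] [Field F] [Algebra K F] [IsAlgClosed K]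
      [CharZero K], IsRRField K F → Nonempty (PlaneModel K F)) :
    TorsionUpper.{u, v} := by
  intro K F _ _ _ _ _ hRR ℓ hℓ
  have h := (torsionUpper_pow hRed hA K F hRR ℓ hℓ 1).2
  rwa [pow_one, mul_one] at h

end Fermat.Agent.S27
end
end MergeWrap_S27_Red_Upper

section MergeWrap_R38_R_Fin -- from R38/R/Fin.lean

set_option autoImplicit false

/-!
# Row 38, block R (RET), leaf R-FIN  (helper55)

`B := Pic⁰(F)`, `F / k` a function field over an algebraically closed field `k` of characteristic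
`p` in which every element lies in a finite field (`k = 𝔽̄_p`, e.g. the residue field of a place of
`ℚ̄` above `p`).  `Φ` a semilinear automorphism of `F` which is `c ↦ c ^ (p ^ f)` on `k` (`f ≥ 1`)
and has finite orbits on `F` (automatic when `F` is generated over `k` by `Φ`-fixed elements,
`fin_orbit_of_gen`).  Then

* `fin_fixed_finite`      : `B^Φ = {c ∈ B | Φ c = c}` is FINITE  (class number of a function field
                            over a finite field; proof: S27 part D, `finite_fixed_one`);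
* `fin_fixed_pow_finite`  : the same for every power `Φ ^ m`, `m ≥ 1`;
* `fin_ppow_fixed_finite` : `B[n^∞]^Φ` is finite (the shape `(FIN)` of the lead's design note);
* `fin_exists_exponent`   : `∃ h > 0, ∀ c, Φ c = c → h • c = 0`  (bounded exponent);
* `fin_not_unbounded`     : there is NO family `u_a ∈ B^Φ` (`a : ℕ`) with `n ^ (a + 1) • u_a = 0`,
                            `n ^ a • u_a ≠ 0`  (the contradiction used in `(RET)`).

Modular instance (`F = F_k(N₀) = modularFunctionFieldFullC k N₀`, `Φ = frobAut k N₀ p`, the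
coefficientwise Frobenius of `Lib/BadRed/Mod/FrobAut.lean`), UNCONDITIONAL:

* `fin_frobAut_orbit`, `fin_frobAut_exists_frobStr` (= R-FROB (a): `FrobStr` with
  `σ = frobAut ^ (j m)`), `fin_frobAut_fixed_finite`, `fin_frobAut_ppow_fixed_finite`,
  `fin_frobAut_exists_exponent`, `fin_frobAut_not_unbounded`;
* `fin_halg_of_isIntegral` : the hypothesis `halg` for a field of characteristic `p` integral
  over `ℤ` (residue fields of valuation subrings of `ℚ̄`).
-/

noncomputable section

open AlgebraicCurve IntermediateField ModularCurve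

namespace Fermat.Agent.R38

open Fermat.Agent.RR Fermat.Agent.S27 Fermat.Agent.BadRed

section General

variable {k F : Type*} [Field k] [Field F] [Algebra k F]

/-- **finite orbits from fixed generators**: if `F = k(T)` with `T` pointwise fixed by `σ`, and
`σ` is a power of the Frobenius on `k = 𝔽̄_p`, then every `σ`-orbit on `F` is finite. -/
theorem fin_orbit_of_gen (σ : SemilinearAut k F) {p f : ℕ}
    (hbase : ∀ c : k, SemilinearAut.baseAut σ c = c ^ (p ^ f))
    (halg : ∀ c : k, ∃ n : ℕ, 0 < n ∧ c ^ (p ^ n) = c)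
    (T : Set F) (hT : ∀ t ∈ T, σ • t = t) (hgen : IntermediateField.adjoin k T = ⊤) (x : F) :
    ∃ m : ℕ, 0 < m ∧ (σ ^ m) • x = x := by
  have hx : x ∈ IntermediateField.adjoin k T := by rw [hgen]; trivial
  induction hx using IntermediateField.adjoin_induction with
  | mem y hy => exact ⟨1, one_pos, by rw [pow_one]; exact hT y hy⟩
  | algebraMap c =>
    obtain ⟨n, hn, hc⟩ := halg c
    refine ⟨n, hn, ?_⟩
    rw [SemilinearAut.smul_algebraMap, z1_baseAut_pow σ hbase n c, mul_comm, z1_pow_fix hc f]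
  | add y z _ _ hy hz => exact z1_orbit_add σ hy hz
  | inv y _ hy => exact z1_orbit_inv σ hy
  | mul y z _ _ hy hz => exact z1_orbit_mul σ hy hz

/-- finite orbits pass to powers. -/
theorem fin_orbit_pow (σ : SemilinearAut k F)
    (horb : ∀ x : F, ∃ m : ℕ, 0 < m ∧ (σ ^ m) • x = x) (j : ℕ) (x : F) :
    ∃ m : ℕ, 0 < m ∧ ((σ ^ j) ^ m) • x = x := by
  obtain ⟨m, hm, hx⟩ := horb x
  refine ⟨m, hm, ?_⟩
  rw [← pow_mul, mul_comm]
  exact z1_pow_mul_smul σ hx j

/-- a class fixed by `σ` is fixed by every power of `σ`. -/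
theorem fin_pow_smul_eq {M : Type*} [Monoid M] {X : Type*} [MulAction M X] (σ : M) {c : X}
    (hc : σ • c = c) (j : ℕ) : (σ ^ j) • c = c := by
  induction j with
  | zero => simp
  | succ j ih => rw [pow_succ, mul_smul, hc, ih]

/-- **(FIN), general form.**  `Pic⁰(F)^Φ` is finite. -/
theorem fin_fixed_finite [IsAlgClosed k] (hRR : IsRRField k F) {p : ℕ} (hp : p.Prime)
    [CharP k p] {f : ℕ} (hf : 0 < f) (σ : SemilinearAut k F)
    (hbase : ∀ c : k, SemilinearAut.baseAut σ c = c ^ (p ^ f))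
    (horb : ∀ x : F, ∃ m : ℕ, 0 < m ∧ (σ ^ m) • x = x) :
    {c : Pic0 k F | σ • c = c}.Finite := by
  obtain ⟨P₀⟩ := nonempty_place hRR
  obtain ⟨j, hj, hfix⟩ := exists_mem_fixPl_aux hRR σ horb P₀
  let S : FrobStr k F :=
    ⟨p, hp, inferInstance, f * j, Nat.mul_pos hf hj, σ ^ j, z1_baseAut_pow σ hbase j,
      fin_orbit_pow σ horb j, P₀, hfix⟩
  refine (finite_fixed_one hRR S).subset fun c hc => ?_
  show c ∈ fixedPow S.sigmaEnd 1
  rw [mem_fixedPow, pow_one, FrobStr.sigmaEnd_apply]
  exact fin_pow_smul_eq σ hc j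

/-- **(FIN)** for a power `Φ ^ m` of the Frobenius. -/
theorem fin_fixed_pow_finite [IsAlgClosed k] (hRR : IsRRField k F) {p : ℕ} (hp : p.Prime)
    [CharP k p] {f : ℕ} (hf : 0 < f) (σ : SemilinearAut k F)
    (hbase : ∀ c : k, SemilinearAut.baseAut σ c = c ^ (p ^ f))
    (horb : ∀ x : F, ∃ m : ℕ, 0 < m ∧ (σ ^ m) • x = x) {m : ℕ} (hm : 0 < m) :
    {c : Pic0 k F | (σ ^ m) • c = c}.Finite :=
  fin_fixed_finite hRR hp (Nat.mul_pos hf hm) (σ ^ m) (z1_baseAut_pow σ hbase m)
    (fin_orbit_pow σ horb m)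

/-- **(FIN)**, the shape of the design note: `B[n^∞]^Φ` is finite. -/
theorem fin_ppow_fixed_finite [IsAlgClosed k] (hRR : IsRRField k F) {p : ℕ} (hp : p.Prime)
    [CharP k p] {f : ℕ} (hf : 0 < f) (σ : SemilinearAut k F)
    (hbase : ∀ c : k, SemilinearAut.baseAut σ c = c ^ (p ^ f))
    (horb : ∀ x : F, ∃ m : ℕ, 0 < m ∧ (σ ^ m) • x = x) (n : ℕ) :
    {c : Pic0 k F | (∃ a : ℕ, n ^ a • c = 0) ∧ σ • c = c}.Finite :=
  (fin_fixed_finite hRR hp hf σ hbase horb).subset fun _ hc => hc.2

/-- the subgroup of `σ`-fixed classes. -/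
def finFixed (σ : SemilinearAut k F) : AddSubgroup (Pic0 k F) where
  carrier := {c | σ • c = c}
  zero_mem' := smul_zero σ
  add_mem' := fun {a b} ha hb => by
    show σ • (a + b) = a + b
    rw [smul_add, ha, hb]
  neg_mem' := fun {a} ha => by
    show σ • (-a) = -a
    rw [smul_neg, ha]

theorem mem_finFixed (σ : SemilinearAut k F) (c : Pic0 k F) : c ∈ finFixed σ ↔ σ • c = c :=
  Iff.rfl

/-- **bounded exponent**: one positive integer kills all `Φ`-fixed classes. -/
theorem fin_exists_exponent [IsAlgClosed k] (hRR : IsRRField k F) {p : ℕ} (hp : p.Prime)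
    [CharP k p] {f : ℕ} (hf : 0 < f) (σ : SemilinearAut k F)
    (hbase : ∀ c : k, SemilinearAut.baseAut σ c = c ^ (p ^ f))
    (horb : ∀ x : F, ∃ m : ℕ, 0 < m ∧ (σ ^ m) • x = x) :
    ∃ h : ℕ, 0 < h ∧ ∀ c : Pic0 k F, σ • c = c → h • c = 0 := by
  have hfin : (finFixed σ : Set (Pic0 k F)).Finite := fin_fixed_finite hRR hp hf σ hbase horb
  have : Finite (finFixed σ) := hfin.to_subtype
  refine ⟨Nat.card (finFixed σ), Nat.card_pos, fun c hc => ?_⟩
  have h := card_nsmul_eq_zero' (G := finFixed σ) (x := ⟨c, hc⟩)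
  exact congrArg Subtype.val h

/-- **the contradiction of `(RET)`**: there is no family of `Φ`-fixed classes `u_a` of exact
order `n ^ (a + 1)`. -/
theorem fin_not_unbounded [IsAlgClosed k] (hRR : IsRRField k F) {p : ℕ} (hp : p.Prime)
    [CharP k p] {f : ℕ} (hf : 0 < f) (σ : SemilinearAut k F)
    (hbase : ∀ c : k, SemilinearAut.baseAut σ c = c ^ (p ^ f))
    (horb : ∀ x : F, ∃ m : ℕ, 0 < m ∧ (σ ^ m) • x = x) (n : ℕ) :
    ¬ ∀ a : ℕ, ∃ c : Pic0 k F, σ • c = c ∧ n ^ (a + 1) • c = 0 ∧ n ^ a • c ≠ 0 := by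
  intro hall
  have hfin := fin_fixed_finite hRR hp hf σ hbase horb
  choose u hu1 hu2 hu3 using hall
  have hinj : Function.Injective u := by
    intro a b hab
    by_contra hne
    rcases Nat.lt_or_gt_of_ne hne with h | h
    · -- a < b : n^(a+1) u_b = 0, but n^b u_b ≠ 0 with a + 1 ≤ b
      apply hu3 b
      obtain ⟨d, rfl⟩ : ∃ d, b = a + 1 + d := ⟨b - (a + 1), by omega⟩
      rw [pow_add, mul_comm, mul_smul, ← hab, hu2 a, smul_zero]
    · apply hu3 a
      obtain ⟨d, rfl⟩ : ∃ d, a = b + 1 + d := ⟨a - (b + 1), by omega⟩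
      rw [pow_add, mul_comm, mul_smul, hab, hu2 b, smul_zero]
  have hinf : (Set.range u).Infinite := Set.infinite_range_of_injective hinj
  exact hinf (hfin.subset (by rintro _ ⟨a, rfl⟩; exact hu1 a))

/-- **a Frobenius structure with prescribed `σ`-power**: for every place `P₀` there is `j > 0`
such that for every `m > 0` there is a Frobenius structure with `σ`-component `σ ^ (j * m)`,
`q = p ^ (f j m)` and fixed place `P₀`. -/
theorem fin_exists_frobStr (hRR : IsRRField k F) {p : ℕ} (hp : p.Prime)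
    [CharP k p] {f : ℕ} (hf : 0 < f) (σ : SemilinearAut k F)
    (hbase : ∀ c : k, SemilinearAut.baseAut σ c = c ^ (p ^ f))
    (horb : ∀ x : F, ∃ m : ℕ, 0 < m ∧ (σ ^ m) • x = x) (P₀ : Place k F) :
    ∃ j : ℕ, 0 < j ∧ ∀ m : ℕ, 0 < m →
      ∃ S : FrobStr k F, S.p = p ∧ S.f = f * (j * m) ∧ S.σ = σ ^ (j * m) ∧ S.P₀ = P₀ := by
  obtain ⟨j, hj, hfix⟩ := exists_mem_fixPl_aux hRR σ horb P₀
  refine ⟨j, hj, fun m hm => ?_⟩
  have hfix' : (σ ^ (j * m)) • P₀ = P₀ := by
    rw [pow_mul]
    exact fin_pow_smul_eq (σ ^ j) hfix m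
  exact ⟨⟨p, hp, inferInstance, f * (j * m), Nat.mul_pos hf (Nat.mul_pos hj hm), σ ^ (j * m),
    z1_baseAut_pow σ hbase (j * m), fin_orbit_pow σ horb (j * m), P₀, hfix'⟩, rfl, rfl, rfl, rfl⟩

/-- the preimage of the generators generates `k(T)` (as a field over `k`). -/
theorem fin_adjoin_preimage_eq_top {E : Type*} [Field E] [Algebra k E] (T : Set E) :
    IntermediateField.adjoin k
      (((↑) : IntermediateField.adjoin k T → E) ⁻¹' T) = ⊤ := by
  apply IntermediateField.lift_injective
  rw [IntermediateField.lift_adjoin, IntermediateField.lift_top,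
    Set.image_preimage_eq_inter_range, Subtype.range_coe]
  congr 1
  exact Set.inter_eq_left.mpr (IntermediateField.subset_adjoin k T)

/-- **finite orbits on `k(T)`** when the generators `T` are fixed. -/
theorem fin_orbit_of_adjoin {E : Type*} [Field E] [Algebra k E] {T : Set E}
    (σ : SemilinearAut k (IntermediateField.adjoin k T)) {p f : ℕ}
    (hbase : ∀ c : k, SemilinearAut.baseAut σ c = c ^ (p ^ f))
    (halg : ∀ c : k, ∃ n : ℕ, 0 < n ∧ c ^ (p ^ n) = c)
    (hT : ∀ t : IntermediateField.adjoin k T, (t : E) ∈ T → σ • t = t)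
    (x : IntermediateField.adjoin k T) :
    ∃ m : ℕ, 0 < m ∧ (σ ^ m) • x = x :=
  fin_orbit_of_gen σ hbase halg _ (fun t ht => hT t ht) (fin_adjoin_preimage_eq_top T) x

end General

/-! ### the hypothesis `halg` -/

/-- in a field of characteristic `p` which is integral over `ℤ` every element lies in a finite
field (S27, `up_exists_pow_eq`). -/
theorem fin_halg_of_isIntegral (p : ℕ) (hp : p.Prime) (k : Type*) [Field k] [CharP k p]
    (hk : Algebra.IsIntegral ℤ k) (c : k) : ∃ n : ℕ, 0 < n ∧ c ^ (p ^ n) = c :=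
  up_exists_pow_eq p hp k hk c

/-! ### the modular instance -/

section Modular

variable (k : Type*) [Field k] (N₀ : ℕ) (p : ℕ) [Fact p.Prime] [CharP k p] [PerfectRing k p]

/-- the base automorphism of `frobAut`, in the shape of `FrobStr`. -/
theorem fin_frobAut_base (c : k) :
    SemilinearAut.baseAut (frobAut k N₀ p) c = c ^ (p ^ 1) := by
  rw [pow_one]
  exact baseAut_frobAut_apply k N₀ p c

/-- the generators `j(q^d)` of `F_k(N₀)` are fixed by the coefficientwise Frobenius, so all
orbits of `frobAut` on `F_k(N₀)` are finite. -/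
theorem fin_frobAut_orbit (halg : ∀ c : k, ∃ n : ℕ, 0 < n ∧ c ^ (p ^ n) = c)
    (x : modularFunctionFieldFullC k N₀) :
    ∃ m : ℕ, 0 < m ∧ (frobAut k N₀ p ^ m) • x = x := by
  have key : ∀ t : modularFunctionFieldFullC k N₀,
      (t : LaurentSeries k) ∈ divisorExpansionsC k N₀ → frobAut k N₀ p • t = t := by
    intro t ht
    apply Subtype.ext
    rw [coe_frobAut_smul]
    obtain ⟨d, hd, hdvd, hd'⟩ := ht
    rw [hd', coeffMap_qExpand, coeffMap_jqModC]
  exact fin_orbit_of_adjoin (T := divisorExpansionsC k N₀) (frobAut k N₀ p)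
    (fin_frobAut_base k N₀ p) halg key x

variable [IsAlgClosed k] [NeZero N₀]

/-- **(FIN), modular form.**  For `B = Pic⁰(F_k(N₀))`, `k = 𝔽̄_p`, and `Φ = Frob ^ f` (`f ≥ 1`)
the group `B^Φ` is finite. -/
theorem fin_frobAut_fixed_finite (halg : ∀ c : k, ∃ n : ℕ, 0 < n ∧ c ^ (p ^ n) = c)
    {f : ℕ} (hf : 0 < f) :
    {c : Pic0 k (modularFunctionFieldFullC k N₀) | (frobAut k N₀ p ^ f) • c = c}.Finite :=
  fin_fixed_pow_finite (Fermat.Agent.RRMod.isRRField_fullC' k N₀) (Fact.out : p.Prime) one_pos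
    (frobAut k N₀ p) (fin_frobAut_base k N₀ p) (fin_frobAut_orbit k N₀ p halg) hf

/-- **R-FROB (a), modular form**: Frobenius structures on `F_k(N₀)` whose `σ` is a power of the
coefficientwise Frobenius `frobAut`, with any prescribed fixed place `P₀` and exponent divisible
by any prescribed `m`. -/
theorem fin_frobAut_exists_frobStr (halg : ∀ c : k, ∃ n : ℕ, 0 < n ∧ c ^ (p ^ n) = c)
    (P₀ : Place k (modularFunctionFieldFullC k N₀)) :
    ∃ j : ℕ, 0 < j ∧ ∀ m : ℕ, 0 < m →
      ∃ S : FrobStr k (modularFunctionFieldFullC k N₀),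
        S.p = p ∧ S.f = j * m ∧ S.σ = frobAut k N₀ p ^ (j * m) ∧ S.P₀ = P₀ := by
  obtain ⟨j, hj, h⟩ := fin_exists_frobStr (Fermat.Agent.RRMod.isRRField_fullC' k N₀)
    (Fact.out : p.Prime) one_pos (frobAut k N₀ p) (fin_frobAut_base k N₀ p)
    (fin_frobAut_orbit k N₀ p halg) P₀
  refine ⟨j, hj, fun m hm => ?_⟩
  obtain ⟨S, h1, h2, h3, h4⟩ := h m hm
  exact ⟨S, h1, by rw [h2, one_mul], h3, h4⟩

/-- **(FIN), modular form**, `B[n^∞]^Φ` is finite. -/
theorem fin_frobAut_ppow_fixed_finite (halg : ∀ c : k, ∃ n : ℕ, 0 < n ∧ c ^ (p ^ n) = c)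
    {f : ℕ} (hf : 0 < f) (n : ℕ) :
    {c : Pic0 k (modularFunctionFieldFullC k N₀) |
      (∃ a : ℕ, n ^ a • c = 0) ∧ (frobAut k N₀ p ^ f) • c = c}.Finite :=
  (fin_frobAut_fixed_finite k N₀ p halg hf).subset fun _ hc => hc.2

/-- **bounded exponent, modular form.** -/
theorem fin_frobAut_exists_exponent (halg : ∀ c : k, ∃ n : ℕ, 0 < n ∧ c ^ (p ^ n) = c)
    {f : ℕ} (hf : 0 < f) :
    ∃ h : ℕ, 0 < h ∧ ∀ c : Pic0 k (modularFunctionFieldFullC k N₀),
      (frobAut k N₀ p ^ f) • c = c → h • c = 0 :=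
  fin_exists_exponent (Fermat.Agent.RRMod.isRRField_fullC' k N₀) (Fact.out : p.Prime)
    (Nat.mul_pos one_pos hf) (frobAut k N₀ p ^ f)
    (z1_baseAut_pow (frobAut k N₀ p) (fin_frobAut_base k N₀ p) f)
    (fin_orbit_pow (frobAut k N₀ p) (fin_frobAut_orbit k N₀ p halg) f)

/-- **the contradiction of `(RET)`, modular form.** -/
theorem fin_frobAut_not_unbounded (halg : ∀ c : k, ∃ n : ℕ, 0 < n ∧ c ^ (p ^ n) = c)
    {f : ℕ} (hf : 0 < f) (n : ℕ) :
    ¬ ∀ a : ℕ, ∃ c : Pic0 k (modularFunctionFieldFullC k N₀),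
      (frobAut k N₀ p ^ f) • c = c ∧ n ^ (a + 1) • c = 0 ∧ n ^ a • c ≠ 0 :=
  fin_not_unbounded (Fermat.Agent.RRMod.isRRField_fullC' k N₀) (Fact.out : p.Prime)
    (Nat.mul_pos one_pos hf) (frobAut k N₀ p ^ f)
    (z1_baseAut_pow (frobAut k N₀ p) (fin_frobAut_base k N₀ p) f)
    (fin_orbit_pow (frobAut k N₀ p) (fin_frobAut_orbit k N₀ p halg) f) n

end Modular

end Fermat.Agent.R38
end
end MergeWrap_R38_R_Fin

section MergeWrap_R38_Ret_FrobCompat -- from R38/Ret/FrobCompat.lean

set_option autoImplicit false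
set_option linter.style.haveILetI false
set_option linter.unusedSectionVars false
set_option synthInstance.maxHeartbeats 400000

noncomputable section

open AlgebraicCurve ModularCurve HahnSeries Fermat.Agent.RR Fermat.Agent.BadRed

namespace Fermat.Agent.R38Ret

local notation "Qb" => AlgebraicClosure ℚ
local notation "GQ" => (AlgebraicClosure ℚ ≃ₐ[ℚ] AlgebraicClosure ℚ)

/-- the powers of a Frobenius element act on the residue field by `x ↦ x ^ (ℓ ^ m)`. -/
theorem galRed_frob_pow_smul (A : ValuationSubring Qb) (ℓ : ℕ) (σ : GQ)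
    (hσ : A.IsFrobeniusAt σ ℓ) (m : ℕ) (x : IsLocalRing.ResidueField A) :
    ((⟨σ, hσ.mem_decompositionSubgroup⟩ : A.decompositionSubgroup ℚ) ^ m) • x = x ^ (ℓ ^ m) := by
  induction m generalizing x with
  | zero => rw [pow_zero, one_smul, pow_zero, pow_one]
  | succ m ih =>
    rw [pow_succ, mul_smul, hσ.smul_residue_eq, ih, ← pow_mul, ← pow_succ']

/-- every element of the residue field of a place of `ℚ̄` over `ℓ` lies in a finite field. -/
theorem galRed_halg (A : ValuationSubring Qb) (ℓ : ℕ) (hℓ : ℓ.Prime) (hA : A.LiesOverPrime ℓ)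
    (c : IsLocalRing.ResidueField A) : ∃ n : ℕ, 0 < n ∧ c ^ (ℓ ^ n) = c := by
  obtain ⟨σ, hσ, -, -⟩ := Fermat.Agent.FrobBridge.exists_isFrobeniusAt_of_liesOver A ℓ hℓ hA
  obtain ⟨a, rfl⟩ := IsLocalRing.residue_surjective c
  haveI : FiniteDimensional ℚ (IntermediateField.adjoin ℚ {(a : Qb)}) :=
    IntermediateField.adjoin.finiteDimensional
      ((AlgebraicClosure.isAlgebraic ℚ).isAlgebraic (a : Qb)).isIntegral
  obtain ⟨m, hm, hfix⟩ := galRed_exists_pow_fix σ (IntermediateField.adjoin ℚ {(a : Qb)})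
  refine ⟨m, hm, ?_⟩
  have ha : (σ ^ m) (a : Qb) = a :=
    hfix _ (IntermediateField.subset_adjoin ℚ _ (Set.mem_singleton _))
  have h1 : ((⟨σ, hσ.mem_decompositionSubgroup⟩ : A.decompositionSubgroup ℚ) ^ m) • a = a := by
    apply Subtype.ext
    exact ha
  rw [← galRed_frob_pow_smul A ℓ σ hσ m, ← IsLocalRing.ResidueField.residue_smul, h1]

set_option maxHeartbeats 1600000 in
/-- **R-FROB** at a place `A` over a prime `p ∤ M`: for every number field `L` there are a
Frobenius structure `Φ` on `F_k(M)` and `s ∈ G_L` with `red ∘ s = Φ ∘ red` on `J₀(M)(ℚ̄)`. -/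
theorem redFrobCompat_at {p M : ℕ} [NeZero M] (hp : p.Prime) (hpM : ¬ p ∣ M)
    (A : ValuationSubring Qb) (hA : A.LiesOverPrime p)
    (L : IntermediateField ℚ Qb) (hL : FiniteDimensional ℚ L) :
    ∃ (Φ : Fermat.Agent.S27.FrobStr (IsLocalRing.ResidueField A)
        (modularFunctionFieldFullC (IsLocalRing.ResidueField A) M)) (s : GQ),
      (∀ y ∈ L, s y = y) ∧
      ∀ w : JZero M, reductionModL A M (s • w) = Φ.sigmaEnd (reductionModL A M w) := by
  haveI : Fact p.Prime := ⟨hp⟩
  haveI : CharP (IsLocalRing.ResidueField A) p := Fermat.Agent.FrobTrace.charP_residueField A hA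
  haveI : IsAlgClosed (IsLocalRing.ResidueField A) :=
    Fermat.Agent.FrobTrace.isAlgClosed_residueField A
  haveI : PerfectRing (IsLocalRing.ResidueField A) p := inferInstance
  obtain ⟨σ, hσ, -, -⟩ := Fermat.Agent.FrobBridge.exists_isFrobeniusAt_of_liesOver A p hp hA
  obtain ⟨P₀⟩ := nonempty_place
    (Fermat.Agent.RRMod.isRRField_fullC' (IsLocalRing.ResidueField A) M)
  obtain ⟨j, hj, hS⟩ := Fermat.Agent.R38.fin_frobAut_exists_frobStr
    (IsLocalRing.ResidueField A) M p (galRed_halg A p hp hA) P₀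
  obtain ⟨m, hm, hfix⟩ := galRed_exists_pow_fix (σ ^ j) L
  obtain ⟨S, -, -, hSσ, -⟩ := hS m hm
  refine ⟨S, (σ ^ j) ^ m, hfix, fun w => ?_⟩
  rw [Fermat.Agent.S27.FrobStr.sigmaEnd_apply, hSσ, ← pow_mul,
    galRed_frobenius_pow A p M hA hpM σ hσ (j * m) w]

/-- **(R-FROB)**: `RedFrobCompat p M` for a prime `p ∤ M`. -/
theorem redFrobCompat {p M : ℕ} [NeZero M] (hp : p.Prime) (hpM : ¬ p ∣ M) :
    RedFrobCompat p M :=
  fun A hA L hL => redFrobCompat_at hp hpM A hA L hL

end Fermat.Agent.R38Ret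
end
end MergeWrap_R38_Ret_FrobCompat

section MergeWrap_R38_Ret_Junction -- from R38/Ret/Junction.lean

/-!
# Row 38, block R (RET): `(RET)` and the junction `SpJR` of the spine  (sub-architect helper44)

* `retStatement : RetStatement p M S` for `p` prime, `p ∤ M`, `p ∈ S`, the primes of `M` in `S`
  (`retStatement_of_frob` of `Ret/Final.lean` + `redFrobCompat` of helper79);
* `spJR : R38.SpJR`.
-/

set_option autoImplicit false

namespace Fermat.Agent.R38Ret

/-- **(RET)**: block R. -/
theorem retStatement {p M : ℕ} [NeZero M] (hp : p.Prime) (hpM : ¬ p ∣ M) {S : Finset ℕ}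
    (hpS : p ∈ S) (hMS : ∀ q : ℕ, q.Prime → q ∣ M → q ∈ S) : RetStatement p M S :=
  retStatement_of_frob hp hpM hpS hMS (redFrobCompat hp hpM)

/-- **J-R**, the junction of the spine of row 38. -/
theorem spJR : Fermat.Agent.R38.SpJR :=
  fun _ _ _ hp _ hpM _ hpS hMS => retStatement hp hpM hpS hMS

end Fermat.Agent.R38Ret
end MergeWrap_R38_Ret_Junction
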